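import Fermat.Agent.ModLift.Modules.Assembly
import Fermat.Agent.ModLift.Modules.Ordinary
import Fermat.Agent.EigenLattice.Push
import Fermat.Agent.EigenLattice.Galois
import Fermat.Agent.BadRed.Level

/-!
# Frobenius on a module mapped to torsion of a level with the prime exactly dividing it

A map of a module to torsion of `J₀(N ℓ)` commuting with the operators at almost all primes turns
the trace of Frobenius at `ℓ` into `φ + ℓ φ⁻¹`, so on elements going to classes killed by both push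
forwards that trace squared is `(ℓ + 1)²`.
-/

set_option autoImplicit false
set_option linter.unusedSectionVars false
set_option linter.style.haveILetI false

noncomputable section

set_option synthInstance.maxHeartbeats 400000
set_option maxHeartbeats 1000000

open IsLocalRing AlgebraicCurve

namespace FLTAgent.ModLift

open FLTAgent.Lowering FLTAgent.EigenLattice
open FLTAgent.TorsionHom (heckeTors)
open ModularCurve (JZero heckeOperatorBar modularFunctionFieldBar heckeAlphaBar heckeBetaBar)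

local notation "QA" => AlgebraicClosure ℚ
local notation "GG" => (AlgebraicClosure ℚ ≃ₐ[ℚ] AlgebraicClosure ℚ)
local notation "M2" => Matrix (Fin 2) (Fin 2)

/-- The recurrence of the traces of powers. -/
theorem trGL_pow_add_two {R : Type*} [CommRing R] (A : GL (Fin 2) R) (j : ℕ) :
    trGL (A ^ (j + 2)) = trGL A * trGL (A ^ (j + 1)) - detGL A * trGL (A ^ j) := by
  simp only [trGL, detGL, pow_succ, Units.val_mul]
  simp [Matrix.trace_fin_two, Matrix.det_fin_two, Matrix.mul_apply, Fin.sum_univ_two]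
  ring

/-- A matrix congruent to one preserves trace and determinant. -/
theorem trGL_mul_sub_mem {R : Type*} [CommRing R] (I : Ideal R) (A B : GL (Fin 2) R)
    (hB : ∀ i j, (B : M2 R) i j - (1 : M2 R) i j ∈ I) :
    trGL (A * B) - trGL A ∈ I ∧ detGL (A * B) - detGL A ∈ I := by
  set π := Ideal.Quotient.mk I
  have hmap : π.mapMatrix (B : M2 R) = 1 := by
    ext i j
    rw [← (π.mapMatrix (m := Fin 2)).map_one]
    exact (Ideal.Quotient.mk_eq_mk_iff_sub_mem _ _).2 (hB i j)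
  refine ⟨(Ideal.Quotient.mk_eq_mk_iff_sub_mem _ _).1 ?_,
    (Ideal.Quotient.mk_eq_mk_iff_sub_mem _ _).1 ?_⟩
  · show π ((A * B : GL (Fin 2) R) : M2 R).trace = π (A : M2 R).trace
    simp only [Matrix.trace, Matrix.diag, map_sum]
    show (π.mapMatrix ((A * B : GL (Fin 2) R) : M2 R)).trace = (π.mapMatrix (A : M2 R)).trace
    rw [Units.val_mul, map_mul, hmap, mul_one]
  · show π ((A * B : GL (Fin 2) R) : M2 R).det = π (A : M2 R).det
    rw [RingHom.map_det, RingHom.map_det, Units.val_mul, map_mul, hmap, mul_one]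

theorem gal_nsmul {N : ℕ} (σ : GG) (m : ℕ) (w : JZero N) : σ • (m • w) = m • (σ • w) :=
  map_nsmul (DistribSMul.toAddMonoidHom (JZero N) σ) m w

theorem gal_sub {N : ℕ} (σ : GG) (u w : JZero N) : σ • (u - w) = σ • u - σ • w :=
  map_sub (DistribSMul.toAddMonoidHom (JZero N) σ) u w

variable {p : ℕ} [Fact p.Prime] {O : Type} [CommRing O] [IsDomain O] [IsDiscreteValuationRing O]
  [Algebra ℤ_[p] O] [Module.Finite ℤ_[p] O] [CharZero O] {S : Setup p O}

namespace Aux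

variable (X : Aux S) (hX : Geometry X) (e : Bool) {N : ℕ} [NeZero N] {k : ℕ}
  (x : X.Mod e →+ JZero N) (htors : ∀ y, p ^ k • x y = 0) (B : Finset ℕ)
  (hT : ∀ r : X.TrPrime, r.1.1 ∉ B → ∀ y,
    x (X.actTR e (X.trace r) y) = heckeOperatorBar N ⟨r.1.1, r.1.2.1⟩ (x y))

include htors in
theorem map_actTR_congr {a b : X.TR} (h : a - b ∈ Ideal.span {(p : X.TR) ^ k}) (y : X.Mod e) :
    x (X.actTR e a y) = x (X.actTR e b y) := by
  obtain ⟨c, hc⟩ := Ideal.mem_span_singleton.1 h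
  rw [show a = b + (p ^ k : ℕ) • c by
    rw [nsmul_eq_mul, Nat.cast_pow, ← hc]; ring, map_add, map_nsmul, LinearMap.add_apply,
    LinearMap.smul_apply, map_add, map_nsmul, htors, add_zero]

theorem map_actTR_natCast (m : ℕ) (y : X.Mod e) :
    x (X.actTR e (m : X.TR) y) = m • x y := by
  rw [map_natCast, Module.End.natCast_apply, map_nsmul]

include htors hT in
/-- The operator of a power of a Frobenius element at a good prime. -/
theorem map_actTR_frobenius_pow (r : X.TrPrime) (hrB : r.1.1 ∉ B) (hrN : ¬ r.1.1 ∣ N)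
    (hrp : r.1.1 ≠ p) {V : ValuationSubring QA} (hV : V.LiesOverPrime r.1.1) {τ : GG}
    (hτ : V.IsFrobeniusAt τ r.1.1) (j : ℕ) (y : X.Mod e) :
    x (X.actTR e (trGL ((X.pseudo_spec hX).rep (τ ^ j))) y) =
      (τ ^ j) • x y + (r.1.1 ^ j) • ((τ ^ j)⁻¹ • x y) := by
  set ρ := (X.pseudo_spec hX).rep
  have hrn : ¬ r.1.1 ∣ p ^ k := fun h =>
    hrp ((Nat.prime_dvd_prime_iff_eq r.1.2.1 Fact.out).1 (r.1.2.1.dvd_of_dvd_pow h))
  have htr : trGL (ρ τ) = X.trace r :=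
    ((X.pseudo_spec hX).tr_rep τ).trans ((X.pseudo_spec hX).frob r V hV τ hτ)
  have hdet : detGL (ρ τ) = (r.1.1 : X.TR) := (X.levelData hX).det_frobenius r.1.2.1 hrp hV hτ
  have hop : ∀ w, x (X.actTR e (X.trace r) w) = τ • x w + r.1.1 • (τ⁻¹ • x w) := fun w => by
    rw [hT r hrB w]
    exact coe_heckeTors_frobenius (p ^ k) ⟨r.1.1, r.1.2.1⟩ hrN hrn hV hτ
      ⟨x w, Pic0.mem_torsion.2 (by rw [natCast_zsmul]; exact htors w)⟩
  induction j using Nat.twoStepInduction generalizing y with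
  | zero =>
    rw [pow_zero, pow_zero, one_smul, map_one, inv_one, one_smul, one_smul,
      show trGL (1 : GL (Fin 2) X.TR) = ((2 : ℕ) : X.TR) by
        simp [trGL], map_actTR_natCast, two_nsmul]
  | one => rw [pow_one, pow_one, htr, hop]
  | more j ih0 ih1 =>
    have ih0 := fun w => ih0 (y := w)
    have ih1 := fun w => ih1 (y := w)
    rw [map_pow ρ, trGL_pow_add_two, ← map_pow ρ, ← map_pow ρ, htr, hdet, map_sub, map_mul,
      map_mul, LinearMap.sub_apply, Module.End.mul_apply, Module.End.mul_apply, map_sub, hop,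
      map_actTR_natCast, ih0, ih1]
    simp only [smul_add, gal_nsmul, ← mul_smul]
    have e1 : τ * τ ^ (j + 1) = τ ^ (j + 2) := (pow_succ' τ (j + 1)).symm
    have e2 : τ⁻¹ * τ ^ (j + 1) = τ ^ j := by rw [pow_succ', inv_mul_cancel_left]
    have e3 : τ * (τ ^ (j + 1))⁻¹ = (τ ^ j)⁻¹ := by
      rw [pow_succ, mul_inv_rev, mul_inv_cancel_left]
    have e4 : τ⁻¹ * (τ ^ (j + 1))⁻¹ = (τ ^ (j + 2))⁻¹ := by rw [← mul_inv_rev, ← pow_succ]
    simp only [e1, e2, e3, e4, pow_succ' (r.1.1 : ℕ), mul_nsmul']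
    simp only [nsmul_add]
    abel

variable {ℓ : ℕ} [Fact ℓ.Prime] (hℓp : ℓ ≠ p) {V : ValuationSubring QA}
  (hV : V.LiesOverPrime ℓ) {φ : GG} (hφ : V.IsFrobeniusAt φ ℓ)

include htors hT hℓp hV hφ in
/-- **The trace of Frobenius at `ℓ`.** -/
theorem map_actTR_trace (y : X.Mod e) :
    x (X.actTR e (trGL ((X.pseudo_spec hX).rep φ)) y) = φ • x y + ℓ • (φ⁻¹ • x y) := by
  classical
  set ρ := (X.pseudo_spec hX).rep
  have hn : p ^ k ≠ 0 := pow_ne_zero _ (Fact.out : p.Prime).ne_zero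
  have htors' : p ^ k • (φ⁻¹ • x y) = 0 := by
    rw [← gal_nsmul, htors]
    exact map_zero (DistribSMul.toAddMonoidHom (JZero N) φ⁻¹)
  obtain ⟨L1, hL1, hfix1⟩ := exists_level_class N hn (htors y)
  obtain ⟨L2, hL2, hfix2⟩ := exists_level_class N hn htors'
  obtain ⟨L3, hL3, hfix3⟩ := (X.pseudo_spec hX).continuous_rep k
  haveI : FiniteDimensional ℚ (L1 ⊔ L2 : IntermediateField ℚ QA) := inferInstance
  obtain ⟨l, W, τ, j, hl, hlbad, hW, hτ, heq⟩ := Frobenius.exists_frobenius_pow_eqOn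
    (L1 ⊔ L2 ⊔ L3) φ (S.bad ∪ X.level.primeFactors ∪ N.primeFactors ∪ B)
  simp only [Finset.mem_union, not_or] at hlbad
  let r : X.TrPrime := ⟨⟨l, hl, hlbad.1.1.1⟩, fun hd => hlbad.1.1.2
    (Nat.mem_primeFactors.mpr ⟨hl, hd, X.level_pos.ne'⟩)⟩
  have hlp : l ≠ p := fun h => hlbad.1.1.1 (h ▸ S.p_mem)
  have hlN : ¬ l ∣ N := fun hd => hlbad.1.2 (Nat.mem_primeFactors.mpr ⟨hl, hd, NeZero.ne N⟩)
  set σ : GG := (τ ^ j)⁻¹ * φ
  have hσ : ∀ a ∈ L1 ⊔ L2 ⊔ L3, σ a = a := fun a ha => by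
    show (τ ^ j)⁻¹ (φ a) = a
    rw [heq a ha]
    exact (τ ^ j).symm_apply_apply a
  have hφeq : φ = τ ^ j * σ := (mul_inv_cancel_left _ _).symm
  have hw1 : φ • x y = (τ ^ j) • x y := by
    rw [hφeq, mul_smul, hfix1 σ fun a ha =>
      hσ a ((le_sup_left.trans le_sup_left : L1 ≤ L1 ⊔ L2 ⊔ L3) ha)]
  have hw2 : φ⁻¹ • x y = (τ ^ j)⁻¹ • x y := by
    rw [eq_inv_smul_iff]
    have h := hfix2 σ fun a ha => hσ a ((le_sup_right.trans le_sup_left : L2 ≤ L1 ⊔ L2 ⊔ L3) ha)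
    calc (τ ^ j) • φ⁻¹ • x y = (τ ^ j) • σ • φ⁻¹ • x y := by rw [h]
      _ = φ • φ⁻¹ • x y := by rw [← mul_smul (τ ^ j), ← hφeq]
      _ = x y := smul_inv_smul φ (x y)
  have hρ : ρ φ = ρ (τ ^ j) * ρ σ := by rw [← map_mul, ← hφeq]
  obtain ⟨htr, hdet⟩ := trGL_mul_sub_mem (Ideal.span {(p : X.TR) ^ k}) (ρ (τ ^ j)) (ρ σ)
    (hfix3 σ fun a ha => hσ a ((le_sup_right : L3 ≤ L1 ⊔ L2 ⊔ L3) ha))
  rw [← hρ] at htr hdet
  have hdetφ : detGL (ρ φ) = (ℓ : X.TR) := (X.levelData hX).det_frobenius Fact.out hℓp hV hφ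
  have hdetτ : detGL (ρ (τ ^ j)) = ((l ^ j : ℕ) : X.TR) := by
    rw [map_pow, Nat.cast_pow, ← show detGL (ρ τ) = (l : X.TR) from
      (X.levelData hX).det_frobenius hl hlp hW hτ]
    simp [detGL]
  rw [hdetφ, hdetτ] at hdet
  have hℓ : ℓ • (φ⁻¹ • x y) = (l ^ j) • (φ⁻¹ • x y) := by
    have h := X.map_actTR_congr e x htors hdet y
    rw [map_actTR_natCast, map_actTR_natCast] at h
    rw [← gal_nsmul, h, gal_nsmul]
  rw [X.map_actTR_congr e x htors htr y,
    X.map_actTR_frobenius_pow hX e x htors B hT r hlbad.2 hlN hlp hW hτ j y, hℓ, hw1, hw2]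

end Aux

namespace Aux

variable (X : Aux S) (hX : Geometry X) (e : Bool) {M ℓ : ℕ} [NeZero M] [Fact ℓ.Prime]
  [NeZero (M * ℓ)] (hℓM : ¬ ℓ ∣ M) (hℓp : ℓ ≠ p) {k : ℕ} (x : X.Mod e →+ JZero (M * ℓ))
  (htors : ∀ y, p ^ k • x y = 0) (B : Finset ℕ)
  (hT : ∀ r : X.TrPrime, r.1.1 ∉ B → ∀ y,
    x (X.actTR e (X.trace r) y) = heckeOperatorBar (M * ℓ) ⟨r.1.1, r.1.2.1⟩ (x y))
  {V : ValuationSubring QA} (hV : V.LiesOverPrime ℓ) {φ : GG} (hφ : V.IsFrobeniusAt φ ℓ)

include hℓM hℓp htors hT hV hφ in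
/-- **Frobenius is special on the elements going to classes killed by both push forwards.** -/
theorem map_special_eq_zero {y : X.Mod e}
    (hα : haveI : NeZero ℓ := ⟨(Fact.out : ℓ.Prime).ne_zero⟩
      pushPic M ℓ (heckeAlphaBar QA M ℓ) (x y) = 0)
    (hβ : haveI : NeZero ℓ := ⟨(Fact.out : ℓ.Prime).ne_zero⟩
      pushPic M ℓ (heckeBetaBar QA M ℓ) (x y) = 0) :
    x (X.actTR e (trGL ((X.pseudo_spec hX).rep φ) ^ 2 - ((ℓ : X.TR) + 1) ^ 2) y) = 0 := by
  haveI : NeZero ℓ := ⟨(Fact.out : ℓ.Prime).ne_zero⟩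
  have hrel : ∀ w, x (X.actTR e (trGL ((X.pseudo_spec hX).rep φ)) w) =
      φ • x w + ℓ • (φ⁻¹ • x w) := fun w =>
    X.map_actTR_trace hX e x htors B hT hℓp hV hφ w
  set u := x y with hu
  obtain ⟨D, hD⟩ := Pic0.mk_surjective u
  have hℓn : ¬ ℓ ∣ p ^ k := fun h =>
    hℓp ((Nat.prime_dvd_prime_iff_eq Fact.out Fact.out).1 ((Fact.out : ℓ.Prime).dvd_of_dvd_pow h))
  have hF := BadRed.frobenius_sq_smul_torsion hV hℓM hφ hℓn (D := D)
    (by rw [hD]; exact htors y) (isPrincipal_of_pushPic_eq_zero M ℓ _ D (by rw [hD]; exact hα))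
    (isPrincipal_of_pushPic_eq_zero M ℓ _ D (by rw [hD]; exact hβ))
  rw [hD] at hF
  rw [show ((ℓ : X.TR) + 1) ^ 2 = (((ℓ + 1) * (ℓ + 1) : ℕ) : X.TR) by push_cast; ring, sq,
    map_sub, map_mul, LinearMap.sub_apply, Module.End.mul_apply, map_sub, hrel, hrel,
    X.map_actTR_natCast, ← hu]
  have hinj : ∀ w : JZero (M * ℓ), (φ * φ) • w = 0 → w = 0 := fun w h =>
    (smul_eq_zero_iff_eq (φ * φ)).1 h
  refine hinj _ ?_
  rw [← sub_eq_zero] at hF
  refine Eq.trans ?_ hF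
  simp only [smul_add, gal_sub, gal_nsmul, ← mul_smul, mul_inv_cancel,
    inv_mul_cancel, one_smul, mul_assoc, mul_inv_cancel_left]
  simp only [nsmul_add, nsmul_sub, mul_nsmul', add_mul, mul_add, one_mul, mul_one, add_nsmul, one_nsmul]
  abel

end Aux

end FLTAgent.ModLift
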