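import Fermat.Agent.ModLift.Degen.NewInterface
import Fermat.Agent.ModLift.Degen.AwayCore
import Fermat.Agent.ModLift.Degen.Push.Classes
import Fermat.Agent.ModLift.Degen.Push.Separate

/-!
# Away from `p` Frobenius is special on the new part

The descended classes reduced modulo powers of `p` go to torsion of the Jacobian of the big level;
for elements killed by the lower degeneracy map the classes are killed by both push forwards.
-/

set_option autoImplicit false
set_option linter.unusedSectionVars false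
set_option linter.style.haveILetI false

noncomputable section

set_option synthInstance.maxHeartbeats 400000
set_option maxHeartbeats 1000000

open IsLocalRing CongruenceSubgroup FLTAgent.PeriodHecke
open scoped MatrixGroups

namespace FLTAgent.ModLift

open FLTAgent.Lowering FLTAgent.EigenLattice
open ModularCurve (JZero heckeOperatorBar modularFunctionFieldBar heckeAlphaBar heckeBetaBar)

local notation "QA" => AlgebraicClosure ℚ
local notation "GG" => (AlgebraicClosure ℚ ≃ₐ[ℚ] AlgebraicClosure ℚ)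

/-- Homomorphisms of equal levels. -/
def hparCast {V : Type*} [AddCommGroup V] {a b : ℕ} (e : a = b) :
    Hpar (Gamma0 a) V →+ Hpar (Gamma0 b) V :=
  e ▸ AddMonoidHom.id _

theorem hparCast_injective {V : Type*} [AddCommGroup V] {a b : ℕ} (e : a = b) :
    Function.Injective (hparCast (V := V) e) := by subst e; exact fun _ _ h => h

theorem extFun_hparCast {V : Type*} [AddCommGroup V] {a b : ℕ} (e : a = b)
    (φ : Hpar (Gamma0 a) V) : extFun (hparCast e φ).1 = extFun φ.1 := by subst e; rfl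

theorem heckePar_hparCast {V : Type*} [AddCommGroup V] {a b : ℕ} [NeZero a] [NeZero b] (e : a = b)
    (r : ℕ) [Fact r.Prime] (φ : Hpar (Gamma0 a) V) :
    (heckeFam b r).heckePar (hparCast e φ) = hparCast e ((heckeFam a r).heckePar φ) := by
  subst e; rfl

theorem hparCast_mapHpar {V W : Type*} [AddCommGroup V] [AddCommGroup W] {a b : ℕ} (e : a = b)
    (g : V →+ W) (φ : Hpar (Gamma0 a) V) :
    hparCast e (mapHpar g φ) = mapHpar g (hparCast e φ) := by
  subst e; rfl

variable {p : ℕ} [Fact p.Prime] {O : Type} [CommRing O] [IsDomain O] [IsDiscreteValuationRing O]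
  [Algebra ℤ_[p] O] [Module.Finite ℤ_[p] O] [CharZero O]

namespace Raise

variable {S S' : Setup p O} {ℓ : ℕ} [Fact ℓ.Prime] (h : Raise S S' ℓ) (X : Aux S)

/-- **Away from `p` Frobenius is special on the new part.** -/
theorem degen_away
    (hℓp : ℓ ≠ p) (V : ValuationSubring QA) (hV : V.LiesOverPrime ℓ) (φ : GG)
    (hφ : V.IsFrobeniusAt φ ℓ) (e : Bool) : ∃ n : ℕ, ∀ y,
      ((h.up X).actTR e
        ((trGL (((h.up X).levelData (h.up X).geometry).ρ φ) : (h.up X).TR) ^ 2 -
          ((ℓ : (h.up X).TR) + 1) ^ 2) ^ n) y ∈ LinearMap.range ((h.degen X).up e) := by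
  classical
  set Y := h.up X with hY
  set M := X.level * twProd X with hM
  haveI : NeZero M := ⟨Nat.mul_ne_zero X.level_pos.ne' (twProd_ne_zero X)⟩
  haveI : NeZero (M * ℓ) := ⟨Nat.mul_ne_zero (NeZero.ne M) (Fact.out : ℓ.Prime).ne_zero⟩
  have hlev : Y.bigLevel = M * ℓ := h.bigLevel_up X
  obtain ⟨Φ, hinj, -, hhecke, hker⟩ := h.exists_descend X e
  set t : Y.TR := trGL ((Y.pseudo_spec Y.geometry).rep φ) with ht
  set F : Y.TR := t ^ 2 - ((ℓ : Y.TR) + 1) ^ 2 with hF
  -- on the kernel of the lower map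
  have hkerzero : ∀ z, h.modDown X e z = 0 → Y.actTR e F z = 0 := by
    intro z hz
    refine hinj ((Subtype.ext (AddMonoidHom.ext fun γ => ?_)).trans (map_zero Φ).symm)
    haveI := X.finite_coef
    refine Push.eq_zero_of_forall_zmod (p := p) X.coef_eq_zero_of_nsmul _ fun k g => ?_
    haveI : NeZero (p ^ k) := ⟨pow_ne_zero _ (Fact.out : p.Prime).ne_zero⟩
    let x : Y.Mod e →+ JZero (M * ℓ) :=
      ((AddMonoidHom.eval g).comp (Push.vec (M * ℓ) (p ^ k))).comp ((hparCast hlev).comp Φ)
    have htors : ∀ w, p ^ k • x w = 0 := fun w => Push.nsmul_torsClass (M * ℓ) (p ^ k) _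
    have hT : ∀ r : Y.TrPrime, r.1.1 ∉ (Y.bigLevel).primeFactors → ∀ w,
        x (Y.actTR e (Y.trace r) w) = heckeOperatorBar (M * ℓ) ⟨r.1.1, r.1.2.1⟩ (x w) := by
      intro r hr w
      haveI : Fact r.1.1.Prime := ⟨r.1.2.1⟩
      haveI : Fact ((⟨r.1.1, r.1.2.1⟩ : Nat.Primes) : ℕ).Prime := ⟨r.1.2.1⟩
      have hrd : ¬ r.1.1 ∣ Y.bigLevel := fun hd =>
        hr (Nat.mem_primeFactors.mpr ⟨r.1.2.1, hd, NeZero.ne _⟩)
      show Push.vec (M * ℓ) (p ^ k) (hparCast hlev (Φ (Y.actTR e (Y.trace r) w))) g =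
        heckeOperatorBar (M * ℓ) ⟨r.1.1, r.1.2.1⟩
          (Push.vec (M * ℓ) (p ^ k) (hparCast hlev (Φ w)) g)
      rw [← hhecke r hrd w, ← heckePar_hparCast]
      exact Push.vec_hecke (M * ℓ) (p ^ k) ⟨r.1.1, r.1.2.1⟩ _ g
    haveI : NeZero ℓ := ⟨(Fact.out : ℓ.Prime).ne_zero⟩
    have hpush := Push.pushPic_vec_eq_zero (h.not_dvd_bigLevel X) (p ^ k)
      (φ := hparCast hlev (Φ z)) (fun a b c d hd => by
        rw [extFun_hparCast]
        exact hker z hz a b c d hd) g
    have hzero := Y.map_special_eq_zero Y.geometry e (h.not_dvd_bigLevel X) hℓp x htors _ hT hV hφ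
      hpush.1 hpush.2
    have h0 : mapHpar g (hparCast hlev (Φ (Y.actTR e F z))) = 0 := by
      refine Push.torsClass_injective (M * ℓ) (p ^ k) ?_
      rw [map_zero]
      exact hzero
    have h1 : mapHpar g (Φ (Y.actTR e F z)) = 0 := by
      have : hparCast hlev (mapHpar g (Φ (Y.actTR e F z))) = 0 := by
        rw [hparCast_mapHpar, h0]
      exact (map_eq_zero_iff _ (hparCast_injective hlev)).1 this
    exact DFunLike.congr_fun (congrArg Subtype.val h1) γ
  -- into the kernel
  refine ⟨2, fun y => ?_⟩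
  show (Y.actTR e F ^ 2) y ∈ LinearMap.range (h.modUp X e)
  rw [← map_pow]
  set v := h.modDown X e y with hv
  have hfrob : h.modT X e = X.actTR e (h.resTr X t) := by
    exact ((h.degen X).hecke_frob hℓp V hV φ hφ e).trans
      (congrArg (X.actTR e) ((h.degen X).resT_tr φ).symm)
  have hres : h.resTr X F = h.resTr X t ^ 2 - ((ℓ : X.TR) + 1) ^ 2 := by
    rw [hF, map_sub, map_pow, map_pow, map_add, map_natCast, map_one]
  set T₀ := h.modT X e
  let c : X.Coef := (ℓ : X.Coef) + 1
  let u : Fin 2 → X.Mod e := ![c • v 0 - T₀ (v 1), c • v 1 - T₀ (v 0)]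
  set z := Y.actTR e F y + h.modUp X e u with hzdef
  have hz : h.modDown X e z = 0 := by
    have hcc : ∀ w, c • c • w = X.actTR e (((ℓ : X.TR) + 1) ^ 2) w := fun w => by
      rw [show ((ℓ : X.TR) + 1) ^ 2 = (((ℓ + 1) * (ℓ + 1) : ℕ) : X.TR) by push_cast; ring,
        map_natCast, Module.End.natCast_apply, smul_smul,
        show c * c = (((ℓ + 1) * (ℓ + 1) : ℕ) : X.Coef) by simp [c], Nat.cast_smul_eq_nsmul]
    have hTT : ∀ w, T₀ (T₀ w) = X.actTR e (h.resTr X t ^ 2) w := fun w => by
      rw [map_pow, ← hfrob, sq]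
      rfl
    rw [hzdef, map_add, h.modDown_act, h.modDown_modUp]
    funext b
    fin_cases b <;>
      simp [u, hres, ← hv, hcc, hTT, c, map_sub, smul_sub, map_smul, T₀]
  refine ⟨-fun b => X.actTR e (h.resTr X F) (u b), ?_⟩
  have h2 := hkerzero z hz
  rw [hzdef, map_add, ← Module.End.mul_apply, ← map_mul, ← sq, ← h.modUp_act] at h2
  rw [map_neg, eq_neg_of_add_eq_zero_left h2]

end Raise

end FLTAgent.ModLift
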