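import Fermat.Agent.Lowering.P4.HomDegeneracy
import Fermat.Agent.Lowering.P4.Class

/-!
# Correspondences between twisted classes

A finite family of integral matrices, upper triangular modulo the level of the character, with a
cocycle describing right multiplication, gives a map of twisted classes. Maps compose by
multiplying the matrices, and two maps agree up to a factor when the matrices agree up to left
multiplication.
-/

set_option autoImplicit false
set_option linter.unusedSectionVars false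

noncomputable section

open CongruenceSubgroup
open scoped MatrixGroups

namespace FLTAgent.ModLift

open FLTAgent.PeriodHecke FLTAgent.Lowering.Cocycle

local notation "SL2Z" => Matrix.SpecialLinearGroup (Fin 2) ℤ
local notation "M2" => Matrix (Fin 2) (Fin 2) ℤ

/-- A correspondence from `Γ` to `Γ'`. -/
structure Corr (M : ℕ) (Γ Γ' : Subgroup SL2Z) (I : Type) where
  α : I → M2
  det_ne : ∀ i, (α i).det ≠ 0
  low : ∀ i, (M : ℤ) ∣ α i 1 0
  next : Γ → I → I
  coc : Γ → I → Γ'
  rel : ∀ γ i, α i * mat γ = mat (coc γ i) * α (next γ i)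
  next_one : ∀ i, next 1 i = i
  next_mul : ∀ γ δ i, next (γ * δ) i = next δ (next γ i)
  coc_mul : ∀ γ δ i, coc (γ * δ) i = coc γ i * coc δ (next γ i)

/-- The character of a group upper triangular modulo the level. -/
structure IsPsi {M : ℕ} {A : Type*} [CommRing A] (χ : ZMod M →* A) {Γ : Subgroup SL2Z}
    (ψ : Γ →* A) : Prop where
  low : ∀ γ : Γ, (M : ℤ) ∣ mat γ 1 0
  val : ∀ γ : Γ, ψ γ = χ ((mat γ 1 1 : ℤ) : ZMod M)

theorem IsPsi.upper {M : ℕ} {A : Type*} [CommRing A] {χ : ZMod M →* A} {Γ : Subgroup SL2Z}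
    {ψ : Γ →* A} (h : IsPsi χ ψ) (γ : Γ) :
    ((mat γ 1 0 : ℤ) : ZMod M) = 0 ∧
      ((mat γ 0 0 : ℤ) : ZMod M) * ((mat γ 1 1 : ℤ) : ZMod M) = 1 := by
  have h0 : ((mat γ 1 0 : ℤ) : ZMod M) = 0 := (ZMod.intCast_zmod_eq_zero_iff_dvd _ _).mpr (h.low γ)
  refine ⟨h0, ?_⟩
  have hd := congrArg (fun z : ℤ => (z : ZMod M)) (mat_det γ)
  simp only [Matrix.det_fin_two] at hd
  push_cast at hd
  rw [h0, mul_zero, sub_zero] at hd
  exact hd

namespace Corr

variable {M : ℕ} {Γ Γ' Γ'' : Subgroup SL2Z} {I J : Type} {A : Type*} [CommRing A]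
  {χ : ZMod M →* A} {ψ : Γ →* A} {ψ' : Γ' →* A} {ψ'' : Γ'' →* A}
  {N N' : Type*} [AddCommGroup N] [Module A N] [AddCommGroup N'] [Module A N']

/-- Left multiplication determines the index. -/
def Inj (F : Corr M Γ Γ' I) : Prop := ∀ (δ : Γ') (i j : I), mat δ * F.α i = F.α j → i = j

variable (F : Corr M Γ Γ' I)

/-- The permutation of an element. -/
def perm (γ : Γ) : Equiv.Perm I where
  toFun := F.next γ
  invFun := F.next γ⁻¹
  left_inv i := by rw [← F.next_mul, mul_inv_cancel, F.next_one]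
  right_inv i := by rw [← F.next_mul, inv_mul_cancel, F.next_one]

theorem cancel {δ δ' : Γ'} {i : I} (h : mat δ * F.α i = mat δ' * F.α i) : δ = δ' :=
  mat_injective (LevelRaise.mul_right_cancel_det (F.det_ne i) h)

/-- The weight. -/
def w (χ : ZMod M →* A) (i : I) : A := χ ((F.α i 0 0 : ℤ) : ZMod M)

theorem w_rel (h : IsPsi χ ψ) (h' : IsPsi χ ψ') (γ : Γ) (i : I) :
    F.w χ i * ψ' (F.coc γ i) = ψ γ * F.w χ (F.next γ i) := by
  rw [h.val, h'.val, w, w, ← map_mul, ← map_mul]
  refine congrArg χ ?_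
  obtain ⟨g0, gu⟩ := h.upper γ
  obtain ⟨d0, du⟩ := h'.upper (F.coc γ i)
  have a0 : ((F.α (F.next γ i) 1 0 : ℤ) : ZMod M) = 0 :=
    (ZMod.intCast_zmod_eq_zero_iff_dvd _ _).mpr (F.low _)
  have hr := congrArg (fun z : ℤ => (z : ZMod M)) (congrFun (congrFun (F.rel γ i) 0) 0)
  simp only [Matrix.mul_apply, Fin.sum_univ_two] at hr
  push_cast at hr
  rw [g0, a0, mul_zero, mul_zero, add_zero, add_zero] at hr
  linear_combination ((mat γ 1 1 : ℤ) : ZMod M) * ((mat (F.coc γ i) 1 1 : ℤ) : ZMod M) * hr -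
    ((F.α i 0 0 : ℤ) : ZMod M) * ((mat (F.coc γ i) 1 1 : ℤ) : ZMod M) * gu +
    ((F.α (F.next γ i) 0 0 : ℤ) : ZMod M) * ((mat γ 1 1 : ℤ) : ZMod M) * du

section Op

variable [Fintype I] (h : IsPsi χ ψ) (h' : IsPsi χ ψ')

/-- The map of cocycles. -/
def opZ1 : Z1 ψ' N →ₗ[A] Z1 ψ N where
  toFun c := ⟨fun γ => ∑ i, F.w χ i • c.1 (F.coc γ i), fun g d => by
    have e : ∀ i, F.w χ i • c.1 (F.coc (g * d) i) =
        F.w χ i • c.1 (F.coc g i) + ψ g • (F.w χ (F.next g i) • c.1 (F.coc d (F.next g i))) :=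
      fun i => by rw [F.coc_mul, Z1_mul, smul_add, smul_smul, smul_smul, F.w_rel h h']
    simp only [e, Finset.sum_add_distrib, ← Finset.smul_sum]
    congr 2
    exact Equiv.sum_comp (F.perm g) (fun i => F.w χ i • c.1 (F.coc d i))⟩
  map_add' c d := Subtype.ext (funext fun γ => by simp [smul_add, Finset.sum_add_distrib])
  map_smul' a c := Subtype.ext (funext fun γ => by simp [Finset.smul_sum, smul_comm a])

theorem opZ1_apply (c : Z1 ψ' N) (γ : Γ) :
    (F.opZ1 h h' c : Γ → N) γ = ∑ i, F.w χ i • c.1 (F.coc γ i) := rfl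

theorem opZ1_cobdry (v : N) :
    F.opZ1 h h' (cobdry ψ' N v) = cobdry ψ N ((∑ i, F.w χ i) • v) := by
  refine Subtype.ext (funext fun γ => ?_)
  simp only [opZ1_apply, cobdry_apply, smul_sub, smul_smul, F.w_rel h h', Finset.sum_sub_distrib,
    ← Finset.sum_smul, ← Finset.mul_sum]
  rw [show ∑ i, F.w χ (F.next γ i) = ∑ i, F.w χ i from Equiv.sum_comp (F.perm γ) (F.w χ)]

variable (N) in
/-- The map of classes. -/
def op : H1 ψ' N →ₗ[A] H1 ψ N :=
  Submodule.mapQ _ _ (F.opZ1 h h') (by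
    rintro _ ⟨v, rfl⟩
    exact ⟨_, (F.opZ1_cobdry h h' v).symm⟩)

theorem op_cls (c : Z1 ψ' N) : F.op N h h' (cls c) = cls (F.opZ1 h h' c) := rfl

theorem op_mapH1 (f : N →ₗ[A] N') (x : H1 ψ' N) :
    mapH1 f (F.op N h h' x) = F.op N' h h' (mapH1 f x) := by
  induction x using Submodule.Quotient.induction_on with
  | H c => exact congrArg cls (Subtype.ext (funext fun γ => by simp [mapZ1_apply, opZ1_apply]))

end Op

/-- The composite: first `G`, then `F`. -/
def comp (G : Corr M Γ' Γ'' J) : Corr M Γ Γ'' (I × J) where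
  α x := G.α x.2 * F.α x.1
  det_ne x := by rw [Matrix.det_mul]; exact mul_ne_zero (G.det_ne _) (F.det_ne _)
  low x := by
    rw [Matrix.mul_apply, Fin.sum_univ_two]
    exact dvd_add ((G.low _).mul_right _) ((F.low _).mul_left _)
  next γ x := (F.next γ x.1, G.next (F.coc γ x.1) x.2)
  coc γ x := G.coc (F.coc γ x.1) x.2
  rel γ x := by rw [mul_assoc, F.rel, ← mul_assoc, G.rel, mul_assoc]
  next_one x := by
    have h1 : F.coc 1 x.1 = 1 := by
      refine F.cancel (i := F.next 1 x.1) ?_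
      rw [← F.rel, mat_one, mat_one, mul_one, one_mul, F.next_one]
    rw [F.next_one, h1, G.next_one]
  next_mul γ δ x := by rw [F.next_mul, F.coc_mul, G.next_mul]
  coc_mul γ δ x := by rw [F.coc_mul, G.coc_mul]

theorem comp_α (G : Corr M Γ' Γ'' J) (x : I × J) : (F.comp G).α x = G.α x.2 * F.α x.1 := rfl

theorem op_comp [Fintype I] [Fintype J] (G : Corr M Γ' Γ'' J) (h : IsPsi χ ψ) (h' : IsPsi χ ψ')
    (h'' : IsPsi χ ψ'') (x : H1 ψ'' N) :
    F.op N h h' (G.op N h' h'' x) = (F.comp G).op N h h'' x := by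
  induction x using Submodule.Quotient.induction_on with
  | H c =>
    refine congrArg cls (Subtype.ext (funext fun γ => ?_))
    simp only [opZ1_apply, Finset.smul_sum, smul_smul, Fintype.sum_prod_type]
    refine Finset.sum_congr rfl fun i _ => Finset.sum_congr rfl fun j _ => ?_
    have hw : (F.comp G).w χ (i, j) = F.w χ i * G.w χ j := by
      have a0 : ((F.α i 1 0 : ℤ) : ZMod M) = 0 :=
        (ZMod.intCast_zmod_eq_zero_iff_dvd _ _).mpr (F.low _)
      rw [w, w, w, ← map_mul, comp_α, Matrix.mul_apply, Fin.sum_univ_two]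
      push_cast
      rw [a0, mul_zero, add_zero, mul_comm]
    rw [hw]
    rfl

/-- **Matching correspondences.** -/
theorem op_match [Fintype I] [Fintype J] (G : Corr M Γ Γ' J) (hG : G.Inj) (h : IsPsi χ ψ)
    (h' : IsPsi χ ψ') (e : I → J) {k : ℕ}
    (hk : ∀ (f : J → N), ∑ i, f (e i) = k • ∑ j, f j) {s t : ℤ} (ht : t ≠ 0)
    (hm : ∀ i, ∃ κ : Γ', s • F.α i = t • (mat κ * G.α (e i))) (x : H1 ψ' N) :
    χ (s : ZMod M) • F.op N h h' x = k • (χ (t : ZMod M) • G.op N h h' x) := by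
  choose κ hκ using hm
  induction x using Submodule.Quotient.induction_on with
  | H c =>
    set cs := χ (s : ZMod M)
    set ct := χ (t : ZMod M)
    have key : ∀ γ i, G.next γ (e i) = e (F.next γ i) ∧
        F.coc γ i * κ (F.next γ i) = κ i * G.coc γ (e i) := by
      intro γ i
      have h1 : mat (κ i * G.coc γ (e i)) * G.α (G.next γ (e i)) =
          mat (F.coc γ i * κ (F.next γ i)) * G.α (e (F.next γ i)) := by
        refine smul_right_injective M2 ht ?_
        show t • _ = t • _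
        rw [mat_mul, mul_assoc, ← G.rel, ← mul_assoc, ← Matrix.smul_mul, ← hκ, Matrix.smul_mul,
          F.rel, ← Matrix.mul_smul, hκ, mat_mul, Matrix.mul_smul, mul_assoc]
      have h2 : G.next γ (e i) = e (F.next γ i) :=
        hG ((F.coc γ i * κ (F.next γ i))⁻¹ * (κ i * G.coc γ (e i))) _ _ (by
          rw [mat_mul, mul_assoc, h1, ← mul_assoc, ← mat_mul, inv_mul_cancel, mat_one, one_mul])
      rw [h2] at h1
      exact ⟨h2, (G.cancel h1).symm⟩
    have hw : ∀ i, cs * F.w χ i * ψ' (κ i) = ct * G.w χ (e i) := fun i => by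
      have hr := congrArg (fun z : ℤ => (z : ZMod M)) (congrFun (congrFun (hκ i) 0) 0)
      simp only [Matrix.smul_apply, smul_eq_mul, Matrix.mul_apply, Fin.sum_univ_two] at hr
      push_cast at hr
      rw [(ZMod.intCast_zmod_eq_zero_iff_dvd _ _).mpr (G.low _), mul_zero, add_zero] at hr
      simp only [cs, ct, w, h'.val, ← map_mul]
      refine congrArg χ ?_
      linear_combination ((mat (κ i) 1 1 : ℤ) : ZMod M) * hr +
        (t : ZMod M) * ((G.α (e i) 0 0 : ℤ) : ZMod M) * (h'.upper (κ i)).2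
    refine (Submodule.Quotient.eq _).mpr ?_
    refine ⟨-(cs • ∑ i, F.w χ i • c.1 (κ i)), Subtype.ext (funext fun γ => ?_)⟩
    have hterm : ∀ i, cs • F.w χ i • c.1 (F.coc γ i) =
        cs • F.w χ i • c.1 (κ i) + (ct * G.w χ (e i)) • c.1 (G.coc γ (e i)) -
          ψ γ • (cs • F.w χ (F.next γ i) • c.1 (κ (F.next γ i))) := fun i => by
      have h1 := congrArg c.1 (key γ i).2
      rw [Z1_mul, Z1_mul] at h1
      rw [eq_sub_of_add_eq h1, smul_sub, smul_sub, smul_add, smul_add, ← hw i]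
      simp only [smul_smul]
      rw [F.w_rel h h', mul_assoc cs (F.w χ i) (ψ' (κ i)), mul_left_comm cs (ψ γ)]
    rw [cobdry_apply]
    show ψ γ • _ - _ = cs • (∑ i, F.w χ i • c.1 (F.coc γ i)) -
      k • (ct • ∑ j, G.w χ j • c.1 (G.coc γ j))
    rw [show cs • (∑ i, F.w χ i • c.1 (F.coc γ i)) = ∑ i, cs • F.w χ i • c.1 (F.coc γ i) from
        Finset.smul_sum, Finset.sum_congr rfl fun i _ => hterm i, Finset.sum_sub_distrib,
      Finset.sum_add_distrib, ← Finset.smul_sum, ← Finset.smul_sum, ← Finset.smul_sum,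
      show ∑ i, F.w χ (F.next γ i) • c.1 (κ (F.next γ i)) = ∑ i, F.w χ i • c.1 (κ i) from
        Equiv.sum_comp (F.perm γ) (fun i => F.w χ i • c.1 (κ i)),
      hk fun j => (ct * G.w χ j) • c.1 (G.coc γ j)]
    simp only [← smul_smul, ← Finset.smul_sum, smul_neg]
    abel

/-- Matching along a bijection, without factors. -/
theorem op_eq_of_match [Fintype I] [Fintype J] (G : Corr M Γ Γ' J) (hG : G.Inj) (h : IsPsi χ ψ)
    (h' : IsPsi χ ψ') (e : I → J) (he : Function.Bijective e)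
    (hm : ∀ i, ∃ κ : Γ', F.α i = mat κ * G.α (e i)) (x : H1 ψ' N) :
    F.op N h h' x = G.op N h h' x := by
  have h1 := op_match F G hG h h' e (k := 1) (fun f => by rw [one_smul, he.sum_comp f])
    (s := 1) (t := 1) one_ne_zero
    (fun i => by obtain ⟨κ, hκ⟩ := hm i; exact ⟨κ, by rw [one_smul, one_smul, hκ]⟩) x
  rwa [Int.cast_one, map_one, one_smul, one_smul, one_smul] at h1

/-- The union of two correspondences. -/
def sum (G : Corr M Γ Γ' J) : Corr M Γ Γ' (I ⊕ J) where
  α := Sum.elim F.α G.α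
  det_ne x := by cases x <;> simp [F.det_ne, G.det_ne]
  low x := by cases x <;> simp [F.low, G.low]
  next γ := Sum.map (F.next γ) (G.next γ)
  coc γ := Sum.elim (F.coc γ) (G.coc γ)
  rel γ x := by cases x <;> simp [F.rel, G.rel]
  next_one x := by cases x <;> simp [F.next_one, G.next_one]
  next_mul γ δ x := by cases x <;> simp [F.next_mul, G.next_mul]
  coc_mul γ δ x := by cases x <;> simp [F.coc_mul, G.coc_mul]

theorem op_sum [Fintype I] [Fintype J] (G : Corr M Γ Γ' J) (h : IsPsi χ ψ) (h' : IsPsi χ ψ')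
    (x : H1 ψ' N) : (F.sum G).op N h h' x = F.op N h h' x + G.op N h h' x := by
  induction x using Submodule.Quotient.induction_on with
  | H c =>
    rw [op_cls, op_cls, op_cls, ← Submodule.Quotient.mk_add]
    exact congrArg cls (Subtype.ext (funext fun γ => Fintype.sum_sum_type _))

/-- The standard representatives. -/
def ofHecke (M L l : ℕ) [Fact l.Prime] : Corr M (Gamma0 L) (Gamma0 L) (HeckeIdx L l) where
  α := (heckeFam L l).α
  det_ne := (heckeFam L l).det_ne
  low i := by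
    rw [heckeFam_α]
    rcases HeckeIdx.cases L l i with ⟨_, rfl⟩ | ⟨j, rfl⟩ <;> simp [heckeRep, idxSome]
  next := (heckeFam L l).next
  coc := (heckeFam L l).coc
  rel := (heckeFam L l).rel
  next_one i := ((heckeFam L l).one_rel i).1
  next_mul γ δ i := ((heckeFam L l).mul_rel γ δ i).1
  coc_mul γ δ i := ((heckeFam L l).mul_rel γ δ i).2

theorem ofHecke_inj (M L l : ℕ) [Fact l.Prime] : (ofHecke M L l).Inj := (heckeFam L l).inj

theorem op_ofHecke {L l : ℕ} [Fact l.Prime] (hML : M ∣ L) {χ' : ZMod L →* A}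
    (hχ : ∀ d : ZMod L, IsUnit d → χ' d = χ (ZMod.castHom hML (ZMod M) d))
    (hL : IsPsi χ (psi χ')) (x : H1 (psi χ') N) :
    (ofHecke M L l).op N hL hL x = heckeH1 (N := N) (stdWeight (p := l) χ') x := by
  induction x using Submodule.Quotient.induction_on with
  | H c =>
    refine congrArg cls (Subtype.ext (funext fun γ => Finset.sum_congr rfl fun i _ => ?_))
    refine congrArg (· • c.1 ((heckeFam L l).coc γ i)) ?_
    rw [stdWeight_w, w]
    rcases HeckeIdx.cases L l i with ⟨hi, rfl⟩ | ⟨j, rfl⟩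
    · rw [if_pos rfl, hχ _ ((ZMod.isUnit_iff_coprime l L).mpr
        ((Fact.out : l.Prime).coprime_iff_not_dvd.mpr (hi rfl))), map_natCast]
      simp [ofHecke, heckeFam_α, heckeRep]
    · rw [if_neg (show (idxSome L l j).1 ≠ none from Option.some_ne_none j)]
      simp [ofHecke, heckeFam_α, heckeRep, idxSome]

end Corr

theorem isPsi_psi {M L : ℕ} (h : M ∣ L) {A : Type*} [CommRing A] {χ : ZMod M →* A}
    {χ' : ZMod L →* A} (hχ : ∀ d : ZMod L, IsUnit d → χ' d = χ (ZMod.castHom h (ZMod M) d)) :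
    IsPsi χ (psi χ') where
  low γ := (Int.natCast_dvd_natCast.mpr h).trans
    ((ZMod.intCast_zmod_eq_zero_iff_dvd _ _).mp (coe_low_eq_zero γ))
  val γ := by
    rw [psi_apply, hχ _ (show IsUnit ((mat γ 1 1 : ℤ) : ZMod L) from
      (Group.isUnit γ).map (Gamma0Map L)), map_intCast]

theorem isPsi_self {M : ℕ} {A : Type*} [CommRing A] (χ : ZMod M →* A) : IsPsi χ (psi χ) :=
  isPsi_psi dvd_rfl fun d _ => by rw [ZMod.castHom_self, RingHom.id_apply]

end FLTAgent.ModLift
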