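import Fermat.Agent.ModLift.Degen.Mods

/-!
# The normalised operator at `ℓ` is the trace of Frobenius

For `ℓ ≠ p` not dividing the level, the operator of the lower level agrees, inside the torsion
realised at a level prime to `ℓ`, with the Galois operator of Frobenius.
-/

set_option autoImplicit false
set_option linter.unusedSectionVars false
set_option linter.style.haveILetI false

noncomputable section

set_option synthInstance.maxHeartbeats 400000
set_option maxHeartbeats 1000000

open IsLocalRing CongruenceSubgroup FLTAgent.Lowering.Cocycle FLTAgent.PeriodHecke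
  FLTAgent.DeligneSerre
open scoped MatrixGroups

namespace FLTAgent.ModLift

open FLTAgent.Lowering

local notation "LL" => AlgebraicClosure ℚ
local notation "GG" => (AlgebraicClosure ℚ ≃ₐ[ℚ] AlgebraicClosure ℚ)

/-- The standard operator at a further prime commutes with those at good primes. -/
theorem commOps_heckeH1 {M : ℕ} {A : Type} [CommRing A] (χ : ZMod M →* A) {bad : Finset ℕ}
    {r : ℕ} [Fact r.Prime] (hr : r ∈ bad) (N : Type) [AddCommGroup N] [Module A N] :
    CommOps (rfl : bad = bad) (heckeH1 (N := N) (stdWeight (p := r) χ)) := by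
  intro l x
  induction x using Submodule.Quotient.induction_on with
  | H c =>
    obtain ⟨v, hv⟩ := stdWeight_comm (l := r) (r := l.1) (fun e : r = l.1 => l.2.2 (e ▸ hr)) χ c
    exact (Submodule.Quotient.eq _).mpr ⟨v, hv.symm⟩

section AtPrime

variable {p : ℕ} [Fact p.Prime] {O : Type} [CommRing O] [IsDomain O] [IsDiscreteValuationRing O]
  [Algebra ℤ_[p] O] [Module.Finite ℤ_[p] O] [CharZero O] {S : Setup p O} (X : Aux S)
  {M : ℕ} [NeZero M] (hA : X.Allowed M) (Z : Realisation p M) (e : Bool) (n : ℕ)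
  {r : ℕ} [Fact r.Prime]

namespace Aux

local instance neZero_pow_degen : NeZero (p ^ n) := ⟨pow_ne_zero _ (Fact.out : p.Prime).ne_zero⟩

theorem hecke_eigenpar_at (hrp : r ≠ p) (hrM : ¬ r ∣ M) {φ : Hpar (Gamma1 M) (X.PowQuot n)}
    (hφ : φ ∈ X.Eig hA e n) {V : ValuationSubring LL} (hV : V.LiesOverPrime r) {τ : GG}
    (hτ : V.IsFrobeniusAt τ r) :
    (heckeFam1 hrM).heckePar φ = extEnd (X.coord n) ((Z.gt n).act τ) φ +
      scal ((r : X.Coef) * X.chi e (r : ZMod X.level))
        (extEnd (X.coord n) ((Z.gt n).act τ⁻¹) φ) := by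
  have hrn : ¬ r ∣ p ^ n := fun h => hrp
    ((Nat.prime_dvd_prime_iff_eq Fact.out Fact.out).mp ((Fact.out : r.Prime).dvd_of_dvd_pow h))
  set γ := gammaLower r (coprime_of_not_dvd hrM)
  have h1 : (heckeFam1 hrM).heckePar φ = extEnd (X.coord n) ((Z.gt n).act τ) φ +
      r • diamond M γ (extEnd (X.coord n) ((Z.gt n).act τ⁻¹) φ) := by
    refine coordHpar_ext (X.coord n) fun i => ?_
    rw [map_add, map_nsmul, coordHpar_extEnd]
    show mapHpar _ ((heckeFam1 hrM).heckePar φ) = _
    rw [← HeckeFamily.heckePar_mapHpar]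
    refine ((Z.gt n).frobenius r hrM hrn V hV τ hτ _).trans ?_
    congr 2
    exact congrArg (diamond M γ) (coordHpar_extEnd (X.coord n) _ φ i).symm
  rw [h1, ← extEnd_diamond (X.coord n) γ _ ((Z.gt n).comm_diamond τ⁻¹ γ), hφ γ, X.ext_scal,
    map_mul]
  congr 1
  show r • scal (psi (X.chi e) (sub0 hA.dvd γ)) _ = scal (r : X.Coef) (scal _ _)
  rw [map_natCast, psi_apply, mat_sub0]
  simp only [γ, mat, gammaLower_entry, Int.cast_natCast]
  rfl

theorem opShape_at (hrp : r ≠ p) (hrM : ¬ r ∣ M) (hrX : r.Coprime X.level)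
    {V : ValuationSubring LL} (hV : V.LiesOverPrime r) {τ : GG} (hτ : V.IsFrobeniusAt τ r)
    (w : X.Eig hA e n) :
    (X.opShape hA Z e n τ w).1 = scal (X.half e (ZMod.unitOfCoprime r hrX) : X.Coef)
      ((heckeFam1 hrM).heckePar w.1) := by
  have hr : r.Prime := Fact.out
  have hexp : expo X.level τ = ZMod.unitOfCoprime r hrX :=
    Units.ext (expo_frobenius hr (hr.coprime_iff_not_dvd.mp hrX) hV hτ)
  have hc : X.cycC τ = (r : X.Coef) := by
    show algebraMap ℤ_[p] X.Coef (cycZ p τ) = _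
    rw [cycZ_frobenius p hr hrp hV hτ, map_natCast]
  rw [X.hecke_eigenpar_at hA Z e n hrp hrM w.2 hV hτ, map_add]
  show (X.bigU Z e n τ w.1) + scal (X.cycC τ) (X.bigU Z e n τ⁻¹ w.1) = _
  rw [bigU_apply, bigU_apply, hc, map_inv, hexp]
  congr 1
  set u := ZMod.unitOfCoprime r hrX
  set ψ := extEnd (X.coord n) ((Z.gt n).act τ⁻¹) w.1
  have hu : ((X.half e u)⁻¹ : X.Coefˣ) = X.half e u * X.chiU e u :=
    inv_eq_of_mul_eq_one_right (by rw [← mul_assoc, X.half_sq_mul])
  have hchi : X.chi e (r : ZMod X.level) = (X.chiU e u : X.Coef) :=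
    MulChar.ofUnitHom_coe (X.chiU e) u
  rw [map_inv, hu, hchi]
  refine Subtype.ext (AddMonoidHom.ext fun x => ?_)
  rw [coe_scal, coe_scal, coe_scal, coe_scal, Units.val_mul, smul_smul, smul_smul]
  congr 1
  ring

end Aux

/-- The image of an operator at a further prime under the map to parabolic classes. -/
theorem Anchor.parFun_at {N : ℕ} {A : Type} [CommRing A] [Algebra O A] {χ : ZMod N →* A}
    {bad : Finset ℕ} {k : Type} [Field k] {θ : Poly O bad →+* k} {L : ℕ} [NeZero L]
    (an : Anchor (N := N) θ L) {W : Type} [AddCommGroup W] [Module A W] (hr : r ∈ bad)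
    (hrL : ¬ r ∣ L) (y : H1 (psi χ) W) :
    an.parFun (toCoh O χ bad W (heckeH1 (N := W) (stdWeight (p := r) χ) y)) =
      (heckeFam1 hrL).heckePar (an.parFun (toCoh O χ bad W y)) :=
  Subtype.ext (by
    show resGamma1 χ an.dvd ((toCoh O χ bad W).symm (an.op • toCoh O χ bad W _)) =
      (heckeFam1 hrL).hecke
        (resGamma1 χ an.dvd ((toCoh O χ bad W).symm (an.op • toCoh O χ bad W y)))
    rw [poly_smul, poly_smul, LinearEquiv.symm_apply_apply, LinearEquiv.symm_apply_apply]
    have h := (commOps_heckeH1 χ hr W).polyHom an.op y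
    rw [polyMap_refl] at h
    rw [← h, resGamma1_heckeH1 χ an.dvd hrL])

end AtPrime

namespace Raise

variable {p : ℕ} [Fact p.Prime] {O : Type} [CommRing O] [IsDomain O] [IsDiscreteValuationRing O]
  [Algebra ℤ_[p] O] [Module.Finite ℤ_[p] O] {S S' : Setup p O} {ℓ : ℕ} [Fact ℓ.Prime]
  (h : Raise S S' ℓ) (X : Aux S) (e : Bool)

theorem locT_natural (N N' : Type) [AddCommGroup N] [Module X.Coef N] [Module.Finite X.Coef N]
    [AddCommGroup N'] [Module X.Coef N'] [Module.Finite X.Coef N'] (f : N →ₗ[X.Coef] N')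
    (x : Low X e N) :
    mapLoc (X.chi e) X.sys f (h.locT X e N x) = h.locT X e N' (mapLoc (X.chi e) X.sys f x) := by
  rw [locT, LinearMap.comp_apply, LinearMap.comp_apply, locTau_natural h X e N N',
    locW_natural h X e N N', locR_natural h X e N N']
  rfl

variable [CharZero O] {M : ℕ} [NeZero M] (hA : X.Allowed M) (n : ℕ) (hlM : ¬ ℓ ∣ M)

theorem embW_modT (x : X.Mod e) :
    (X.embW hA e n (h.modT X e x)).1 =
      scal (h.eta X e) ((heckeFam1 hlM).heckePar (X.embW hA e n x).1) := by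
  haveI := X.finite_coef
  haveI : IsNoetherianRing X.Coef := IsNoetherianRing.of_finite ℤ_[p] X.Coef
  have hsurj := X.surjective_toLoc_coef (N := X.PowQuot n) (X.chi e)
  have h1 : X.modPow e n (h.modT X e x) = h.locT X e (X.PowQuot n) (X.modPow e n x) :=
    h.locT_natural X e X.Coef (X.PowQuot n) _ (X.modL e x)
  show (X.anchor hA).embed hsurj (X.modPow e n (h.modT X e x)) =
    scal (h.eta X e) ((heckeFam1 hlM).heckePar ((X.anchor hA).embed hsurj (X.modPow e n x)))
  rw [h1]
  obtain ⟨y, hy⟩ := hsurj (X.modPow e n x)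
  obtain ⟨y, rfl⟩ := (toCoh O (X.chi e) S.bad (X.PowQuot n)).surjective y
  rw [← hy, locT_toLoc, Anchor.embed_toLoc, Anchor.embed_toLoc, poly_smul, poly_smul, map_smul,
    map_smul, Anchor.parFun_smul]
  have hc := (commOps_heckeH1 (X.chi e) h.mem_bad (X.PowQuot n)).polyHom
    (killer (X.chi e) X.sys (X.PowQuot n) : Poly O S.bad) y
  rw [polyMap_refl] at hc
  rw [← hc, Anchor.parFun_at (X.anchor hA) h.mem_bad hlM]

include h in
/-- **The operator at `ℓ` is the trace of Frobenius.** -/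
theorem modT_frob (hℓp : ℓ ≠ p) {V : ValuationSubring LL} (hV : V.LiesOverPrime ℓ) {φ : GG}
    (hφ : V.IsFrobeniusAt φ ℓ) :
    h.modT X e = X.actTR e (trGL ((X.levelData X.geometry).ρ φ)) := by
  obtain ⟨M, hM, hA, hlM, ⟨Z⟩⟩ := X.geometry.2.2 ℓ h.prime hℓp (h.not_dvd_level X)
  haveI := X.finite_coef
  haveI : IsNoetherianRing X.Coef := IsNoetherianRing.of_finite ℤ_[p] X.Coef
  haveI := (X.mod_finite_free e).1
  have hP := X.pseudo_spec X.geometry
  refine LinearMap.ext fun x => ?_
  show h.modT X e x = X.actTR e (trGL (hP.rep φ)) x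
  rw [hP.tr_rep]
  have key : ∀ n : ℕ, X.modPow e n (h.modT X e x - X.actTR e ((X.pseudo X.geometry).tr φ) x) = 0 :=
    fun n => by
    refine (X.embW_eq_zero_iff hA e n _).mp ?_
    rw [map_sub, sub_eq_zero, hP.embW_tr hA Z n φ e x]
    refine Subtype.ext ?_
    rw [h.embW_modT X e hA n hlM, X.opShape_at hA Z e n hℓp hlM
      (h.prime.coprime_iff_not_dvd.mpr (h.not_dvd_level X)) hV hφ]
    rfl
  refine sub_eq_zero.mp (IsHausdorff.haus
    (inferInstance : IsHausdorff (maximalIdeal X.Coef) (X.Mod e)) _ fun j => ?_)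
  obtain ⟨y, hy⟩ := (X.modPow_eq_zero_iff e j _).mp (key j)
  rw [SModEq.zero, hy]
  exact Submodule.smul_mem_smul (Ideal.pow_mem_pow
    ((mem_maximalIdeal _).mpr (not_isUnit_natCast p X.Coef)) j) Submodule.mem_top

end Raise

end FLTAgent.ModLift
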