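import Fermat.Agent.ModLift.Modules.Geometry

/-!
# The degeneracy maps between the modules of two levels: interface

`Raise` compares a setup with the one whose level is multiplied by a prime `ℓ`, which may be `p`.
`Degen` lists the two degeneracy maps at every level of auxiliary primes, with the operators at `ℓ`
normalised as the twisted traces.
-/

set_option autoImplicit false
set_option linter.unusedSectionVars false
set_option linter.style.haveILetI false

noncomputable section

set_option synthInstance.maxHeartbeats 400000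
set_option maxHeartbeats 1000000

open IsLocalRing

namespace FLTAgent.ModLift

open FLTAgent.Lowering

local notation "LL" => AlgebraicClosure ℚ
local notation "GG" => (AlgebraicClosure ℚ ≃ₐ[ℚ] AlgebraicClosure ℚ)

variable {p : ℕ} [Fact p.Prime] {O : Type} [CommRing O] [IsDomain O] [IsDiscreteValuationRing O]
  [Algebra ℤ_[p] O]

/-- The setup `S'` is `S` with the level multiplied by the prime `ℓ`. -/
structure Raise (S S' : Setup p O) (ℓ : ℕ) : Prop where
  prime : ℓ.Prime
  not_dvd : ¬ ℓ ∣ S.M0
  M0_eq : S'.M0 = S.M0 * ℓ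
  bad_eq : S'.bad = S.bad
  rb_eq : S'.rb = S.rb
  T_eq : S'.T = S.T
  chi_eq : ∀ (t : ℕ) (ht : t ∈ S.T) (ht' : t ∈ S'.T), S'.χ t ht' = S.χ t ht

namespace Raise

variable {S S' : Setup p O} {ℓ : ℕ} (h : Raise S S' ℓ)

/-- The same auxiliary primes at the upper level. -/
def up (X : Aux S) : Aux S' := X.transport h.bad_eq h.rb_eq

theorem up_Q (X : Aux S) : (h.up X).Q = X.Q := rfl

theorem coef_up (X : Aux S) : (h.up X).Coef = X.Coef := rfl

variable [Module.Finite ℤ_[p] O]

/-- The upper module over the coefficients of the lower one, which are the same ring. -/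
instance moduleUp (X : Aux S) (e : Bool) : Module X.Coef ((h.up X).Mod e) :=
  inferInstanceAs (Module (h.up X).Coef ((h.up X).Mod e))

end Raise

variable [Module.Finite ℤ_[p] O] [CharZero O] {S S' : Setup p O} {ℓ : ℕ}

/-- The degeneracy maps at the auxiliary primes of `X`. -/
structure Degen (h : Raise S S' ℓ) (X : Aux S) where
  /-- The twisted operator at `ℓ` of the lower level. -/
  hecke : ∀ e, Module.End X.Coef (X.Mod e)
  /-- The twisted operator at `ℓ` of the upper level. -/
  atU : ∀ e, Module.End X.Coef ((h.up X).Mod e)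
  up : ∀ e, (Fin 2 → X.Mod e) →ₗ[X.Coef] (h.up X).Mod e
  down : ∀ e, (h.up X).Mod e →ₗ[X.Coef] Fin 2 → X.Mod e
  /-- From the traces of the upper level to those of the lower one. -/
  resT : (h.up X).TR →ₐ[O] X.TR
  resT_trace : ∀ (r : (h.up X).TrPrime) (r' : X.TrPrime), r.1.1 = r'.1.1 →
    resT ((h.up X).trace r) = X.trace r'
  resT_tr : ∀ σ : GG, resT (trGL (((h.up X).levelData (h.up X).geometry).ρ σ)) =
    trGL ((X.levelData X.geometry).ρ σ)
  up_act : ∀ e t v, up e (fun b => X.actTR e (resT t) (v b)) = (h.up X).actTR e t (up e v)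
  down_act : ∀ e t v, down e ((h.up X).actTR e t v) = fun b => X.actTR e (resT t) (down e v b)
  hecke_comm : ∀ e t, Commute (hecke e) (X.actTR e t)
  atU_comm : ∀ e t, Commute (atU e) ((h.up X).actTR e t)
  /-- Away from `p` the operator is the trace of Frobenius. -/
  hecke_frob : ℓ ≠ p → ∀ V : ValuationSubring LL, V.LiesOverPrime ℓ → ∀ φ : GG,
    V.IsFrobeniusAt φ ℓ → ∀ e, hecke e = X.actTR e (trGL ((X.levelData X.geometry).ρ φ))
  up_inj : ∀ e v, up e v ∈ (maximalIdeal X.Coef • ⊤ : Submodule X.Coef ((h.up X).Mod e)) →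
    ∀ b, v b ∈ (maximalIdeal X.Coef • ⊤ : Submodule X.Coef (X.Mod e))
  down_surj : ∀ e, Function.Surjective (down e)
  comp : ∀ e v, down e (up e v) =
    ![((ℓ : X.Coef) + 1) • v 0 + hecke e (v 1), hecke e (v 0) + ((ℓ : X.Coef) + 1) • v 1]
  atU_up : ∀ e v, atU e (up e v) = up e ![hecke e (v 0) + (ℓ : X.Coef) • v 1, -v 0]
  atU_down : ∀ e y, down e (atU e y) =
    ![(ℓ : X.Coef) • down e y 1, hecke e (down e y 1) - down e y 0]
  old : ∀ e y, atU e (atU e y) - y ∈ LinearMap.range (up e)

/-- Degeneracy maps exist. -/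
def TargetDegen : Prop :=
  ∀ (p : ℕ) [Fact p.Prime] (O : Type) [CommRing O] [IsDomain O] [IsDiscreteValuationRing O]
    [Algebra ℤ_[p] O] [Module.Finite ℤ_[p] O] [CharZero O] (S S' : Setup p O) (ℓ : ℕ)
    (h : Raise S S' ℓ) (X : Aux S), Nonempty (Degen h X)

end FLTAgent.ModLift
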