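import Fermat.Agent.Lowering.P4.Localisation

/-!
# Maps of localised classes

A map of classes commuting with the operators at all good primes induces a map of the classes
localised at corresponding residual systems.
-/

set_option autoImplicit false
set_option linter.unusedSectionVars false

noncomputable section

set_option synthInstance.maxHeartbeats 400000

namespace FLTAgent.ModLift

open FLTAgent.Lowering.Cocycle

variable {O : Type} [CommRing O] {A : Type} [CommRing A] [Algebra O A] {k : Type} [Field k]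
  {bad bad' : Finset ℕ}

/-- The same prime outside an equal finite set. -/
def goodMap (hb : bad' = bad) (l : GoodPrime bad) : GoodPrime bad' :=
  ⟨l.1, l.2.1, fun h => l.2.2 (hb ▸ h)⟩

/-- The polynomial rings of equal finite sets. -/
def polyMap (O : Type) [CommRing O] (hb : bad' = bad) : Poly O bad →+* Poly O bad' :=
  (MvPolynomial.rename (goodMap hb)).toRingHom

theorem polyMap_X (hb : bad' = bad) (l : GoodPrime bad) :
    polyMap O hb (MvPolynomial.X l) = MvPolynomial.X (goodMap hb l) :=
  MvPolynomial.rename_X _ _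

theorem polyMap_C (hb : bad' = bad) (r : O) :
    polyMap O hb (MvPolynomial.C r) = MvPolynomial.C r :=
  MvPolynomial.rename_C _ _

variable {M L : ℕ} {χ : ZMod M →* A} {χ' : ZMod L →* A}
  {N N' : Type} [AddCommGroup N] [Module A N] [AddCommGroup N'] [Module A N']

/-- The map commutes with the operators at the good primes. -/
def CommOps (hb : bad' = bad) (f : H1 (psi χ) N →ₗ[A] H1 (psi χ') N') : Prop :=
  ∀ (l : GoodPrime bad) (x : H1 (psi χ) N),
    f (opAt χ bad N l x) = opAt χ' bad' N' (goodMap hb l) (f x)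

theorem CommOps.polyHom {hb : bad' = bad} {f : H1 (psi χ) N →ₗ[A] H1 (psi χ') N'}
    (hf : CommOps hb f) (P : Poly O bad) (x : H1 (psi χ) N) :
    f (polyHom O χ bad N P x) = polyHom O χ' bad' N' (polyMap O hb P) (f x) := by
  induction P using MvPolynomial.induction_on generalizing x with
  | C r =>
    rw [polyMap_C, polyHom_C, polyHom_C, Module.algebraMap_end_apply, Module.algebraMap_end_apply,
      map_smul]
  | add P Q hP hQ => simp only [map_add, LinearMap.add_apply, hP, hQ]
  | mul_X P l hP =>
    simp only [map_mul, Module.End.mul_apply, hP, polyMap_X, polyHom_X]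
    exact congrArg _ (hf l x)

/-- The residual systems correspond. -/
def SysEq (hb : bad' = bad) (θ : Poly O bad →+* k) (θ' : Poly O bad' →+* k) : Prop :=
  θ'.comp (polyMap O hb) = θ

theorem polyMap_refl (P : Poly O bad) : polyMap O (rfl : bad = bad) P = P := by
  show MvPolynomial.rename (goodMap (rfl : bad = bad)) P = P
  rw [show goodMap (rfl : bad = bad) = id from funext fun l => Subtype.ext rfl,
    MvPolynomial.rename_id_apply]

theorem polyMap_symm (hb : bad' = bad) (P : Poly O bad') :
    polyMap O hb (polyMap O hb.symm P) = P := by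
  subst hb
  rw [polyMap_refl, polyMap_refl]

theorem sysEq_refl (θ : Poly O bad →+* k) : SysEq (rfl : bad = bad) θ θ :=
  RingHom.ext fun P => congrArg θ (polyMap_refl P)

theorem SysEq.symm {hb : bad' = bad} {θ : Poly O bad →+* k} {θ' : Poly O bad' →+* k}
    (h : SysEq hb θ θ') : SysEq hb.symm θ' θ := by
  refine RingHom.ext fun P => ?_
  rw [RingHom.comp_apply, ← h, RingHom.comp_apply, polyMap_symm]

variable [NeZero M] [NeZero L] {θ : Poly O bad →+* k} {θ' : Poly O bad' →+* k} {hb : bad' = bad}

section Map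

variable (hsurj : Function.Surjective (toLoc χ N θ)) (hθ : SysEq hb θ θ')
  (f : H1 (psi χ) N →ₗ[A] H1 (psi χ') N') (hf : CommOps hb f)

/-- The map before it factors. -/
def preLoc (m : Coh O χ bad N) : Loc χ' N' θ' :=
  toLoc χ' N' θ' (toCoh O χ' bad' N' (f ((toCoh O χ bad N).symm m)))

include hθ hf in
theorem preLoc_eq {m m' : Coh O χ bad N} (h : toLoc χ N θ m = toLoc χ N θ m') :
    preLoc f m = (preLoc f m' : Loc χ' N' θ') := by
  rw [LocalizedModule.mkLinearMap_apply, LocalizedModule.mkLinearMap_apply,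
    LocalizedModule.mk_eq] at h
  obtain ⟨u, hu⟩ := h
  simp only [one_smul, Submonoid.smul_def] at hu
  have hu' : polyMap O hb (u : Poly O bad) ∈ denom θ' := by
    rw [mem_denom]
    show (θ'.comp (polyMap O hb)) (u : Poly O bad) ≠ 0
    rw [hθ]
    exact u.2
  rw [preLoc, preLoc, LocalizedModule.mkLinearMap_apply, LocalizedModule.mkLinearMap_apply,
    LocalizedModule.mk_eq]
  refine ⟨⟨_, hu'⟩, ?_⟩
  simp only [one_smul, Submonoid.smul_def, poly_smul]
  obtain ⟨a, rfl⟩ := (toCoh O χ bad N).surjective m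
  obtain ⟨b, rfl⟩ := (toCoh O χ bad N).surjective m'
  rw [poly_smul, poly_smul] at hu
  rw [LinearEquiv.symm_apply_apply, LinearEquiv.symm_apply_apply, ← hf.polyHom, ← hf.polyHom,
    (toCoh O χ bad N).injective hu]

/-- The induced map of localised classes. -/
def locMap : Loc χ N θ →ₗ[A] Loc χ' N' θ' where
  toFun x := preLoc f (hsurj x).choose
  map_add' x y := by
    rw [preLoc_eq hθ f hf (m' := (hsurj x).choose + (hsurj y).choose) (by
      rw [map_add, (hsurj (x + y)).choose_spec, (hsurj x).choose_spec, (hsurj y).choose_spec])]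
    simp only [preLoc, map_add]
  map_smul' a x := by
    rw [preLoc_eq hθ f hf (m' := a • (hsurj x).choose) (by
      rw [(hsurj (a • x)).choose_spec,
        show toLoc χ N θ (a • (hsurj x).choose) = a • toLoc χ N θ (hsurj x).choose from
          (smul_mk χ N θ a _ 1).symm, (hsurj x).choose_spec]), preLoc, map_smul, map_smul, map_smul,
      RingHom.id_apply]
    exact (smul_mk χ' N' θ' a _ 1).symm

theorem locMap_toLoc (x : H1 (psi χ) N) :
    locMap hsurj hθ f hf (toLoc χ N θ (toCoh O χ bad N x)) =
      toLoc χ' N' θ' (toCoh O χ' bad' N' (f x)) := by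
  show preLoc f (hsurj _).choose = _
  rw [preLoc_eq hθ f hf (hsurj _).choose_spec, preLoc, LinearEquiv.symm_apply_apply]

include hsurj in
/-- Induction on the classes. -/
theorem loc_induction {motive : Loc χ N θ → Prop}
    (h : ∀ x : H1 (psi χ) N, motive (toLoc χ N θ (toCoh O χ bad N x))) (x : Loc χ N θ) :
    motive x := by
  obtain ⟨m, rfl⟩ := hsurj x
  obtain ⟨z, rfl⟩ := (toCoh O χ bad N).surjective m
  exact h z

theorem X_smul_toLoc (l : GoodPrime bad) (x : H1 (psi χ) N) :
    (MvPolynomial.X l : Poly O bad) • toLoc χ N θ (toCoh O χ bad N x) =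
      toLoc χ N θ (toCoh O χ bad N (opAt χ bad N l x)) := by
  rw [← map_smul, poly_X_smul]

theorem locMap_X (l : GoodPrime bad) (x : Loc χ N θ) :
    locMap hsurj hθ f hf ((MvPolynomial.X l : Poly O bad) • x) =
      (MvPolynomial.X (goodMap hb l) : Poly O bad') • locMap hsurj hθ f hf x := by
  induction x using loc_induction hsurj with
  | h z => rw [X_smul_toLoc, locMap_toLoc, locMap_toLoc, X_smul_toLoc, hf l z]

end Map

theorem mapLoc_toLoc {N₂ : Type} [AddCommGroup N₂] [Module A N₂] (g : N →ₗ[A] N₂)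
    (x : H1 (psi χ) N) :
    mapLoc χ θ g (toLoc χ N θ (toCoh O χ bad N x)) =
      toLoc χ N₂ θ (toCoh O χ bad N₂ (mapH1 g x)) := by
  rw [LocalizedModule.mkLinearMap_apply, mapLoc_mk]
  rfl

theorem locMap_natural {N₂ N₂' : Type} [AddCommGroup N₂] [Module A N₂] [AddCommGroup N₂']
    [Module A N₂'] (hsurj : Function.Surjective (toLoc χ N θ))
    (hsurj₂ : Function.Surjective (toLoc χ N₂ θ)) (hθ : SysEq hb θ θ')
    (f : H1 (psi χ) N →ₗ[A] H1 (psi χ') N') (hf : CommOps hb f)
    (f₂ : H1 (psi χ) N₂ →ₗ[A] H1 (psi χ') N₂') (hf₂ : CommOps hb f₂)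
    (g : N →ₗ[A] N₂) (g' : N' →ₗ[A] N₂') (h : ∀ x, mapH1 g' (f x) = f₂ (mapH1 g x))
    (x : Loc χ N θ) :
    mapLoc χ' θ' g' (locMap hsurj hθ f hf x) =
      locMap hsurj₂ hθ f₂ hf₂ (mapLoc χ θ g x) := by
  induction x using loc_induction hsurj with
  | h z => rw [locMap_toLoc, mapLoc_toLoc, mapLoc_toLoc, locMap_toLoc, h]

/-- A class killed by an element invertible at the system vanishes in the localisation. -/
theorem toLoc_eq_zero_of_smul {P : Poly O bad} (hP : θ P ≠ 0) {x : H1 (psi χ) N}
    (h : polyHom O χ bad N P x = 0) : toLoc χ N θ (toCoh O χ bad N x) = 0 := by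
  rw [LocalizedModule.mkLinearMap_apply, ← LocalizedModule.zero_mk 1, LocalizedModule.mk_eq]
  refine ⟨⟨P, hP⟩, ?_⟩
  simp only [one_smul, Submonoid.smul_def, poly_smul, h, map_zero, smul_zero]

/-- A vanishing class is killed by an element invertible at the system. -/
theorem exists_smul_eq_zero {x : H1 (psi χ) N}
    (h : toLoc χ N θ (toCoh O χ bad N x) = 0) :
    ∃ P : Poly O bad, θ P ≠ 0 ∧ polyHom O χ bad N P x = 0 := by
  rw [LocalizedModule.mkLinearMap_apply, ← LocalizedModule.zero_mk 1, LocalizedModule.mk_eq] at h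
  obtain ⟨u, hu⟩ := h
  simp only [one_smul, smul_zero, Submonoid.smul_def, poly_smul] at hu
  exact ⟨u, u.2, (toCoh O χ bad N).injective (hu.trans (map_zero _).symm)⟩

end FLTAgent.ModLift
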