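import Fermat.Agent.ModLift.Degen.Residual
import Fermat.Agent.ModLift.Degen.Loc
import Fermat.Agent.ModLift.Degen.Push.Start

/-!
# The operators between a level and its multiple by a prime

Restriction, the normalised Atkin–Lehner involution and the transfer, for any presentation of the
larger level, with the residual statements.
-/

set_option autoImplicit false
set_option linter.unusedSectionVars false
set_option linter.style.haveILetI false

noncomputable section

set_option synthInstance.maxHeartbeats 400000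
set_option maxHeartbeats 1000000

namespace FLTAgent.ModLift

open FLTAgent.PeriodHecke FLTAgent.Lowering.Cocycle FLTAgent.LevelRaise

variable {A : Type} [CommRing A]

/-- Finite coefficients killed by `p` on which the character and the normalisation act trivially. -/
structure IsResidual (p : ℕ) {M : ℕ} (χ : ZMod M →* A) (η : A) (N : Type) [AddCommGroup N]
    [Module A N] : Prop where
  finite : Finite N
  kill : ∀ v : N, p • v = 0
  chi : ∀ d : ZMod M, IsUnit d → ∀ v : N, χ d • v = v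
  eta : ∀ v : N, η • v = v

/-- The operators between the levels `M` and `L = M ℓ`. -/
structure LevelOps {M L : ℕ} (ℓ : ℕ) [Fact ℓ.Prime] [NeZero M] [NeZero L] (χ : ZMod M →* A)
    (χ' : ZMod L →* A) {bad bad' : Finset ℕ} (hb : bad' = bad) (η : A) (p : ℕ) where
  R : ∀ (N : Type) [AddCommGroup N] [Module A N], H1 (psi χ) N →ₗ[A] H1 (psi χ') N
  W : ∀ (N : Type) [AddCommGroup N] [Module A N], H1 (psi χ') N →ₗ[A] H1 (psi χ') N
  tau : ∀ (N : Type) [AddCommGroup N] [Module A N], H1 (psi χ') N →ₗ[A] H1 (psi χ) N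
  R_nat : ∀ (N N' : Type) [AddCommGroup N] [Module A N] [AddCommGroup N'] [Module A N']
    (f : N →ₗ[A] N') (x : H1 (psi χ) N), mapH1 f (R N x) = R N' (mapH1 f x)
  W_nat : ∀ (N N' : Type) [AddCommGroup N] [Module A N] [AddCommGroup N'] [Module A N']
    (f : N →ₗ[A] N') (x : H1 (psi χ') N), mapH1 f (W N x) = W N' (mapH1 f x)
  tau_nat : ∀ (N N' : Type) [AddCommGroup N] [Module A N] [AddCommGroup N'] [Module A N']
    (f : N →ₗ[A] N') (x : H1 (psi χ') N), mapH1 f (tau N x) = tau N' (mapH1 f x)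
  R_comm : ∀ (N : Type) [AddCommGroup N] [Module A N], CommOps hb (R N)
  W_comm : ∀ (N : Type) [AddCommGroup N] [Module A N], CommOps (rfl : bad' = bad') (W N)
  tau_comm : ∀ (N : Type) [AddCommGroup N] [Module A N], CommOps hb.symm (tau N)
  tau_R : ∀ (N : Type) [AddCommGroup N] [Module A N] (x : H1 (psi χ) N),
    tau N (R N x) = ((ℓ : A) + 1) • x
  W_W : ∀ (N : Type) [AddCommGroup N] [Module A N] (x : H1 (psi χ') N), W N (W N x) = x
  tau_W_R : ∀ (N : Type) [AddCommGroup N] [Module A N] (x : H1 (psi χ) N),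
    tau N (W N (R N x)) = η • heckeH1 (N := N) (stdWeight (p := ℓ) χ) x
  ihara : ∀ (N : Type) [AddCommGroup N] [Module A N], IsResidual p χ η N →
    ∀ (l : GoodPrime bad), ¬ l.1 ∣ L → (l.1 : ZMod M) = 1 → ∀ x y : H1 (psi χ) N,
      R N x + W N (R N y) = 0 →
        shiftH1 l.1 χ N (shiftH1 l.1 χ N x) = 0 ∧ shiftH1 l.1 χ N (shiftH1 l.1 χ N y) = 0
  dual : ∀ (N : Type) [AddCommGroup N] [Module A N], IsResidual p χ η N →
    ∀ (l : GoodPrime bad), ¬ l.1 ∣ L → (l.1 : ZMod M) = 1 → ∀ x y : H1 (psi χ) N,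
      ∃ z : H1 (psi χ') N, tau N z = shiftH1 l.1 χ N (shiftH1 l.1 χ N x) ∧
        tau N (W N z) = shiftH1 l.1 χ N (shiftH1 l.1 χ N y)
  tau_zero : ∀ (N : Type) [AddCommGroup N] [Module A N] (c : Z1 (psi χ') N)
    (f : Matrix.SpecialLinearGroup (Fin 2) ℤ → N),
    (∀ g : CongruenceSubgroup.Gamma0 L, f g = (c : CongruenceSubgroup.Gamma0 L → N) g) →
      tau N (cls c) = 0 → Push.Tr0 ℓ (CongruenceSubgroup.Gamma1 M) f
  tau_W_zero : ∀ (N : Type) [AddCommGroup N] [Module A N] (c : Z1 (psi χ') N)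
    (f : Matrix.SpecialLinearGroup (Fin 2) ℤ → N),
    (∀ g : CongruenceSubgroup.Gamma0 L, f g = (c : CongruenceSubgroup.Gamma0 L → N) g) →
      tau N (W N (cls c)) = 0 → ∀ x y z t : ℤ, (ℓ : ℤ) * x * t - (M : ℤ) * y * z = 1 →
        ∀ g' : Matrix.SpecialLinearGroup (Fin 2) ℤ → Matrix.SpecialLinearGroup (Fin 2) ℤ,
          (∀ g ∈ Push.low ℓ (CongruenceSubgroup.Gamma1 M),
            !![(ℓ : ℤ) * x, y; (M : ℤ) * ℓ * z, (ℓ : ℤ) * t] * (g : Matrix (Fin 2) (Fin 2) ℤ) =
              (g' g : Matrix (Fin 2) (Fin 2) ℤ) *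
                !![(ℓ : ℤ) * x, y; (M : ℤ) * ℓ * z, (ℓ : ℤ) * t]) →
            Push.Tr0 ℓ (CongruenceSubgroup.Gamma1 M) (f ∘ g')

/-- The operators exist. -/
theorem exists_levelOps {M L : ℕ} (ℓ : ℕ) [Fact ℓ.Prime] [NeZero M] [NeZero L] (hL : L = M * ℓ)
    (hℓ : ¬ ℓ ∣ M) (χ : ZMod M →* A) (χ' : ZMod L →* A)
    (hχ : ∀ (h : M ∣ L) (d : ZMod L), IsUnit d → χ' d = χ (ZMod.castHom h (ZMod M) d))
    {bad bad' : Finset ℕ} (hb : bad' = bad) (hℓb : ℓ ∈ bad) (η : A)
    (hη : η * η * χ (ℓ : ZMod M) = 1) {p : ℕ} [Fact p.Prime] (hp2 : p ≠ 2) (hM : 5 ≤ M)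
    (hsq : Squarefree M) (ht : 5 ≤ p ∨ ∀ a : ZMod M, a ^ 2 - a + 1 ≠ 0) :
    Nonempty (LevelOps ℓ χ χ' hb η p) := by
  subst hL hb
  haveI : NeZero (M * ℓ) := ‹_›
  obtain ⟨B⟩ := exists_bez (N := M) hℓ
  have hc := hχ (dvd_level M ℓ)
  have hne : ∀ l : GoodPrime bad', l.1 ≠ ℓ := fun l e => l.2.2 (e ▸ hℓb)
  refine ⟨{
    R := fun N _ _ => Corr.mapR χ N hc
    W := fun N _ _ => η • Corr.mapW χ N B hc
    tau := fun N _ _ => Corr.mapTau χ N hc
    R_nat := fun N N' _ _ _ _ f x => Corr.R_mapH1 χ hc f x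
    W_nat := fun N N' _ _ _ _ f x => by
      rw [LinearMap.smul_apply, LinearMap.smul_apply, map_smul, Corr.W_mapH1 χ B hc f x]
    tau_nat := fun N N' _ _ _ _ f x => Corr.tau_mapH1 χ hc f x
    R_comm := fun N _ _ l x => Corr.R_hecke χ hc (hne l) x
    W_comm := fun N _ _ l x => by
      show η • Corr.mapW χ N B hc _ = opAt χ' bad' N _ (η • Corr.mapW χ N B hc x)
      rw [map_smul]
      exact congrArg (η • ·) (Corr.W_hecke χ B hc (hne l) x)
    tau_comm := fun N _ _ l x => Corr.tau_hecke χ B hc (hne l) x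
    tau_R := fun N _ _ x => by
      rw [Corr.tau_R χ B hc x, ← Nat.cast_smul_eq_nsmul A, Nat.cast_add, Nat.cast_one]
    W_W := fun N _ _ x => by
      rw [LinearMap.smul_apply, LinearMap.smul_apply, map_smul, Corr.W_W χ B hc x, smul_smul,
        smul_smul, hη, one_smul]
    tau_W_R := fun N _ _ x => by
      rw [LinearMap.smul_apply, map_smul, Corr.tau_W_R χ B hc x]
    ihara := fun N _ _ hN l hl h1 x y h => ?_
    dual := fun N _ _ hN l hl h1 x y => ?_
    tau_zero := fun N _ _ c f hf h0 => Push.tr0_of_tau χ hc hℓ c h0 hf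
    tau_W_zero := fun N _ _ c f hf h0 x y z t hd g' hg' => Push.tr0_of_tau_W χ hc hℓ B c (by
      rw [LinearMap.smul_apply, map_smul] at h0
      exact ((IsUnit.of_mul_eq_one (η * χ (ℓ : ZMod M)) (by rw [← mul_assoc, hη])).smul_eq_zero).1 h0)
      hd hf g' hg' }⟩
  · rw [LinearMap.smul_apply] at h
    have hy : η • Corr.mapW χ N B hc (Corr.mapR χ N hc y) =
        Corr.mapW χ N B hc (Corr.mapR χ N hc (η • y)) := by rw [map_smul, map_smul]
    obtain ⟨h₁, h₂⟩ := Corr.kernel_shift B hc hN.chi hp2 hN.kill hM hsq ht hl h1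
      (x := x) (y := η • y) (by rw [← hy]; exact h)
    refine ⟨h₁, ?_⟩
    rw [map_smul, map_smul] at h₂
    refine toHom_injective (psi_smul_self hN.chi) ?_
    rw [map_zero, ← map_zero (toHom (psi_smul_self hN.chi)), ← h₂]
    induction shiftH1 l.1 χ N (shiftH1 l.1 χ N y) using Submodule.Quotient.induction_on with
    | H c => exact AddMonoidHom.ext fun g => (hN.eta _).symm
  · haveI := hN.finite
    obtain ⟨z, hz₁, hz₂⟩ := Corr.surjective_shift B hc hN.chi hp2 hN.kill hM hsq ht hl h1 x y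
    refine ⟨z, hz₁, ?_⟩
    rw [LinearMap.smul_apply, map_smul, hz₂]
    refine toHom_injective (psi_smul_self hN.chi) ?_
    induction shiftH1 l.1 χ N (shiftH1 l.1 χ N y) using Submodule.Quotient.induction_on with
    | H c => exact AddMonoidHom.ext fun g => hN.eta _

end FLTAgent.ModLift
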