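import Fermat.Agent.ModLift.Degen.Frob

/-!
# The degeneracy maps exist

`Raise.degen` is the chosen construction: the upper map is restriction plus the involution after
restriction, the lower one the pair of transfers, and the operators at `ℓ` are their composites.
-/

set_option autoImplicit false
set_option linter.unusedSectionVars false
set_option linter.style.haveILetI false

noncomputable section

set_option synthInstance.maxHeartbeats 400000
set_option maxHeartbeats 1000000

open IsLocalRing FLTAgent.Lowering.Cocycle FLTAgent.EigenReps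

namespace FLTAgent.ModLift

open FLTAgent.Lowering

local notation "LL" => AlgebraicClosure ℚ
local notation "GG" => (AlgebraicClosure ℚ ≃ₐ[ℚ] AlgebraicClosure ℚ)

variable {p : ℕ} [Fact p.Prime] {O : Type} [CommRing O] [IsDomain O] [IsDiscreteValuationRing O]
  [Algebra ℤ_[p] O] [Module.Finite ℤ_[p] O] [CharZero O] {S S' : Setup p O} {ℓ : ℕ}
  [Fact ℓ.Prime]

namespace Raise

variable (h : Raise S S' ℓ) (X : Aux S)

/-- The map of traces carries one pseudo-character to the other. -/
theorem resTr_pseudo {P' : PseudoChar GG (h.up X).TR} {P : PseudoChar GG X.TR}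
    (hP' : (h.up X).IsTracePseudo P') (hP : X.IsTracePseudo P) (σ : GG) :
    h.resTr X (P'.tr σ) = P.tr σ := by
  haveI := X.isAdicComplete_TR
  refine eq_of_forall_mk_pow (I := X.pIdeal) fun m => ?_
  let π : X.TR →+* (X.TR ⧸ X.pIdeal ^ m) := Ideal.Quotient.mk _
  obtain ⟨L, hL, hfix⟩ := hP'.level m
  obtain ⟨L0, hL0, hfix0⟩ := hP.level m
  refine Aux.tr_eq_of_good (X := h.up X)
    (P'.map (π.comp (h.resTr X).toRingHom) : PseudoChar GG (X.TR ⧸ X.pIdeal ^ m))
    (P.map π : PseudoChar GG (X.TR ⧸ X.pIdeal ^ m))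
    ⟨L, hL, fun τ hτ g => ?_⟩
    ⟨L0, hL0, fun τ hτ g => (Ideal.Quotient.mk_eq_mk_iff_sub_mem _ _).mpr (hfix0 τ hτ g)⟩
    (fun l V hV τ hτ => ⟨?_, ?_⟩) σ
  · refine (Ideal.Quotient.mk_eq_mk_iff_sub_mem _ _).mpr ?_
    show h.resTr X (P'.tr (g * τ)) - h.resTr X (P'.tr g) ∈ X.pIdeal ^ m
    have h1 := Ideal.mem_map_of_mem (h.resTr X).toRingHom (hfix τ hτ g)
    rw [Ideal.map_pow, Ideal.map_span, Set.image_singleton, map_natCast, map_sub] at h1
    exact h1
  · show π (h.resTr X (P'.tr τ)) = π (P.tr τ)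
    rw [hP'.frob l V hV τ hτ, hP.frob (h.lowPrime X l) V hV τ hτ, h.resTr_trace X]
  · show π (h.resTr X (P'.det τ)) = π (P.det τ)
    rw [hP'.det_eq, hP.det_eq]
    refine congrArg π ?_
    show h.resTr X (algebraMap ℤ_[p] (h.up X).TR (cycZ p τ)) = algebraMap ℤ_[p] X.TR (cycZ p τ)
    rw [IsScalarTower.algebraMap_apply ℤ_[p] O (h.up X).TR, AlgHom.commutes,
      ← IsScalarTower.algebraMap_apply]

/-- **The degeneracy maps.** -/
def degen : Degen h X where
  hecke := h.modT X
  atU := h.modU X
  up := h.modUp X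
  down := h.modDown X
  resT := h.resTr X
  resT_trace r r' hrr := (h.resTr_trace X r).trans
    (congrArg X.trace (Subtype.ext (Subtype.ext hrr)))
  resT_tr σ := by
    show h.resTr X (trGL (((h.up X).pseudo_spec (h.up X).geometry).rep σ)) =
      trGL ((X.pseudo_spec X.geometry).rep σ)
    rw [Aux.IsTracePseudo.tr_rep, Aux.IsTracePseudo.tr_rep,
      h.resTr_pseudo X ((h.up X).pseudo_spec (h.up X).geometry) (X.pseudo_spec X.geometry)]
  up_act := h.modUp_act X
  down_act := h.modDown_act X
  hecke_comm := h.modT_comm X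
  atU_comm := h.modU_comm X
  hecke_frob hℓp _ hV _ hφ e := h.modT_frob X e hℓp hV hφ
  up_inj := h.modUp_inj X
  down_surj := h.modDown_surjective X
  comp := h.modDown_modUp X
  atU_up := h.modU_modUp X
  atU_down := h.modDown_modU X
  old := h.modU_old X

end Raise

/-- Degeneracy maps exist. -/
theorem targetDegen : TargetDegen := fun _ _ _ _ _ _ _ _ _ _ _ _ h X =>
  haveI := Fact.mk h.prime
  ⟨h.degen X⟩

end FLTAgent.ModLift
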