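import Fermat.Agent.ModLift.Degen.Setting

/-!
# The degeneracy maps of localised classes

They satisfy the algebraic relations, the sum of the two is injective on residual classes and the
pair of transfers is surjective there.
-/

set_option autoImplicit false
set_option linter.unusedSectionVars false
set_option linter.style.haveILetI false

noncomputable section

set_option synthInstance.maxHeartbeats 400000
set_option maxHeartbeats 1000000

open IsLocalRing FLTAgent.Lowering.Cocycle FLTAgent.PeriodHecke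

namespace FLTAgent.ModLift

open FLTAgent.Lowering

variable {p : ℕ} [Fact p.Prime] {O : Type} [CommRing O] [IsDomain O] [IsDiscreteValuationRing O]
  [Algebra ℤ_[p] O] [Module.Finite ℤ_[p] O] {S S' : Setup p O} {ℓ : ℕ} [Fact ℓ.Prime]

namespace Raise

variable (h : Raise S S' ℓ) (X : Aux S) (e : Bool) (N : Type) [AddCommGroup N] [Module X.Coef N]
  [Module.Finite X.Coef N]

/-- Localised classes of the lower level. -/
abbrev Low : Type := Loc (X.chi e) N X.sys

/-- Localised classes of the upper level. -/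
abbrev High : Type := Loc (h.chiUp X e) N (h.up X).sys

theorem surj_low : Function.Surjective (toLoc (X.chi e) N X.sys) :=
  X.surjective_toLoc_coef _

theorem surj_high : Function.Surjective (toLoc (h.chiUp X e) N (h.up X).sys) :=
  haveI := X.finite_coef
  haveI : IsNoetherianRing X.Coef := IsNoetherianRing.of_finite ℤ_[p] X.Coef
  toLoc_surjective (N := N) (h.chiUp X e) (h.up X).sys p (residue_natCast_eq_zero p O)

/-- Restriction. -/
def locR : Low X e N →ₗ[X.Coef] h.High X e N :=
  locMap (surj_low X e N) (h.sysEq X) ((h.ops X e).R N) ((h.ops X e).R_comm N)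

/-- The normalised involution. -/
def locW : h.High X e N →ₗ[X.Coef] h.High X e N :=
  locMap (h.surj_high X e N) (sysEq_refl _) ((h.ops X e).W N) ((h.ops X e).W_comm N)

/-- The transfer. -/
def locTau : h.High X e N →ₗ[X.Coef] Low X e N :=
  locMap (h.surj_high X e N) (h.sysEq X).symm ((h.ops X e).tau N) ((h.ops X e).tau_comm N)

/-- The operator at `ℓ` of the lower level. -/
def locT : Low X e N →ₗ[X.Coef] Low X e N :=
  (h.locTau X e N).comp ((h.locW X e N).comp (h.locR X e N))

theorem locR_toLoc (x : H1 (psi (X.chi e)) N) :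
    h.locR X e N (toLoc _ N _ (toCoh O (X.chi e) S.bad N x)) =
      toLoc _ N _ (toCoh O (h.chiUp X e) S'.bad N ((h.ops X e).R N x)) :=
  locMap_toLoc _ _ _ _ _

theorem locW_toLoc (x : H1 (psi (h.chiUp X e)) N) :
    h.locW X e N (toLoc _ N _ (toCoh O (h.chiUp X e) S'.bad N x)) =
      toLoc _ N _ (toCoh O (h.chiUp X e) S'.bad N ((h.ops X e).W N x)) :=
  locMap_toLoc _ _ _ _ _

theorem locTau_toLoc (x : H1 (psi (h.chiUp X e)) N) :
    h.locTau X e N (toLoc _ N _ (toCoh O (h.chiUp X e) S'.bad N x)) =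
      toLoc _ N _ (toCoh O (X.chi e) S.bad N ((h.ops X e).tau N x)) :=
  locMap_toLoc _ _ _ _ _

theorem locT_toLoc (x : H1 (psi (X.chi e)) N) :
    h.locT X e N (toLoc _ N _ (toCoh O (X.chi e) S.bad N x)) =
      toLoc _ N _ (toCoh O (X.chi e) S.bad N
        (h.eta X e • heckeH1 (N := N) (stdWeight (p := ℓ) (X.chi e)) x)) := by
  rw [locT, LinearMap.comp_apply, LinearMap.comp_apply, locR_toLoc, locW_toLoc, locTau_toLoc,
    (h.ops X e).tau_W_R]

theorem locTau_locR (x : Low X e N) :
    h.locTau X e N (h.locR X e N x) = ((ℓ : X.Coef) + 1) • x := by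
  induction x using loc_induction (surj_low X e N) with
  | h z =>
    rw [locR_toLoc, locTau_toLoc, (h.ops X e).tau_R, map_smul, LocalizedModule.mkLinearMap_apply,
      LocalizedModule.mkLinearMap_apply, ← smul_mk]

theorem locW_locW (x : h.High X e N) : h.locW X e N (h.locW X e N x) = x := by
  induction x using loc_induction (h.surj_high X e N) with
  | h z => rw [locW_toLoc, locW_toLoc, (h.ops X e).W_W]

theorem locTau_locW_locR (x : Low X e N) :
    h.locTau X e N (h.locW X e N (h.locR X e N x)) = h.locT X e N x := rfl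

theorem locR_natural (N' : Type) [AddCommGroup N'] [Module X.Coef N'] [Module.Finite X.Coef N']
    (f : N →ₗ[X.Coef] N') (x : Low X e N) :
    mapLoc (h.chiUp X e) (h.up X).sys f (h.locR X e N x) =
      h.locR X e N' (mapLoc (X.chi e) X.sys f x) :=
  locMap_natural _ _ _ _ _ _ _ _ _ (fun y => (h.ops X e).R_nat N N' f y) x

theorem locW_natural (N' : Type) [AddCommGroup N'] [Module X.Coef N'] [Module.Finite X.Coef N']
    (f : N →ₗ[X.Coef] N') (x : h.High X e N) :
    mapLoc (h.chiUp X e) (h.up X).sys f (h.locW X e N x) =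
      h.locW X e N' (mapLoc (h.chiUp X e) (h.up X).sys f x) :=
  locMap_natural _ _ _ _ _ _ _ _ _ (fun y => (h.ops X e).W_nat N N' f y) x

theorem locTau_natural (N' : Type) [AddCommGroup N'] [Module X.Coef N'] [Module.Finite X.Coef N']
    (f : N →ₗ[X.Coef] N') (x : h.High X e N) :
    mapLoc (X.chi e) X.sys f (h.locTau X e N x) =
      h.locTau X e N' (mapLoc (h.chiUp X e) (h.up X).sys f x) :=
  locMap_natural _ _ _ _ _ _ _ _ _ (fun y => (h.ops X e).tau_nat N N' f y) x

/-! ### Residual classes -/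

theorem exists_separating_good :
    ∃ l : GoodPrime S.bad, ¬ l.1 ∣ (h.up X).level ∧ (l.1 : ZMod X.level) = 1 ∧
      X.sys (MvPolynomial.X l - ((l.1 + 1 : ℕ) : Poly O S.bad)) ≠ 0 := by
  obtain ⟨l, V, τ, hl, hlb, hlN, hl1, hlp, hV, hτ, htr⟩ :=
    S.exists_separating (residue_natCast_eq_zero p O) (h.up X).level
  refine ⟨⟨l, hl, hlb⟩, hlN, ?_, ?_⟩
  · have h1 := congrArg (ZMod.castHom (h.level_dvd X) (ZMod X.level)) hl1
    rwa [map_natCast, map_one] at h1
  · have h2 : (l : ResidueField O) = 1 := by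
      haveI : CharP (ResidueField O) p :=
        (CharP.charP_iff_prime_eq_zero Fact.out).mpr (residue_natCast_eq_zero p O)
      have := congrArg (ZMod.castHom (dvd_refl p) (ResidueField O)) hlp
      rwa [map_natCast, map_one] at this
    have h3 : X.sys (MvPolynomial.X (⟨l, hl, hlb⟩ : GoodPrime S.bad)) = trGL (S.rb τ) :=
      (X.sysOn_not_mem (s := X.Q) (l := (⟨l, hl, hlb⟩ : GoodPrime S.bad)) fun hq => hlN
        ((dvd_mul_of_dvd_right (Finset.dvd_prod_of_mem _ hq) _).trans (h.level_dvd X))).trans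
        (S.tr0_spec ⟨l, hl, hlb⟩ V hV τ hτ)
    rw [map_sub, map_natCast, h3, sub_ne_zero]
    show trGL (S.rb τ) ≠ ((l + 1 : ℕ) : ResidueField O)
    rw [Nat.cast_add, Nat.cast_one]
    rw [h2, one_add_one_eq_two]
    exact htr

theorem polyHom_shift (l : GoodPrime S.bad) (x : H1 (psi (X.chi e)) N) :
    polyHom O (X.chi e) S.bad N (MvPolynomial.X l - ((l.1 + 1 : ℕ) : Poly O S.bad)) x =
      shiftH1 l.1 (X.chi e) N x := by
  rw [map_sub, map_natCast, polyHom_X, LinearMap.sub_apply, Module.End.natCast_apply]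
  rfl

/-- **Residual injectivity.** -/
theorem eq_zero_of_res {x y : Low X e X.ResQuot}
    (hxy : h.locR X e _ x + h.locW X e _ (h.locR X e _ y) = 0) : x = 0 ∧ y = 0 := by
  obtain ⟨a, rfl⟩ := (surj_low X e X.ResQuot) x
  obtain ⟨a, rfl⟩ := (toCoh O (X.chi e) S.bad X.ResQuot).surjective a
  obtain ⟨b, rfl⟩ := (surj_low X e X.ResQuot) y
  obtain ⟨b, rfl⟩ := (toCoh O (X.chi e) S.bad X.ResQuot).surjective b
  rw [locR_toLoc, locR_toLoc, locW_toLoc, ← map_add, ← map_add] at hxy
  obtain ⟨P, hP, hPx⟩ := exists_smul_eq_zero hxy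
  set Q := polyMap O h.bad_eq.symm P
  have hQ : X.sys Q ≠ 0 := by
    show (X.sys.comp (polyMap O h.bad_eq.symm)) P ≠ 0
    rw [show X.sys.comp (polyMap O h.bad_eq.symm) = (h.up X).sys from (h.sysEq X).symm]
    exact hP
  have hR : ∀ z, (h.ops X e).R X.ResQuot (polyHom O (X.chi e) S.bad X.ResQuot Q z) =
      polyHom O (h.chiUp X e) S'.bad X.ResQuot P ((h.ops X e).R X.ResQuot z) := fun z => by
    rw [((h.ops X e).R_comm X.ResQuot).polyHom, polyMap_symm]
  rw [map_add, ← hR, ← polyMap_refl P, ← ((h.ops X e).W_comm X.ResQuot).polyHom, ← hR] at hPx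
  obtain ⟨l, hl, h1, hle⟩ := h.exists_separating_good X
  obtain ⟨hx, hy⟩ := (h.ops X e).ihara X.ResQuot (h.isResidual X e) l hl h1 _ _ hPx
  rw [← polyHom_shift, ← polyHom_shift] at hx hy
  set E := MvPolynomial.X l - ((l.1 + 1 : ℕ) : Poly O S.bad)
  have hne : X.sys (E * E * Q) ≠ 0 := by
    rw [map_mul, map_mul]
    exact mul_ne_zero (mul_ne_zero hle hle) hQ
  refine ⟨toLoc_eq_zero_of_smul hne ?_, toLoc_eq_zero_of_smul hne ?_⟩
  · rw [map_mul, map_mul, Module.End.mul_apply, Module.End.mul_apply]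
    exact hx
  · rw [map_mul, map_mul, Module.End.mul_apply, Module.End.mul_apply]
    exact hy

/-- **Residual surjectivity.** -/
theorem exists_of_res (x y : Low X e X.ResQuot) : ∃ z : h.High X e X.ResQuot,
    h.locTau X e _ z = x ∧ h.locTau X e _ (h.locW X e _ z) = y := by
  obtain ⟨l, hl, h1, hle⟩ := h.exists_separating_good X
  set E := MvPolynomial.X l - ((l.1 + 1 : ℕ) : Poly O S.bad)
  have hu : Function.Bijective fun w : Low X e X.ResQuot => (E * E) • w :=
    (Module.End.isUnit_iff _).mp (IsLocalizedModule.map_units (toLoc (X.chi e) X.ResQuot X.sys)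
      (⟨E * E, by rw [mem_denom, map_mul]; exact mul_ne_zero hle hle⟩ : denom X.sys))
  obtain ⟨x', rfl⟩ := hu.2 x
  obtain ⟨y', rfl⟩ := hu.2 y
  obtain ⟨a, rfl⟩ := (surj_low X e X.ResQuot) x'
  obtain ⟨a, rfl⟩ := (toCoh O (X.chi e) S.bad X.ResQuot).surjective a
  obtain ⟨b, rfl⟩ := (surj_low X e X.ResQuot) y'
  obtain ⟨b, rfl⟩ := (toCoh O (X.chi e) S.bad X.ResQuot).surjective b
  obtain ⟨z, hz₁, hz₂⟩ := (h.ops X e).dual X.ResQuot (h.isResidual X e) l hl h1 a b
  refine ⟨toLoc _ _ _ (toCoh O (h.chiUp X e) S'.bad X.ResQuot z), ?_, ?_⟩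
  · rw [locTau_toLoc, hz₁, ← polyHom_shift, ← polyHom_shift, ← Module.End.mul_apply, ← map_mul,
      ← poly_smul, map_smul]
  · rw [locW_toLoc, locTau_toLoc, hz₂, ← polyHom_shift, ← polyHom_shift, ← Module.End.mul_apply,
      ← map_mul, ← poly_smul, map_smul]

end Raise

end FLTAgent.ModLift
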