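import Fermat.Agent.ModLift.Degen.Maps

/-!
# The degeneracy maps of the modules of two levels

They are built from restriction, the involution and the transfer; injectivity modulo the maximal
ideal and surjectivity follow from the residual statements, and they intertwine the twisted traces.
-/

set_option autoImplicit false
set_option linter.unusedSectionVars false
set_option linter.style.haveILetI false

noncomputable section

set_option synthInstance.maxHeartbeats 400000
set_option maxHeartbeats 1000000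

open IsLocalRing FLTAgent.Lowering.Cocycle FLTAgent.PeriodHecke

namespace FLTAgent.ModLift

open FLTAgent.Lowering

variable {p : ℕ} [Fact p.Prime] {O : Type} [CommRing O] [IsDomain O] [IsDiscreteValuationRing O]
  [Algebra ℤ_[p] O] [Module.Finite ℤ_[p] O] {S S' : Setup p O} {ℓ : ℕ} [Fact ℓ.Prime]

namespace Raise

variable (h : Raise S S' ℓ) (X : Aux S) (e : Bool)

/-- An element of the upper module as a localised class. -/
def upL : (h.up X).Mod e ≃ₗ[X.Coef] h.High X e X.Coef where
  toFun x := x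
  invFun x := x
  map_add' _ _ := rfl
  map_smul' _ _ := rfl
  left_inv _ := rfl
  right_inv _ := rfl

/-- Restriction. -/
def modR : X.Mod e →ₗ[X.Coef] (h.up X).Mod e :=
  (h.upL X e).symm.toLinearMap ∘ₗ h.locR X e X.Coef ∘ₗ (X.modL e).toLinearMap

/-- The normalised involution. -/
def modW : (h.up X).Mod e →ₗ[X.Coef] (h.up X).Mod e :=
  (h.upL X e).symm.toLinearMap ∘ₗ h.locW X e X.Coef ∘ₗ (h.upL X e).toLinearMap

/-- The transfer. -/
def modTau : (h.up X).Mod e →ₗ[X.Coef] X.Mod e :=
  (X.modL e).symm.toLinearMap ∘ₗ h.locTau X e X.Coef ∘ₗ (h.upL X e).toLinearMap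

theorem modTau_modR (x : X.Mod e) :
    h.modTau X e (h.modR X e x) = ((ℓ : X.Coef) + 1) • x :=
  h.locTau_locR X e X.Coef (X.modL e x)

theorem modW_modW (y : (h.up X).Mod e) : h.modW X e (h.modW X e y) = y :=
  h.locW_locW X e X.Coef (h.upL X e y)

/-- The operator at `ℓ` of the lower level. -/
def modT : Module.End X.Coef (X.Mod e) :=
  h.modTau X e ∘ₗ h.modW X e ∘ₗ h.modR X e

/-- The operator at `ℓ` of the upper level. -/
def modU : Module.End X.Coef ((h.up X).Mod e) :=
  h.modR X e ∘ₗ h.modTau X e ∘ₗ h.modW X e - h.modW X e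

/-- The sum of the two degeneracy maps. -/
def modUp : (Fin 2 → X.Mod e) →ₗ[X.Coef] (h.up X).Mod e :=
  h.modR X e ∘ₗ LinearMap.proj 0 + h.modW X e ∘ₗ h.modR X e ∘ₗ LinearMap.proj 1

theorem modUp_apply (v : Fin 2 → X.Mod e) :
    h.modUp X e v = h.modR X e (v 0) + h.modW X e (h.modR X e (v 1)) := rfl

/-- The pair of transfers. -/
def modDown : (h.up X).Mod e →ₗ[X.Coef] Fin 2 → X.Mod e :=
  LinearMap.pi ![h.modTau X e, h.modTau X e ∘ₗ h.modW X e]

theorem modDown_zero (y : (h.up X).Mod e) : h.modDown X e y 0 = h.modTau X e y := rfl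

theorem modDown_one (y : (h.up X).Mod e) :
    h.modDown X e y 1 = h.modTau X e (h.modW X e y) := rfl

theorem modDown_modUp (v : Fin 2 → X.Mod e) :
    h.modDown X e (h.modUp X e v) = ![((ℓ : X.Coef) + 1) • v 0 + h.modT X e (v 1),
      h.modT X e (v 0) + ((ℓ : X.Coef) + 1) • v 1] := by
  funext b
  fin_cases b
  · show h.modTau X e (h.modUp X e v) = _
    rw [modUp_apply, map_add, modTau_modR]
    rfl
  · show h.modTau X e (h.modW X e (h.modUp X e v)) = _
    rw [modUp_apply, map_add, map_add, modW_modW, modTau_modR]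
    rfl

theorem modU_modR (x : X.Mod e) : h.modU X e (h.modR X e x) =
    h.modR X e (h.modT X e x) - h.modW X e (h.modR X e x) := rfl

theorem modU_modW_modR (x : X.Mod e) :
    h.modU X e (h.modW X e (h.modR X e x)) = h.modR X e ((ℓ : X.Coef) • x) := by
  show h.modR X e (h.modTau X e (h.modW X e (h.modW X e (h.modR X e x)))) -
    h.modW X e (h.modW X e (h.modR X e x)) = _
  rw [modW_modW, modTau_modR, ← map_sub, add_smul, one_smul, add_sub_cancel_right]

theorem modU_modUp (v : Fin 2 → X.Mod e) : h.modU X e (h.modUp X e v) =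
    h.modUp X e ![h.modT X e (v 0) + (ℓ : X.Coef) • v 1, -v 0] := by
  rw [modUp_apply, map_add, modU_modR, modU_modW_modR, modUp_apply]
  show _ = h.modR X e (h.modT X e (v 0) + (ℓ : X.Coef) • v 1) + h.modW X e (h.modR X e (-v 0))
  rw [map_add (h.modR X e), map_neg, map_neg]
  abel

theorem modDown_modU (y : (h.up X).Mod e) : h.modDown X e (h.modU X e y) =
    ![(ℓ : X.Coef) • h.modDown X e y 1, h.modT X e (h.modDown X e y 1) - h.modDown X e y 0] := by
  funext b
  fin_cases b
  · show h.modTau X e (h.modR X e (h.modTau X e (h.modW X e y)) - h.modW X e y) =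
      (ℓ : X.Coef) • h.modTau X e (h.modW X e y)
    rw [map_sub, modTau_modR, add_smul, one_smul, add_sub_cancel_right]
  · show h.modTau X e (h.modW X e (h.modR X e (h.modTau X e (h.modW X e y)) - h.modW X e y)) =
      h.modT X e (h.modTau X e (h.modW X e y)) - h.modTau X e y
    rw [map_sub, map_sub, modW_modW]
    rfl

theorem modU_old (y : (h.up X).Mod e) :
    h.modU X e (h.modU X e y) - y ∈ LinearMap.range (h.modUp X e) := by
  refine ⟨![h.modT X e (h.modTau X e (h.modW X e y)) - h.modTau X e y,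
    -h.modTau X e (h.modW X e y)], ?_⟩
  have h1 : h.modU X e y = h.modR X e (h.modTau X e (h.modW X e y)) - h.modW X e y := rfl
  have h2 : h.modU X e (h.modW X e y) = h.modR X e (h.modTau X e y) - y := by
    show h.modR X e (h.modTau X e (h.modW X e (h.modW X e y))) - h.modW X e (h.modW X e y) = _
    rw [modW_modW]
  rw [h1, map_sub, modU_modR, h2, modUp_apply]
  show h.modR X e (h.modT X e (h.modTau X e (h.modW X e y)) - h.modTau X e y) +
      h.modW X e (h.modR X e (-h.modTau X e (h.modW X e y))) = _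
  rw [map_sub, map_neg, map_neg]
  abel

/-! ### Reduction modulo the maximal ideal -/

/-- The residual projection. -/
abbrev resProj : X.Coef →ₗ[X.Coef] X.ResQuot := Submodule.mkQ (maximalIdeal X.Coef)

theorem low_mem_iff (x : X.Mod e) :
    mapLoc (X.chi e) X.sys (resProj X) (X.modL e x) = 0 ↔
      x ∈ (maximalIdeal X.Coef • ⊤ : Submodule X.Coef (X.Mod e)) := by
  obtain ⟨r, b, hb⟩ := X.exists_universal_chi e
  refine (mapLoc_eq_zero_iff hb (resProj X) (X.modL e x)).trans ?_
  rw [Submodule.ker_mkQ, Aux.mem_smul_top_iff]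

theorem modUp_inj (v : Fin 2 → X.Mod e)
    (hv : h.modUp X e v ∈ (maximalIdeal X.Coef • ⊤ : Submodule X.Coef ((h.up X).Mod e))) (b : Fin 2) :
    v b ∈ (maximalIdeal X.Coef • ⊤ : Submodule X.Coef (X.Mod e)) := by
  have hzero : mapLoc (h.chiUp X e) (h.up X).sys (resProj X) (h.upL X e (h.modUp X e v)) = 0 := by
    obtain ⟨r, b', hb'⟩ : ∃ (r : ℕ) (b' : Fin r → h.High X e X.Coef),
        IsUniversalBasis (h.chiUp X e) (h.up X).sys b' := (h.up X).exists_universal_chi e
    refine (mapLoc_eq_zero_iff hb' (resProj X) _).mpr ?_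
    rw [Submodule.ker_mkQ, Aux.mem_smul_top_iff]
    exact hv
  have hsum : h.upL X e (h.modUp X e v) = h.locR X e X.Coef (X.modL e (v 0)) +
      h.locW X e X.Coef (h.locR X e X.Coef (X.modL e (v 1))) := rfl
  rw [hsum, map_add, locR_natural h X e X.Coef X.ResQuot, locW_natural h X e X.Coef X.ResQuot,
    locR_natural h X e X.Coef X.ResQuot] at hzero
  obtain ⟨h0, h1⟩ := h.eq_zero_of_res X e hzero
  fin_cases b
  · exact (low_mem_iff X e _).mp h0
  · exact (low_mem_iff X e _).mp h1

theorem exists_modDown_sub (v : Fin 2 → X.Mod e) : ∃ y : (h.up X).Mod e, ∀ b,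
    v b - h.modDown X e y b ∈ (maximalIdeal X.Coef • ⊤ : Submodule X.Coef (X.Mod e)) := by
  obtain ⟨z, hz₁, hz₂⟩ := h.exists_of_res X e
    (mapLoc (X.chi e) X.sys (resProj X) (X.modL e (v 0)))
    (mapLoc (X.chi e) X.sys (resProj X) (X.modL e (v 1)))
  obtain ⟨y, rfl⟩ := mapLoc_surjective (h.chiUp X e) (h.up X).sys ((h.up X).chi_neg e)
    (S'.liftable (h.up X).dvd_M0_level (algebraMap O X.Coef)) (resProj X)
    (Submodule.mkQ_surjective _) z
  rw [← locTau_natural h X e X.Coef X.ResQuot] at hz₁
  rw [← locW_natural h X e X.Coef X.ResQuot, ← locTau_natural h X e X.Coef X.ResQuot] at hz₂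
  refine ⟨(h.upL X e).symm y, fun b => (low_mem_iff X e _).mp ?_⟩
  rw [map_sub, map_sub, sub_eq_zero]
  fin_cases b
  · exact hz₁.symm
  · exact hz₂.symm

theorem modDown_surjective : Function.Surjective (h.modDown X e) := by
  haveI := (X.mod_finite_free e).1
  refine LinearMap.range_eq_top.mp (eq_top_iff.mpr (Submodule.le_of_le_smul_of_le_jacobson_bot
    Module.Finite.fg_top (maximalIdeal_le_jacobson _) fun v _ => ?_))
  obtain ⟨y, hy⟩ := h.exists_modDown_sub X e v
  refine Submodule.mem_sup.mpr ⟨h.modDown X e y, LinearMap.mem_range_self _ _,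
    v - h.modDown X e y, ?_, add_sub_cancel _ _⟩
  rw [← Finset.univ_sum_single (v - h.modDown X e y)]
  refine Submodule.sum_mem _ fun b _ => ?_
  have h1 : Submodule.map (LinearMap.single X.Coef (fun _ : Fin 2 => X.Mod e) b)
      (maximalIdeal X.Coef • ⊤) ≤ maximalIdeal X.Coef • ⊤ := by
    rw [Submodule.map_smul'']
    exact Submodule.smul_mono le_rfl le_top
  exact h1 ⟨_, hy b, rfl⟩

/-! ### The twisted traces -/

/-- A prime away from the upper level, at the lower one. -/
def lowPrime (r : (h.up X).TrPrime) : X.TrPrime :=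
  ⟨goodMap h.bad_eq.symm r.1, fun hd => r.2 (hd.trans (h.level_dvd X))⟩

/-- A prime away from the lower level, at the upper one. -/
def upPrime (r : X.TrPrime) : (h.up X).TrPrime :=
  ⟨goodMap h.bad_eq r.1, fun hd => by
    rw [show (h.up X).level = X.level * ℓ from h.level_up X] at hd
    rcases r.1.2.1.dvd_mul.mp hd with hd | hd
    · exact r.2 hd
    · exact r.1.2.2 (((Nat.prime_dvd_prime_iff_eq r.1.2.1 h.prime).mp hd).symm ▸ h.mem_bad)⟩

theorem lowPrime_upPrime (r : X.TrPrime) : h.lowPrime X (h.upPrime X r) = r := rfl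

theorem half_lowPrime (r : (h.up X).TrPrime) :
    ((h.up X).half e ((h.up X).unitOf r) : (h.up X).Coef) =
      (X.half e (X.unitOf (h.lowPrime X r)) : X.Coef) := by
  rw [h.half_up X e]
  refine congrArg (fun u => ((X.half e u : X.Coefˣ) : X.Coef)) (Units.ext ?_)
  show ZMod.castHom (h.level_dvd X) (ZMod X.level) (r.1.1 : ZMod (h.up X).level) = _
  rw [map_natCast]
  rfl

theorem modR_opMod (l : GoodPrime S.bad) (x : X.Mod e) :
    h.modR X e (X.opMod e (MvPolynomial.X l) x) =
      (h.up X).opMod e (MvPolynomial.X (goodMap h.bad_eq l)) (h.modR X e x) :=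
  locMap_X (surj_low X e X.Coef) (h.sysEq X) ((h.ops X e).R X.Coef) ((h.ops X e).R_comm X.Coef) l (X.modL e x)

theorem modW_opMod (l : GoodPrime S'.bad) (y : (h.up X).Mod e) :
    h.modW X e ((h.up X).opMod e (MvPolynomial.X l) y) =
      (h.up X).opMod e (MvPolynomial.X l) (h.modW X e y) :=
  locMap_X (h.surj_high X e X.Coef) (sysEq_refl _) ((h.ops X e).W X.Coef) ((h.ops X e).W_comm X.Coef) l (h.upL X e y)

theorem modTau_opMod (l : GoodPrime S'.bad) (y : (h.up X).Mod e) :
    h.modTau X e ((h.up X).opMod e (MvPolynomial.X l) y) =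
      X.opMod e (MvPolynomial.X (goodMap h.bad_eq.symm l)) (h.modTau X e y) :=
  locMap_X (h.surj_high X e X.Coef) (h.sysEq X).symm ((h.ops X e).tau X.Coef) ((h.ops X e).tau_comm X.Coef) l (h.upL X e y)

/-- The normalisation at a prime away from the upper level, in the coefficients of the lower. -/
def lowHalf (r : (h.up X).TrPrime) : X.Coef := (X.half e (X.unitOf (h.lowPrime X r)) : X.Coef)

theorem genE_low (r : (h.up X).TrPrime) (x : X.Mod e) :
    X.genE e (h.lowPrime X r) x =
      h.lowHalf X e r • X.opMod e (MvPolynomial.X (goodMap h.bad_eq.symm r.1)) x := rfl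

theorem genE_up (r : (h.up X).TrPrime) (y : (h.up X).Mod e) :
    (h.up X).genE e r y = h.lowHalf X e r • (h.up X).opMod e (MvPolynomial.X r.1) y :=
  (LinearMap.smul_apply _ _ _).trans
    (congrArg (fun a : (h.up X).Coef => a • (h.up X).opMod e (MvPolynomial.X r.1) y)
      (h.half_lowPrime X e r))

theorem goodMap_goodMap (r : GoodPrime S'.bad) :
    goodMap h.bad_eq (goodMap h.bad_eq.symm r) = r := rfl

theorem modR_genE (r : (h.up X).TrPrime) (x : X.Mod e) :
    h.modR X e (X.genE e (h.lowPrime X r) x) = (h.up X).genE e r (h.modR X e x) := by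
  rw [genE_low, genE_up, map_smul (h.modR X e), modR_opMod, h.goodMap_goodMap]

theorem modW_genE (r : (h.up X).TrPrime) (y : (h.up X).Mod e) :
    h.modW X e ((h.up X).genE e r y) = (h.up X).genE e r (h.modW X e y) := by
  rw [genE_up, genE_up, map_smul (h.modW X e), modW_opMod]

theorem modTau_genE (r : (h.up X).TrPrime) (y : (h.up X).Mod e) :
    h.modTau X e ((h.up X).genE e r y) = X.genE e (h.lowPrime X r) (h.modTau X e y) := by
  rw [genE_low, genE_up, map_smul (h.modTau X e), modTau_opMod]

/-- The polynomial in the traces, at the lower level. -/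
def lowEval : MvPolynomial (h.up X).TrPrime O →ₐ[O] X.TR :=
  MvPolynomial.aeval fun r => X.trace (h.lowPrime X r)

theorem intertwine (P : MvPolynomial (h.up X).TrPrime O) :
    (∀ x, h.modR X e (X.actTR e (h.lowEval X P) x) =
      (h.up X).actTR e (Ideal.Quotient.mk _ P) (h.modR X e x)) ∧
    (∀ y, h.modW X e ((h.up X).actTR e (Ideal.Quotient.mk _ P) y) =
      (h.up X).actTR e (Ideal.Quotient.mk _ P) (h.modW X e y)) ∧
    (∀ y, h.modTau X e ((h.up X).actTR e (Ideal.Quotient.mk _ P) y) =
      X.actTR e (h.lowEval X P) (h.modTau X e y)) := by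
  induction P using MvPolynomial.induction_on with
  | C r =>
    rw [lowEval, MvPolynomial.aeval_C, (h.up X).mk_C]
    refine ⟨fun x => ?_, fun y => ?_, fun y => ?_⟩
    · rw [X.actTR_algebraMap, (h.up X).actTR_algebraMap]
      exact map_smul (h.modR X e) (algebraMap O X.Coef r) x
    · rw [(h.up X).actTR_algebraMap, (h.up X).actTR_algebraMap]
      exact map_smul (h.modW X e) (algebraMap O X.Coef r) y
    · rw [X.actTR_algebraMap, (h.up X).actTR_algebraMap]
      exact map_smul (h.modTau X e) (algebraMap O X.Coef r) y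
  | add P Q hP hQ =>
    refine ⟨fun x => ?_, fun y => ?_, fun y => ?_⟩
    · simp only [map_add, LinearMap.add_apply, hP.1, hQ.1]
    · simp only [map_add, LinearMap.add_apply, hP.2.1, hQ.2.1]
    · simp only [map_add, LinearMap.add_apply, hP.2.2, hQ.2.2]
  | mul_X P r hP =>
    have e1 : h.lowEval X (P * MvPolynomial.X r) = h.lowEval X P * X.trace (h.lowPrime X r) := by
      rw [map_mul, lowEval, MvPolynomial.aeval_X]
    have e2 : (Ideal.Quotient.mk (RingHom.ker (h.up X).evalTr) (P * MvPolynomial.X r) :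
        (h.up X).TR) = Ideal.Quotient.mk _ P * (h.up X).trace r := map_mul _ _ _
    refine ⟨fun x => ?_, fun y => ?_, fun y => ?_⟩ <;>
      simp only [e1, e2, map_mul, Module.End.mul_apply, Aux.actTR_trace, hP.1, hP.2.1, hP.2.2,
        modR_genE, modW_genE, modTau_genE]

theorem ker_le_lowEval : RingHom.ker (h.up X).evalTr ≤ RingHom.ker (h.lowEval X) := fun P hP => by
  refine X.actTR_faithful _ fun e => LinearMap.ext fun x => ?_
  obtain ⟨y, hy⟩ := h.modDown_surjective X e fun _ => x
  rw [show x = h.modTau X e y from (congrFun hy 0).symm, ← (h.intertwine X e P).2.2,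
    Ideal.Quotient.eq_zero_iff_mem.mpr hP, map_zero, LinearMap.zero_apply, map_zero,
    LinearMap.zero_apply]

/-- From the traces of the upper level to those of the lower one. -/
def resTr : (h.up X).TR →ₐ[O] X.TR :=
  Ideal.Quotient.liftₐ _ (h.lowEval X) fun _ hP => h.ker_le_lowEval X hP

theorem resTr_mk (P : MvPolynomial (h.up X).TrPrime O) :
    h.resTr X (Ideal.Quotient.mk _ P) = h.lowEval X P := rfl

theorem resTr_trace (r : (h.up X).TrPrime) :
    h.resTr X ((h.up X).trace r) = X.trace (h.lowPrime X r) := MvPolynomial.aeval_X _ _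

theorem resTr_surjective : Function.Surjective (h.resTr X) := fun t =>
  X.TR_induction (motive := fun t => ∃ s, h.resTr X s = t)
    (fun r => ⟨algebraMap O _ r, AlgHom.commutes _ r⟩)
    (fun l => ⟨(h.up X).trace (h.upPrime X l), h.resTr_trace X _⟩)
    (fun _ _ ⟨a, ha⟩ ⟨b, hb⟩ => ⟨a + b, by rw [map_add, ha, hb]⟩)
    (fun _ _ ⟨a, ha⟩ ⟨b, hb⟩ => ⟨a * b, by rw [map_mul, ha, hb]⟩) t

theorem modR_act (t : (h.up X).TR) (x : X.Mod e) :
    h.modR X e (X.actTR e (h.resTr X t) x) = (h.up X).actTR e t (h.modR X e x) := by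
  obtain ⟨P, rfl⟩ := Ideal.Quotient.mk_surjective t
  exact (h.intertwine X e P).1 x

theorem modW_act (t : (h.up X).TR) (y : (h.up X).Mod e) :
    h.modW X e ((h.up X).actTR e t y) = (h.up X).actTR e t (h.modW X e y) := by
  obtain ⟨P, rfl⟩ := Ideal.Quotient.mk_surjective t
  exact (h.intertwine X e P).2.1 y

theorem modTau_act (t : (h.up X).TR) (y : (h.up X).Mod e) :
    h.modTau X e ((h.up X).actTR e t y) = X.actTR e (h.resTr X t) (h.modTau X e y) := by
  obtain ⟨P, rfl⟩ := Ideal.Quotient.mk_surjective t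
  exact (h.intertwine X e P).2.2 y

theorem modUp_act (t : (h.up X).TR) (v : Fin 2 → X.Mod e) :
    h.modUp X e (fun b => X.actTR e (h.resTr X t) (v b)) =
      (h.up X).actTR e t (h.modUp X e v) := by
  simp only [modUp_apply, modR_act, modW_act, map_add]

theorem modDown_act (t : (h.up X).TR) (y : (h.up X).Mod e) :
    h.modDown X e ((h.up X).actTR e t y) =
      fun b => X.actTR e (h.resTr X t) (h.modDown X e y b) := by
  funext b
  fin_cases b
  · exact h.modTau_act X e t y
  · show h.modTau X e (h.modW X e _) = X.actTR e _ (h.modTau X e (h.modW X e y))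
    rw [modW_act, modTau_act]

theorem modT_comm (t : X.TR) : Commute (h.modT X e) (X.actTR e t) := by
  obtain ⟨s, rfl⟩ := h.resTr_surjective X t
  refine LinearMap.ext fun x => ?_
  show h.modTau X e (h.modW X e (h.modR X e (X.actTR e (h.resTr X s) x))) =
    X.actTR e (h.resTr X s) (h.modTau X e (h.modW X e (h.modR X e x)))
  rw [modR_act, modW_act, modTau_act]

theorem modU_comm (t : (h.up X).TR) : Commute (h.modU X e) ((h.up X).actTR e t) := by
  refine LinearMap.ext fun y => ?_
  show h.modR X e (h.modTau X e (h.modW X e ((h.up X).actTR e t y))) -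
      h.modW X e ((h.up X).actTR e t y) =
    (h.up X).actTR e t (h.modR X e (h.modTau X e (h.modW X e y)) - h.modW X e y)
  rw [modW_act, modTau_act, modR_act, map_sub]

end Raise

end FLTAgent.ModLift
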