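import Fermat.Agent.ModLift.Degen.Interface

/-!
# The new part of the upper module of a pair of levels: interface

Modulo the image of the degeneracy maps Frobenius at the added prime satisfies the equation of a
special representation. At `p` the operator of the lower level is given by the root of Frobenius
on the unramified quotient, whose square is one on the new part.

The statements speak of the degeneracy maps that are actually built, so the target asks for one
`Degen` with these properties. At `p` residual inertia moves vectors only along a line.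
-/

set_option autoImplicit false
set_option linter.unusedSectionVars false
set_option linter.style.haveILetI false

noncomputable section

set_option synthInstance.maxHeartbeats 400000
set_option maxHeartbeats 1000000

open IsLocalRing

namespace FLTAgent.ModLift

open FLTAgent.Lowering

local notation "LL" => AlgebraicClosure ℚ
local notation "GG" => (AlgebraicClosure ℚ ≃ₐ[ℚ] AlgebraicClosure ℚ)
local notation "M2" => Matrix (Fin 2) (Fin 2)

variable {p : ℕ} [Fact p.Prime] {O : Type} [CommRing O] [IsDomain O] [IsDiscreteValuationRing O]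
  [Algebra ℤ_[p] O] [Module.Finite ℤ_[p] O] [CharZero O] {S S' : Setup p O} {ℓ : ℕ}

/-- `z` with inverse `z'` is the value of `φ` on the quotient on which inertia at `V` is trivial. -/
def IsQuotientRoot {R : Type} [CommRing R] (ρ : GG →* GL (Fin 2) R) (V : ValuationSubring LL)
    (φ : GG) (z z' : R) : Prop :=
  z * z' = 1 ∧ ∀ σ ∈ V.inertiaSubgroupIn ℚ,
    ((ρ σ : M2 R) - Matrix.det (ρ σ : M2 R) • 1) * ((ρ φ : M2 R) - z • 1) = 0

/-- The properties of the cokernel of the first degeneracy map. -/
structure NewPart {h : Raise S S' ℓ} {X : Aux S} (D : Degen h X) : Prop where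
  /-- Away from `p` Frobenius is special on the new part. -/
  away : ℓ ≠ p → ∀ V : ValuationSubring LL, V.LiesOverPrime ℓ → ∀ φ : GG,
    V.IsFrobeniusAt φ ℓ → ∀ e, ∃ n : ℕ, ∀ y,
      ((h.up X).actTR e
        ((trGL (((h.up X).levelData (h.up X).geometry).ρ φ) : (h.up X).TR) ^ 2 -
          ((ℓ : (h.up X).TR) + 1) ^ 2) ^ n) y ∈ LinearMap.range (D.up e)
  /-- At `p` the operator of the lower level. -/
  hecke_p : ℓ = p → ∀ V : ValuationSubring LL, V.LiesOverPrime p →
    (∃ v : Fin 2 → ResidueField O, ∀ σ ∈ V.inertiaSubgroupIn ℚ, ∀ w, ∃ a : ResidueField O,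
      (S.rb σ : M2 (ResidueField O)).mulVec w = w + a • v) →
    ∀ φ : GG, V.IsFrobeniusAt φ p → ∀ z z' : (h.up X).TR,
      IsQuotientRoot ((h.up X).levelData (h.up X).geometry).ρ V φ z z' →
      ∀ e, D.hecke e = X.actTR e (D.resT (z + (p : (h.up X).TR) * z'))
  /-- At `p` the root is a sign on the new part. -/
  at_p : ℓ = p → ∀ V : ValuationSubring LL, V.LiesOverPrime p →
    (∃ v : Fin 2 → ResidueField O, ∀ σ ∈ V.inertiaSubgroupIn ℚ, ∀ w, ∃ a : ResidueField O,
      (S.rb σ : M2 (ResidueField O)).mulVec w = w + a • v) →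
    ∀ φ : GG, V.IsFrobeniusAt φ p → ∀ z z' : (h.up X).TR,
      IsQuotientRoot ((h.up X).levelData (h.up X).geometry).ρ V φ z z' →
      ∀ e, ∃ n : ℕ, ∀ y, ((h.up X).actTR e (z ^ 2 - 1) ^ n) y ∈ LinearMap.range (D.up e)

/-- Degeneracy maps with these properties exist. -/
def TargetNewPart : Prop :=
  ∀ (p : ℕ) [Fact p.Prime] (O : Type) [CommRing O] [IsDomain O] [IsDiscreteValuationRing O]
    [Algebra ℤ_[p] O] [Module.Finite ℤ_[p] O] [CharZero O] (S S' : Setup p O) (ℓ : ℕ)
    (h : Raise S S' ℓ) (X : Aux S), ∃ D : Degen h X, NewPart D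

end FLTAgent.ModLift
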