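import Fermat.Agent.ModLift.Degen.Away
import Fermat.Agent.ModLift.Degen.Push.AtP
import Fermat.Agent.ModLift.Degen.Push.HeckeP

/-!
# The new part of the degeneracy maps

The degeneracy maps that are built have the properties of the new part.
-/

set_option autoImplicit false
set_option linter.unusedSectionVars false
set_option linter.style.haveILetI false

noncomputable section

set_option synthInstance.maxHeartbeats 400000
set_option maxHeartbeats 1000000

open IsLocalRing

namespace FLTAgent.ModLift

open FLTAgent.Lowering

/-- **Degeneracy maps with the new part exist.** -/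
theorem targetNewPart : TargetNewPart := by
  intro p _ O _ _ _ _ _ _ S S' ℓ h X
  haveI := Fact.mk h.prime
  refine ⟨h.degen X, ⟨fun hℓp V hV φ hφ e => h.degen_away X hℓp V hV φ hφ e,
    fun hℓp V hV hv φ hφ z z' hz e => h.degen_hecke_p X hℓp V hV hv φ hφ z z' hz e, ?_⟩⟩
  intro hℓp V hV hv φ hφ z z' hz e
  have hecke := h.degen_hecke_p X hℓp V hV hv φ hφ z z' hz e
  obtain ⟨v, hv⟩ := hv
  exact h.degen_at_p X hℓp hV hv hφ hz e hecke

end FLTAgent.ModLift
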