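import Fermat.Agent.ModLift.Degen.Corr
import Fermat.Agent.LevelRaise.Commute

/-!
# The degeneracy correspondences and their composites

Restriction, transfer and the Atkin–Lehner map between the levels `M` and `M ℓ`, for twisted
classes, with the formulas for the composites and the commutation with the standard operators.
-/

set_option autoImplicit false
set_option linter.unusedSectionVars false

noncomputable section

open CongruenceSubgroup
open scoped MatrixGroups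

namespace FLTAgent.ModLift

open FLTAgent.PeriodHecke FLTAgent.Lowering.Cocycle FLTAgent.LevelRaise

local notation "SL2Z" => Matrix.SpecialLinearGroup (Fin 2) ℤ
local notation "M2" => Matrix (Fin 2) (Fin 2) ℤ

namespace Corr

variable {M ℓ : ℕ} [Fact ℓ.Prime] [NeZero M] [NeZero (M * ℓ)]

/-- Restriction. -/
def dres (M ℓ : ℕ) : Corr M (Gamma0 (M * ℓ)) (Gamma0 M) Unit where
  α _ := 1
  det_ne _ := by simp
  low _ := by simp
  next _ i := i
  coc γ _ := LevelRaise.incl (dvd_level M ℓ) γ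
  rel γ _ := incl_rel (dvd_level M ℓ) γ
  next_one _ := rfl
  next_mul _ _ _ := rfl
  coc_mul γ δ _ := map_mul _ γ δ

/-- The Atkin–Lehner map. -/
def datk (B : Bez M ℓ) : Corr M (Gamma0 (M * ℓ)) (Gamma0 (M * ℓ)) Unit where
  α _ := B.W
  det_ne _ := B.det_W_ne
  low _ := by simp [Bez.W]
  next _ i := i
  coc γ _ := B.c γ
  rel γ _ := B.c_rel γ
  next_one _ := rfl
  next_mul _ _ _ := rfl
  coc_mul γ δ _ := map_mul _ γ δ

/-- The identity. -/
def done (M L : ℕ) : Corr M (Gamma0 L) (Gamma0 L) Unit where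
  α _ := 1
  det_ne _ := by simp
  low _ := by simp
  next _ i := i
  coc γ _ := γ
  rel γ _ := by rw [one_mul, mul_one]
  next_one _ := rfl
  next_mul _ _ _ := rfl
  coc_mul _ _ _ := rfl

/-- The inverse representative of a coset in the fibre. -/
def fibRep (x : fib M ℓ) : Gamma0 M := ⟨(x.1.out)⁻¹, inv_mem (mem_fib.mp x.2)⟩

/-- The transfer. -/
def dtau (M ℓ : ℕ) [NeZero (M * ℓ)] : Corr M (Gamma0 M) (Gamma0 (M * ℓ)) (fib M ℓ) where
  α x := mat (fibRep x)
  det_ne x := by rw [mat_det]; norm_num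
  low x := dvd_lower_left M _
  next γ x := ⟨((γ⁻¹ : Gamma0 M) : SL2Z) • x.1, (smul_mem_fib _ _).mpr x.2⟩
  coc γ x := ⟨x.1.out⁻¹ * (γ : SL2Z) * (((γ⁻¹ : Gamma0 M) : SL2Z) • x.1).out, by
    have h := ES.cocycle_mem (Γ := Gamma0 (M * ℓ)) (γ : SL2Z)
      (((γ⁻¹ : Gamma0 M) : SL2Z) • x.1)
    rwa [Subgroup.coe_inv, smul_inv_smul] at h⟩
  rel γ x := by
    simp only [fibRep, mat, ← Matrix.SpecialLinearGroup.coe_mul]
    exact congrArg Subtype.val (by simp [mul_assoc] <;> rfl)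
  next_one x := Subtype.ext (by simp)
  next_mul γ δ x := Subtype.ext (by simp [mul_smul])
  coc_mul γ δ x := Subtype.ext (by
    simp only [Subgroup.coe_mul, Subgroup.coe_inv, mul_inv_rev, mul_smul]
    group)

theorem dres_inj : (dres M ℓ).Inj := fun _ _ _ _ => rfl
theorem datk_inj (B : Bez M ℓ) : (datk B).Inj := fun _ _ _ _ => rfl
theorem done_inj (L : ℕ) : (done M L).Inj := fun _ _ _ _ => rfl

theorem eq_of_fibRep {x y : fib M ℓ} (δ : Gamma0 (M * ℓ))
    (h : mat δ * mat (fibRep x) = mat (fibRep y)) : x = y := by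
  refine Subtype.ext ?_
  have h' : (δ : SL2Z) * x.1.out⁻¹ = y.1.out⁻¹ := Subtype.ext h
  rw [← QuotientGroup.out_eq' x.1, ← QuotientGroup.out_eq' y.1, QuotientGroup.eq]
  rw [show (x.1.out : SL2Z)⁻¹ * y.1.out = (δ : SL2Z)⁻¹ by
    rw [← inv_inv (y.1.out), ← h']; group]
  exact inv_mem δ.2

theorem dtau_inj : (dtau M ℓ).Inj := fun δ _ _ h => eq_of_fibRep δ h

variable {A : Type*} [CommRing A] (χ : ZMod M →* A) {χ' : ZMod (M * ℓ) →* A} {N : Type*}
  [AddCommGroup N] [Module A N] (B : Bez M ℓ)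
  (hχ : ∀ d : ZMod (M * ℓ), IsUnit d → χ' d = χ (ZMod.castHom (dvd_level M ℓ) (ZMod M) d))

variable (N) in
/-- The first degeneracy map. -/
def mapR : H1 (psi χ) N →ₗ[A] H1 (psi χ') N :=
  (dres M ℓ).op N (isPsi_psi (dvd_level M ℓ) hχ) (isPsi_self χ)

variable (N) in
/-- The transfer of classes. -/
def mapTau : H1 (psi χ') N →ₗ[A] H1 (psi χ) N :=
  (dtau M ℓ).op N (isPsi_self χ) (isPsi_psi (dvd_level M ℓ) hχ)

variable (N) in
/-- The Atkin–Lehner map of classes. -/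
def mapW : H1 (psi χ') N →ₗ[A] H1 (psi χ') N :=
  (datk B).op N (isPsi_psi (dvd_level M ℓ) hχ) (isPsi_psi (dvd_level M ℓ) hχ)

theorem op_done {L : ℕ} {ψ : Gamma0 L →* A} (h : IsPsi χ ψ) (x : H1 ψ N) :
    (done M L).op N h h x = x := by
  induction x using Submodule.Quotient.induction_on with
  | H c =>
    refine congrArg cls (Subtype.ext (funext fun γ => ?_))
    simp [opZ1_apply, w, done]

include B in
theorem tau_R (x : H1 (psi χ) N) :
    mapTau χ N hχ (mapR χ N hχ x) = (ℓ + 1) • x := by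
  rw [mapTau, mapR, op_comp]
  have h := op_match ((dtau M ℓ).comp (dres M ℓ)) (done M M) (done_inj M) (isPsi_self χ)
    (isPsi_self χ) (fun _ => ()) (k := ℓ + 1) (N := N) (fun f => ?_) (s := 1) (t := 1) one_ne_zero
    (fun i => ⟨fibRep i.1, by simp [comp_α, dtau, dres, done]⟩) x
  · rwa [Int.cast_one, map_one, one_smul, one_smul, op_done] at h
  · simp [Finset.sum_const, Fintype.card_prod, Fintype.card_coe, B.card_fib]

theorem exists_hecke_index (x : fib M ℓ) : ∃ (i : HeckeIdx M ℓ) (δ : Gamma0 M),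
    B.W * mat (fibRep x) = mat δ * heckeRep M ℓ i :=
  B.exists_index x.1 x.2

theorem tau_W_R (x : H1 (psi χ) N) :
    mapTau χ N hχ (mapW χ N B hχ (mapR χ N hχ x)) =
      heckeH1 (N := N) (stdWeight (p := ℓ) χ) x := by
  classical
  rw [mapTau, mapW, mapR, op_comp, op_comp,
    ← op_ofHecke dvd_rfl (fun d _ => by rw [ZMod.castHom_self, RingHom.id_apply]) (isPsi_self χ)]
  choose i δ hδ using exists_hecke_index (M := M) (ℓ := ℓ) B
  refine op_eq_of_match _ _ (ofHecke_inj M M ℓ) _ _ (fun z => i z.1.1) ?_ (fun z => ?_) x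
  · refine (Fintype.bijective_iff_injective_and_card _).mpr ⟨fun a b h => ?_, ?_⟩
    · have hx : a.1.1 = b.1.1 := Subtype.ext (B.eq_of_index (M := M) a.1.1.2 b.1.1.2 (hδ a.1.1) (by
        rw [show i a.1.1 = i b.1.1 from h]; exact hδ b.1.1))
      exact Prod.ext (Prod.ext hx (Subsingleton.elim _ _)) (Subsingleton.elim _ _)
    · rw [Fintype.card_prod, Fintype.card_prod, Fintype.card_unit, mul_one, Fintype.card_coe,
        B.card_fib, ← Finset.card_univ, Finset.card_eq_sum_ones (Finset.univ : Finset (HeckeIdx M ℓ)),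
        sum_idx_of_not_dvd M ℓ B.not_dvd]
      simp
  · refine ⟨δ z.1.1, ?_⟩
    simp only [comp_α, datk, dres, dtau, one_mul]
    exact hδ z.1.1

theorem W_W (x : H1 (psi χ') N) :
    mapW χ N B hχ (mapW χ N B hχ x) = χ (ℓ : ZMod M) • x := by
  rw [mapW, op_comp]
  have h := op_match ((datk B).comp (datk B)) (done M (M * ℓ)) (done_inj (M * ℓ))
    (isPsi_psi (dvd_level M ℓ) hχ) (isPsi_psi (dvd_level M ℓ) hχ) (fun _ => ()) (k := 1) (N := N)
    (fun f => by simp) (s := 1) (t := (ℓ : ℤ)) Bez.ell_ne_zero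
    (fun i => ⟨B.g0, by rw [one_smul, comp_α]; simp [datk, done, B.W_mul_W]⟩) x
  rwa [Int.cast_one, map_one, one_smul, one_smul, op_done, Int.cast_natCast] at h

/-- The representative at the base coset is in the smaller group. -/
def baseRep : Gamma0 (M * ℓ) :=
  ⟨(((1 : SL2Z) : Cos (M * ℓ)).out)⁻¹, by
    obtain ⟨η, hη⟩ := QuotientGroup.mk_out_eq_mul (Gamma0 (M * ℓ)) (1 : SL2Z)
    rw [hη, one_mul]
    exact inv_mem η.2⟩

theorem exists_upper_index (x : fib M ℓ) (hx : x.1 ≠ ((1 : SL2Z) : Cos (M * ℓ))) :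
    ∃ (i : HeckeIdx (M * ℓ) ℓ) (δ : Gamma0 (M * ℓ)),
      B.W * mat (fibRep x) = mat δ * heckeRep (M * ℓ) ℓ i := by
  obtain ⟨h10, h00⟩ := B.W_mul_lower (x.1.out⁻¹ : SL2Z)
  have hN : (M : ℤ) ∣ ((x.1.out⁻¹ : SL2Z) : M2) 1 0 := dvd_lower_left M (fibRep x)
  refine exists_heckeRep _ ℓ _ (B.det_W_mul _) ?_ fun _ hdvd => hx ?_
  · show _ ∣ (B.W * ((x.1.out⁻¹ : SL2Z) : M2)) 1 0
    rw [h10]; push_cast
    exact dvd_add (dvd_mul_right _ _) (by rw [mul_comm (ℓ : ℤ)]; exact mul_dvd_mul_right hN _)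
  · change (ℓ : ℤ) ∣ (B.W * ((x.1.out⁻¹ : SL2Z) : M2)) 0 0 at hdvd
    rw [h00, dvd_add_right (dvd_mul_of_dvd_left (dvd_mul_right _ _) _)] at hdvd
    have hℓ : Prime (ℓ : ℤ) := Nat.prime_iff_prime_int.mp (Fact.out : ℓ.Prime)
    have hmem : (x.1.out⁻¹ : SL2Z) ∈ Gamma0 (M * ℓ) := by
      rw [Gamma0_mem, ZMod.intCast_zmod_eq_zero_iff_dvd]
      push_cast
      exact IsCoprime.mul_dvd (Int.isCoprime_iff_nat_coprime.mpr (by
        simpa using (((Fact.out : ℓ.Prime).coprime_iff_not_dvd).mpr B.not_dvd).symm)) hN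
        ((hℓ.dvd_or_dvd hdvd).resolve_left B.not_dvd_b)
    rw [← QuotientGroup.out_eq' x.1, QuotientGroup.eq, mul_one]
    exact hmem

theorem atk_ne_upper (δ : Gamma0 (M * ℓ)) (i : HeckeIdx (M * ℓ) ℓ) :
    mat δ * heckeRep (M * ℓ) ℓ i ≠ B.W := by
  rcases HeckeIdx.cases (M * ℓ) ℓ i with ⟨hi, rfl⟩ | ⟨j, rfl⟩
  · exact absurd (dvd_mul_left ℓ M) (hi rfl)
  intro h
  have h00 := congrFun (congrFun h 0) 0
  simp [heckeRep, idxSome, Bez.W, Matrix.mul_apply, Fin.sum_univ_two] at h00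
  obtain ⟨C, hC⟩ := dvd_lower_left (M * ℓ) δ
  have hd := mat_det δ
  rw [Matrix.det_fin_two, hC, h00] at hd
  push_cast at hd
  have h1 : (ℓ : ℤ) ∣ 1 := ⟨B.a * mat δ 1 1 - mat δ 0 1 * M * C, by linear_combination -hd⟩
  exact (Fact.out : ℓ.Prime).not_dvd_one (by exact_mod_cast h1)

theorem R_tau_W (x : H1 (psi χ') N) :
    mapR χ N hχ (mapTau χ N hχ (mapW χ N B hχ x)) =
      mapW χ N B hχ x + heckeH1 (N := N) (stdWeight (p := ℓ) χ') x := by
  classical
  rw [mapR, mapTau, mapW, op_comp, op_comp,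
    ← op_ofHecke (dvd_level M ℓ) hχ (isPsi_psi (dvd_level M ℓ) hχ), ← op_sum]
  set b := ((1 : SL2Z) : Cos (M * ℓ))
  have hex : ∀ z : fib M ℓ, ∃ (j : Unit ⊕ HeckeIdx (M * ℓ) ℓ) (κ : Gamma0 (M * ℓ)),
      B.W * mat (fibRep z) = mat κ * ((datk B).sum (ofHecke M (M * ℓ) ℓ)).α j := by
    intro z
    by_cases hz : z.1 = b
    · refine ⟨Sum.inl (), B.c baseRep, ?_⟩
      show _ = mat (B.c baseRep) * B.W
      rw [← B.c_rel]
      simp only [fibRep, baseRep, mat, hz]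
      rfl
    · obtain ⟨i, δ, hδ⟩ := exists_upper_index B z hz
      exact ⟨Sum.inr i, δ, hδ⟩
  choose e κ hκ using hex
  have hinj : ((datk B).sum (ofHecke M (M * ℓ) ℓ)).Inj := by
    intro δ i j hij
    rcases i with ⟨⟩ | i <;> rcases j with ⟨⟩ | j
    · rfl
    · refine absurd ?_ (atk_ne_upper B δ⁻¹ j)
      rw [show heckeRep (M * ℓ) ℓ j = mat δ * B.W from hij.symm, ← mul_assoc, ← mat_mul,
        inv_mul_cancel, mat_one, one_mul]
    · exact absurd hij (atk_ne_upper B δ i)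
    · exact congrArg Sum.inr (ofHecke_inj M (M * ℓ) ℓ δ i j hij)
  refine op_eq_of_match _ _ hinj _ _ (fun z => e z.1.2) ?_ (fun z => ⟨κ z.1.2, ?_⟩) x
  · refine (Fintype.bijective_iff_injective_and_card _).mpr ⟨fun a a' h => ?_, ?_⟩
    · obtain ⟨μ, hμ⟩ := B.c_surjective (κ a'.1.2 * (κ a.1.2)⁻¹)
      have hz : a.1.2 = a'.1.2 := eq_of_fibRep μ (by
        refine mul_left_cancel_det B.det_W_ne ?_
        rw [← mul_assoc, B.c_rel, hμ, mul_assoc, hκ, hκ, show e a.1.2 = e a'.1.2 from h,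
          ← mul_assoc, ← mat_mul, inv_mul_cancel_right])
      exact Prod.ext (Prod.ext (Subsingleton.elim _ _) hz) (Subsingleton.elim _ _)
    · have hc : (Finset.univ : Finset (HeckeIdx (M * ℓ) ℓ)).card = ℓ := by
        rw [Finset.card_eq_sum_ones, sum_idx_of_dvd (M * ℓ) ℓ (dvd_mul_left ℓ M)]
        simp
      simp [Fintype.card_prod, Fintype.card_coe, B.card_fib, add_comm,
        show Fintype.card (HeckeIdx (M * ℓ) ℓ) = ℓ from hc]
  · simp only [comp_α, datk, dres, dtau, mul_one]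
    exact hκ z.1.2

/-! ### Commutation with the operators at other primes -/

section Comm

variable {r : ℕ} [Fact r.Prime] (hr : r ≠ ℓ)

include hr in
theorem dvd_iff_of_ne : r ∣ M * ℓ ↔ r ∣ M :=
  ⟨fun h => ((Fact.out : r.Prime).dvd_mul.mp h).resolve_right fun h' =>
    hr ((Nat.prime_dvd_prime_iff_eq Fact.out Fact.out).mp h'), fun h => h.mul_right ℓ⟩

include hr in
theorem R_hecke (x : H1 (psi χ) N) :
    mapR χ N hχ (heckeH1 (N := N) (stdWeight (p := r) χ) x) =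
      heckeH1 (N := N) (stdWeight (p := r) χ') (mapR χ N hχ x) := by
  rw [mapR, ← op_ofHecke (dvd_level M ℓ) hχ (isPsi_psi (dvd_level M ℓ) hχ),
    ← op_ofHecke dvd_rfl (fun d _ => by rw [ZMod.castHom_self, RingHom.id_apply]) (isPsi_self χ),
    op_comp, op_comp]
  have hbij : Function.Bijective
      (idxDown (dvd_level M ℓ) : HeckeIdx (M * ℓ) r → HeckeIdx M r) :=
    ⟨fun _ _ e => Subtype.ext (congrArg Subtype.val e : _),
      fun i => ⟨⟨i.1, fun he h => i.2 he ((dvd_iff_of_ne hr).mp h)⟩, rfl⟩⟩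
  let G := (dres M ℓ).comp (ofHecke M M r)
  have hG : G.Inj := fun δ i j h => Prod.ext (Subsingleton.elim _ _) (by
    refine ofHecke_inj M M r δ _ _ ?_
    simpa [G, comp_α, dres] using h)
  symm
  refine op_eq_of_match _ G hG _ _ (fun z => ((), idxDown (dvd_level M ℓ) z.1)) ?_ (fun z => ⟨1, ?_⟩) x
  · exact ⟨fun a a' h => Prod.ext (hbij.1 (congrArg Prod.snd h)) (Subsingleton.elim _ _),
      fun y => ⟨((hbij.2 y.2).choose, ()),
        Prod.ext (Subsingleton.elim _ _) (hbij.2 y.2).choose_spec⟩⟩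
  · simp [G, comp_α, dres, ofHecke, heckeFam_α, heckeRep_idxDown, mat_one]

include hr in
theorem exists_move_rep (i : HeckeIdx (M * ℓ) r) :
    ∃ (i' : HeckeIdx (M * ℓ) r) (δ : Gamma0 (M * ℓ)),
      B.W * heckeRep (M * ℓ) r i = mat δ * heckeRep (M * ℓ) r i' * B.W := by
  by_cases hrM : r ∣ M * ℓ
  · rcases HeckeIdx.cases (M * ℓ) r i with ⟨h, rfl⟩ | ⟨k, rfl⟩
    · exact absurd hrM (h rfl)
    have hrel := B.cMat_rel 1 k.val 0 r
    rw [mul_zero, ← heckeRep_idxSome (M * ℓ) r k] at hrel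
    have hd : (B.cMat 1 k.val 0 r).det = (r : ℤ) := by
      have := congrArg Matrix.det hrel
      rw [Matrix.det_mul, Matrix.det_mul, show (heckeRep (M * ℓ) r (idxSome (M * ℓ) r k)).det =
        (r : ℤ) by simp [heckeRep, idxSome, Matrix.det_fin_two_of], mul_comm] at this
      exact (mul_right_cancel₀ B.det_W_ne this).symm
    have hM : (r : ℤ) ∣ (M : ℤ) := Int.natCast_dvd_natCast.mpr ((dvd_iff_of_ne hr).mp hrM)
    obtain ⟨i', δ, hδ⟩ := exists_heckeRep (M * ℓ) r (B.cMat 1 k.val 0 r) hd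
      (by show ((M * ℓ : ℕ) : ℤ) ∣ (M : ℤ) * ℓ * _; push_cast; exact dvd_mul_right _ _)
      fun _ h => by
        have h' : (r : ℤ) ∣ 1 := by
          obtain ⟨c, hc⟩ := hM
          obtain ⟨u, hu⟩ := h
          simp [Bez.cMat, -ZMod.natCast_val] at hu
          refine ⟨u + c * ((ℓ : ℤ) * B.a * k.val + B.b * r) - c * B.b, ?_⟩
          rw [← B.eq]
          linear_combination hu + ((ℓ : ℤ) * B.a * k.val + B.b * r - B.b) * hc
        exact (Fact.out : r.Prime).not_dvd_one (by exact_mod_cast h')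
    exact ⟨i', δ, by rw [hrel, hδ]⟩
  · exact B.exists_move hrM i

include hr in
theorem W_hecke (x : H1 (psi χ') N) :
    mapW χ N B hχ (heckeH1 (N := N) (stdWeight (p := r) χ') x) =
      heckeH1 (N := N) (stdWeight (p := r) χ') (mapW χ N B hχ x) := by
  classical
  rw [mapW, ← op_ofHecke (dvd_level M ℓ) hχ (isPsi_psi (dvd_level M ℓ) hχ),
    ← op_ofHecke (dvd_level M ℓ) hχ (isPsi_psi (dvd_level M ℓ) hχ), op_comp, op_comp]
  choose i' δ h using exists_move_rep (M := M) B hr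
  have hinj : Function.Injective i' := fun a a' haa => by
    obtain ⟨μ, hμ⟩ := B.c_surjective (δ a' * (δ a)⁻¹)
    refine ofHecke_inj M (M * ℓ) r μ a a' (mul_left_cancel_det B.det_W_ne ?_)
    show B.W * (mat μ * heckeRep (M * ℓ) r a) = B.W * heckeRep (M * ℓ) r a'
    rw [← mul_assoc, B.c_rel, hμ, mul_assoc, h a, h a', ← mul_assoc, ← mul_assoc, ← mat_mul,
      inv_mul_cancel_right, haa]
  let G := (datk B).comp (ofHecke M (M * ℓ) r)
  have hG : G.Inj := fun μ a a' e => Prod.ext (Subsingleton.elim _ _) (by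
    refine ofHecke_inj M (M * ℓ) r μ _ _ (LevelRaise.mul_right_cancel_det B.det_W_ne ?_)
    simpa [G, comp_α, datk, mul_assoc] using e)
  symm
  refine op_eq_of_match _ G hG _ _ (fun z => ((), i' z.1)) ?_ (fun z => ⟨δ z.1, ?_⟩) x
  · exact ⟨fun a a' e => Prod.ext (hinj (congrArg Prod.snd e)) (Subsingleton.elim _ _),
      fun y => ⟨(((Finite.injective_iff_bijective.mp hinj).2 y.2).choose, ()),
        Prod.ext (Subsingleton.elim _ _)
          ((Finite.injective_iff_bijective.mp hinj).2 y.2).choose_spec⟩⟩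
  · simp only [G, comp_α, datk, ofHecke, heckeFam_α]
    rw [h z.1, mul_assoc]

omit [NeZero M] in
theorem heckeRep_upper (L : ℕ) (i : HeckeIdx L r) :
    heckeRep L r i 1 0 = 0 ∧ (heckeRep L r i).det = (r : ℤ) := by
  rcases HeckeIdx.cases L r i with ⟨_, rfl⟩ | ⟨j, rfl⟩ <;>
    simp [heckeRep, idxSome, Matrix.det_fin_two_of]

include hr in
theorem exists_swap (k : fib M ℓ) (i : HeckeIdx (M * ℓ) r) :
    ∃ (i' : HeckeIdx M r) (k' : fib M ℓ) (κ : Gamma0 (M * ℓ)),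
      heckeRep (M * ℓ) r i * mat (fibRep k) = mat κ * (mat (fibRep k') * heckeRep M r i') := by
  classical
  obtain ⟨h10, hdet⟩ := heckeRep_upper (r := r) (M * ℓ) i
  obtain ⟨i', δ, hδ⟩ := exists_heckeRep M r (heckeRep (M * ℓ) r i * mat (fibRep k))
    (by rw [Matrix.det_mul, hdet, mat_det, mul_one])
    (by
      rw [Matrix.mul_apply, Fin.sum_univ_two, h10, zero_mul, zero_add]
      exact (dvd_lower_left M (fibRep k)).mul_left _)
    (fun hrM h => by
      rcases HeckeIdx.cases (M * ℓ) r i with ⟨hi, rfl⟩ | ⟨j, rfl⟩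
      · exact hi rfl (hrM.mul_right ℓ)
      simp [heckeRep, idxSome, Matrix.mul_apply, Fin.sum_univ_two, -ZMod.natCast_val] at h
      have hc : (r : ℤ) ∣ mat (fibRep k) 1 0 :=
        (Int.natCast_dvd_natCast.mpr hrM).trans (dvd_lower_left M (fibRep k))
      have ha : (r : ℤ) ∣ mat (fibRep k) 0 0 := by
        simpa using dvd_sub h (hc.mul_left (j.val : ℤ))
      have hd := mat_det (fibRep k)
      rw [Matrix.det_fin_two] at hd
      have h1 : (r : ℤ) ∣ 1 := hd ▸ dvd_sub (ha.mul_right _) (hc.mul_left _)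
      exact (Fact.out : r.Prime).not_dvd_one (by exact_mod_cast h1))
  let k' : fib M ℓ := ⟨(((δ⁻¹ : Gamma0 M) : SL2Z) : Cos (M * ℓ)), mk_mem_fib δ⁻¹⟩
  obtain ⟨η, hη⟩ := QuotientGroup.mk_out_eq_mul (Gamma0 (M * ℓ)) ((δ⁻¹ : Gamma0 M) : SL2Z)
  refine ⟨i', k', η, ?_⟩
  rw [hδ, ← mul_assoc]
  congr 1
  simp only [fibRep, k', mat, hη, ← Matrix.SpecialLinearGroup.coe_mul]
  simp

include B hr in
theorem swap_inj {a a' : fib M ℓ × HeckeIdx (M * ℓ) r} {δ : Gamma0 (M * ℓ)}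
    (h : mat δ * (heckeRep (M * ℓ) r a.2 * mat (fibRep a.1)) =
      heckeRep (M * ℓ) r a'.2 * mat (fibRep a'.1)) : a = a' := by
  obtain ⟨h10, hdet⟩ := heckeRep_upper (r := r) (M * ℓ) a.2
  obtain ⟨g10, gdet⟩ := heckeRep_upper (r := r) (M * ℓ) a'.2
  set R := heckeRep (M * ℓ) r a.2
  set R' := heckeRep (M * ℓ) r a'.2
  set Z : Gamma0 M := fibRep a'.1 * (fibRep a.1)⁻¹
  have hZ : mat δ * R = R' * mat Z := by
    rw [mat_mul, ← mul_assoc, ← h, mul_assoc, mul_assoc R, ← mat_mul, mul_inv_cancel, mat_one,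
      mul_one]
  have h' := congrFun (congrFun hZ 1) 0
  simp only [Matrix.mul_apply, Fin.sum_univ_two, h10, g10, mul_zero, add_zero, zero_mul,
    zero_add] at h'
  have hℓ : Prime (ℓ : ℤ) := Nat.prime_iff_prime_int.mp (Fact.out : ℓ.Prime)
  have hnd : ¬ (ℓ : ℤ) ∣ R' 1 1 := fun hd => by
    rw [Matrix.det_fin_two, g10, mul_zero, sub_zero] at gdet
    have h1 : (ℓ : ℤ) ∣ (r : ℤ) := gdet ▸ hd.mul_left _
    exact hr ((Nat.prime_dvd_prime_iff_eq Fact.out Fact.out).mp (by exact_mod_cast h1)).symm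
  obtain ⟨C, hC⟩ := dvd_lower_left (M * ℓ) δ
  push_cast at hC
  have hmem : (Z : SL2Z) ∈ Gamma0 (M * ℓ) := by
    rw [Gamma0_mem, ZMod.intCast_zmod_eq_zero_iff_dvd]
    push_cast
    refine IsCoprime.mul_dvd (Int.isCoprime_iff_nat_coprime.mpr (by
      simpa using (((Fact.out : ℓ.Prime).coprime_iff_not_dvd).mpr B.not_dvd).symm))
      (dvd_lower_left M Z) ((hℓ.dvd_or_dvd (⟨M * C * R 0 0, ?_⟩ : (ℓ : ℤ) ∣ R' 1 1 * mat Z 1 0)).resolve_left hnd)
    rw [← h', hC]
    ring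
  have hk : a.1 = a'.1 := eq_of_fibRep (⟨(Z : SL2Z), hmem⟩ : Gamma0 (M * ℓ)) (by
    show mat Z * _ = _
    rw [← mat_mul, inv_mul_cancel_right])
  refine Prod.ext hk (ofHecke_inj M (M * ℓ) r δ _ _ (LevelRaise.mul_right_cancel_det
    (W := mat (fibRep a.1)) (by rw [mat_det]; norm_num) ?_))
  show mat δ * R * _ = R' * _
  rw [mul_assoc, h, hk]

include B hr in
theorem tau_hecke (x : H1 (psi χ') N) :
    mapTau χ N hχ (heckeH1 (N := N) (stdWeight (p := r) χ') x) =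
      heckeH1 (N := N) (stdWeight (p := r) χ) (mapTau χ N hχ x) := by
  classical
  rw [mapTau, ← op_ofHecke (dvd_level M ℓ) hχ (isPsi_psi (dvd_level M ℓ) hχ),
    ← op_ofHecke dvd_rfl (fun d _ => by rw [ZMod.castHom_self, RingHom.id_apply]) (isPsi_self χ),
    op_comp, op_comp]
  choose i' k' κ h using exists_swap (M := M) (ℓ := ℓ) hr
  let G := (ofHecke M M r).comp (dtau M ℓ)
  have hG : G.Inj := fun δ a a' e => by
    have e' : mat (LevelRaise.incl (dvd_level M ℓ) δ * fibRep a.2) * heckeRep M r a.1 =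
        mat (fibRep a'.2) * heckeRep M r a'.1 := by
      rw [mat_mul, mul_assoc]; exact e
    obtain ⟨h1, h2⟩ := heckeRep_unique M r e'
    exact Prod.ext h1 (eq_of_fibRep δ (by rw [← h2, mat_mul]; rfl))
  refine op_eq_of_match _ G hG _ _ (fun z => (i' z.1 z.2, k' z.1 z.2)) ?_ (fun z => ⟨κ z.1 z.2, ?_⟩) x
  · refine (Fintype.bijective_iff_injective_and_card _).mpr ⟨fun a a' e => ?_, ?_⟩
    · obtain ⟨e1, e2⟩ := Prod.mk.inj e
      refine swap_inj B hr (δ := κ a'.1 a'.2 * (κ a.1 a.2)⁻¹) ?_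
      rw [h, h, e1, e2, ← mul_assoc, ← mat_mul, inv_mul_cancel_right]
    · rw [Fintype.card_prod, Fintype.card_prod, mul_comm]
      congr 1
      exact Fintype.card_of_bijective (f := idxDown (dvd_level M ℓ))
        ⟨fun _ _ e => Subtype.ext (congrArg Subtype.val e : _),
          fun i => ⟨⟨i.1, fun he h => i.2 he ((dvd_iff_of_ne hr).mp h)⟩, rfl⟩⟩
  · exact h z.1 z.2

end Comm

/-! ### Change of coefficients -/

variable {N' : Type*} [AddCommGroup N'] [Module A N'] (f : N →ₗ[A] N')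

theorem R_mapH1 (x : H1 (psi χ) N) :
    mapH1 f (mapR χ N hχ x) = mapR χ N' hχ (mapH1 f x) := op_mapH1 _ _ _ f x

theorem W_mapH1 (x : H1 (psi χ') N) :
    mapH1 f (mapW χ N B hχ x) = mapW χ N' B hχ (mapH1 f x) := op_mapH1 _ _ _ f x

theorem tau_mapH1 (x : H1 (psi χ') N) :
    mapH1 f (mapTau χ N hχ x) = mapTau χ N' hχ (mapH1 f x) := op_mapH1 _ _ _ f x

end Corr

end FLTAgent.ModLift
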