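import Fermat.Agent.ModLift.Degen.Ops
import Fermat.Agent.ModLift.Modules.ParabolicHecke
import Fermat.Agent.LevelRaise.Congruence
import Fermat.Agent.Lowering.P4.TorsionRes

/-!
# The degeneracy maps on residual classes

With values killed by `p`, on which the character acts trivially, classes are homomorphisms. Up to
the square of `T_r - (r + 1)`, for `r ≡ 1` modulo the level, the sum of the two degeneracy maps is
injective and the pair of transfers surjective, by Ihara's lemma and its dual.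
-/

set_option autoImplicit false
set_option linter.unusedSectionVars false
set_option linter.unusedVariables false
set_option linter.style.haveILetI false

noncomputable section

open CongruenceSubgroup
open scoped MatrixGroups

namespace FLTAgent.ModLift

open FLTAgent.PeriodHecke FLTAgent.Lowering.Cocycle FLTAgent.LevelRaise FLTAgent.DeligneSerre

local notation "SL2Z" => Matrix.SpecialLinearGroup (Fin 2) ℤ
local notation "M2" => Matrix (Fin 2) (Fin 2) ℤ

/-! ### Classes with trivial action -/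

section Hom

variable {Γ : Subgroup SL2Z} {A : Type*} [CommRing A] {ψ : Γ →* A} {N : Type*} [AddCommGroup N]
  [Module A N]

/-- The homomorphism of a class when the action is trivial. -/
def toHom (hψ : ∀ (γ : Γ) (v : N), ψ γ • v = v) : H1 ψ N →+ (Additive Γ →+ N) :=
  QuotientAddGroup.lift (LinearMap.range (cobdry ψ N)).toAddSubgroup
    (AddMonoidHom.mk'
      (fun c : Z1 ψ N => AddMonoidHom.mk' (fun x => c.1 (Additive.toMul x)) fun a b => by
        rw [toMul_add, Z1_mul, hψ])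
      fun _ _ => rfl) (by
    rintro _ ⟨v, rfl⟩
    refine AddMonoidHom.ext fun x => ?_
    show ψ _ • v - v = 0
    rw [hψ, sub_self])

variable (hψ : ∀ (γ : Γ) (v : N), ψ γ • v = v)

theorem toHom_cls (c : Z1 ψ N) (γ : Γ) : toHom hψ (cls c) (Additive.ofMul γ) = c.1 γ := rfl

theorem toHom_injective : Function.Injective (toHom hψ) := by
  refine (injective_iff_map_eq_zero _).mpr fun x hx => ?_
  induction x using Submodule.Quotient.induction_on with
  | H c => exact cls_eq_zero.mpr ⟨0, Subtype.ext (funext fun γ => by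
      rw [cobdry_apply, smul_zero, sub_zero]
      exact (DFunLike.congr_fun hx (Additive.ofMul γ)).symm)⟩

theorem toHom_surjective : Function.Surjective (toHom hψ) := fun φ =>
  ⟨cls ⟨fun g => φ (Additive.ofMul g), fun g h => by simp only [hψ, ofMul_mul, map_add]⟩,
    AddMonoidHom.ext fun _ => rfl⟩

end Hom

/-- The shifted operator on homomorphisms. -/
def shiftHom {M : ℕ} (r : ℕ) [Fact r.Prime] {N : Type*} [AddCommGroup N]
    (φ : Additive (Gamma0 M) →+ N) : Additive (Gamma0 M) →+ N :=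
  (heckeFam M r).hecke φ - (r + 1) • φ

/-- The shifted operator on classes. -/
def shiftH1 {M : ℕ} (r : ℕ) [Fact r.Prime] {A : Type*} [CommRing A] (χ : ZMod M →* A)
    (N : Type*) [AddCommGroup N] [Module A N] : H1 (psi χ) N →ₗ[A] H1 (psi χ) N :=
  heckeH1 (N := N) (stdWeight (p := r) χ) - (r + 1) • LinearMap.id

theorem shiftH1_apply {M : ℕ} (r : ℕ) [Fact r.Prime] {A : Type*} [CommRing A] (χ : ZMod M →* A)
    {N : Type*} [AddCommGroup N] [Module A N] (x : H1 (psi χ) N) :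
    shiftH1 r χ N x = heckeH1 (N := N) (stdWeight (p := r) χ) x - (r + 1) • x := rfl

section Psi

variable {M : ℕ} {A : Type*} [CommRing A] {χ : ZMod M →* A} {N : Type*} [AddCommGroup N]
  [Module A N] (hN : ∀ d : ZMod M, IsUnit d → ∀ v : N, χ d • v = v)

include hN in
theorem psi_smul_eq {L : ℕ} (h : M ∣ L) {χ' : ZMod L →* A}
    (hχ : ∀ d : ZMod L, IsUnit d → χ' d = χ (ZMod.castHom h (ZMod M) d)) (γ : Gamma0 L) (v : N) :
    psi χ' γ • v = v := by
  have hu : IsUnit ((mat γ 1 1 : ℤ) : ZMod L) := (Group.isUnit γ).map (Gamma0Map L)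
  rw [psi_apply, hχ _ hu]
  exact hN _ (hu.map (ZMod.castHom h (ZMod M))) v

include hN in
theorem psi_smul_self (γ : Gamma0 M) (v : N) : psi χ γ • v = v :=
  psi_smul_eq hN dvd_rfl (fun d _ => by rw [ZMod.castHom_self, RingHom.id_apply]) γ v

theorem toHom_heckeH1 {r : ℕ} [Fact r.Prime] (hr : ¬ r ∣ M) (hχr : ∀ v : N, χ (r : ZMod M) • v = v)
    (hψ : ∀ (γ : Gamma0 M) (v : N), psi χ γ • v = v) (x : H1 (psi χ) N) :
    toHom hψ (heckeH1 (N := N) (stdWeight (p := r) χ) x) =
      (heckeFam M r).hecke (toHom hψ x) := by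
  induction x using Submodule.Quotient.induction_on with
  | H c =>
    refine AddMonoidHom.ext fun g => ?_
    obtain ⟨γ, rfl⟩ := Additive.ofMul.surjective g
    rw [heckeH1_cls, toHom_cls, heckeZ1_apply, HeckeFamily.hecke_apply]
    refine Finset.sum_congr rfl fun i _ => ?_
    rw [toHom_cls, stdWeight_w]
    split_ifs
    · exact hχr _
    · exact one_smul _ _

include hN in
theorem toHom_shiftH1 {r : ℕ} [Fact r.Prime] (hr : ¬ r ∣ M) (x : H1 (psi χ) N) :
    toHom (psi_smul_self hN) (shiftH1 r χ N x) = shiftHom r (toHom (psi_smul_self hN) x) := by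
  rw [shiftH1_apply, map_sub, map_nsmul, toHom_heckeH1 hr
    (hN _ ((ZMod.isUnit_iff_coprime r M).mpr ((Fact.out : r.Prime).coprime_iff_not_dvd.mpr hr)))]
  rfl

end Psi

/-! ### Parabolic values -/

section Parabolic

variable {M r : ℕ} [NeZero M] [Fact r.Prime] {N : Type*} [AddCommGroup N]

theorem hecke_toGamma0 (hr : ¬ r ∣ M) (φ : Additive (Gamma0 M) →+ N) (δ : Gamma1 M) :
    (heckeFam M r).hecke φ (Additive.ofMul (toGamma0 dvd_rfl δ)) =
      (heckeFam1 hr).hecke (φ.comp (toGamma0 (N := M) dvd_rfl).toAdditive) (Additive.ofMul δ) := by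
  have hψ : ∀ (γ : Gamma0 M) (v : N), psi (1 : ZMod M →* ℤ) γ • v = v := fun γ v => one_smul _ v
  obtain ⟨x, rfl⟩ := toHom_surjective hψ φ
  induction x using Submodule.Quotient.induction_on with
  | H c =>
    have h := DFunLike.congr_fun (resGamma1_heckeH1 (V := N) (1 : ZMod M →* ℤ) dvd_rfl hr (cls c))
      (Additive.ofMul δ)
    rw [← toHom_heckeH1 hr (fun v => one_smul _ v) hψ]
    exact h

theorem trace_sq_le_four {M : ℕ} (hM : 5 ≤ M) (hsq : Squarefree M)
    (γ : Gamma0 M) (htr : (mat γ).trace = 2) :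
    (γ : SL2Z) ∈ Gamma1 M := by
  obtain ⟨c, hc⟩ := dvd_lower_left M γ
  have hd := mat_det γ
  rw [Matrix.det_fin_two, hc] at hd
  rw [Matrix.trace_fin_two] at htr
  have hdvd : (M : ℤ) ∣ (mat γ 0 0 - 1) ^ 2 :=
    ⟨-(mat γ 0 1 * c), by linear_combination mat γ 0 0 * htr - hd⟩
  rw [(Int.squarefree_natCast.mpr hsq).dvd_pow_iff_dvd two_ne_zero] at hdvd
  obtain ⟨e, he⟩ := hdvd
  have h0 : (M : ℤ) ∣ mat γ 0 0 - 1 := ⟨e, he⟩
  have h1 : (M : ℤ) ∣ mat γ 1 1 - 1 := ⟨-e, by linear_combination htr - he⟩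
  rw [← ZMod.intCast_zmod_eq_zero_iff_dvd, Int.cast_sub, Int.cast_one, sub_eq_zero] at h0 h1
  exact (Gamma1_mem M _).mpr ⟨h0, h1, (ZMod.intCast_zmod_eq_zero_iff_dvd _ _).mpr (dvd_lower_left M γ)⟩

theorem shift_parabolic (hM : 5 ≤ M) (hsq : Squarefree M) (hr : ¬ r ∣ M) (h1 : (r : ZMod M) = 1)
    (h2 : ∀ v : N, v + v = 0 → v = 0)
    (h3 : (∀ v : N, v + v + v = 0 → v = 0) ∨ ∀ a : ZMod M, a ^ 2 - a + 1 ≠ 0)
    (φ : Additive (Gamma0 M) →+ N) : shiftHom r φ ∈ Hpar (Gamma0 M) N := by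
  set Φ := shiftHom r φ
  have hG1 : ∀ δ : Gamma1 M, (mat δ).trace ^ 2 ≤ 4 →
      Φ (Additive.ofMul (toGamma0 dvd_rfl δ)) = 0 := fun δ hδ => by
    show (heckeFam M r).hecke φ _ - (r + 1) • φ _ = 0
    rw [hecke_toGamma0 hr]
    exact hecke_parabolic_exact hM hr h1 (φ.comp (toGamma0 (N := M) dvd_rfl).toAdditive) δ hδ
  have htwo : ∀ γ : Gamma0 M, (mat γ).trace = 2 → Φ (Additive.ofMul γ) = 0 := fun γ hγ => by
    refine hG1 ⟨(γ : SL2Z), trace_sq_le_four hM hsq γ hγ⟩ ?_
    show (mat γ).trace ^ 2 ≤ 4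
    rw [hγ]
    norm_num
  have hneg : (-1 : SL2Z) ∈ Gamma0 M := by simp [Gamma0_mem]
  set n1 : Gamma0 M := ⟨-1, hneg⟩
  have hΦn : Φ (Additive.ofMul n1) = 0 := by
    refine h2 _ ?_
    rw [← map_add, ← ofMul_mul, show n1 * n1 = 1 from Subtype.ext (by simp [n1]), ofMul_one,
      map_zero]
  intro γ hγ
  obtain ⟨t, ht⟩ : ∃ t, t = (mat γ).trace := ⟨_, rfl⟩
  rw [← ht] at hγ
  have hcases : t = 2 ∨ t = -2 ∨ t = 0 ∨ t = 1 ∨ t = -1 := by
    have e1 : -2 ≤ t := by nlinarith
    have e2 : t ≤ 2 := by nlinarith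
    omega
  -- the square and the cube
  have hsq2 : mat γ * mat γ = t • mat γ - 1 := by
    have hd := mat_det γ
    rw [Matrix.det_fin_two] at hd
    rw [ht, Matrix.trace_fin_two]
    ext i j
    fin_cases i <;> fin_cases j <;>
      simp [Matrix.mul_apply, Fin.sum_univ_two, Matrix.smul_apply, -zsmul_eq_mul] <;> first | ring1 | linear_combination -hd
  rcases hcases with rfl | rfl | rfl | hone
  · exact htwo γ ht.symm
  · have e := htwo (n1 * γ) (by
      show ((n1 * γ : Gamma0 M) : SL2Z).1.trace = 2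
      simp [n1, mat] at ht ⊢
      linarith)
    rw [ofMul_mul, map_add, hΦn, zero_add] at e
    exact e
  · refine h2 _ ?_
    rw [← map_add, ← ofMul_mul, show γ * γ = n1 from mat_injective (by
      rw [mat_mul, hsq2, zero_smul, zero_sub]; simp [n1, mat]), hΦn]
  · rcases h3 with h3 | h3
    · refine h3 _ ?_
      rw [← map_add, ← map_add, ← ofMul_mul, ← ofMul_mul]
      have hcube : mat (γ * γ * γ) = -t • (1 : M2) := by
        rw [mat_mul, mat_mul, hsq2, sub_mul, smul_mul_assoc, hsq2, one_mul, smul_sub, smul_smul,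
          show t * t = 1 by rcases hone with rfl | rfl <;> rfl, one_smul, neg_smul]
        abel
      rcases hone with rfl | rfl
      · rw [show γ * γ * γ = n1 from mat_injective (by rw [hcube]; simp [n1, mat]), hΦn]
      · rw [show γ * γ * γ = 1 from mat_injective (by rw [hcube, mat_one, neg_neg, one_smul]),
          ofMul_one, map_zero]
    · obtain ⟨c, hc⟩ := dvd_lower_left M γ
      have hd := mat_det γ
      rw [Matrix.det_fin_two, hc] at hd
      rw [Matrix.trace_fin_two] at ht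
      refine absurd ?_ (h3 ((t * mat γ 0 0 : ℤ) : ZMod M))
      have h0 := congrArg (fun z : ℤ => (z : ZMod M))
        (show (t * mat γ 0 0) ^ 2 - t * mat γ 0 0 + 1 = (M : ℤ) * (-(mat γ 0 1 * c)) from by
          rcases hone with rfl | rfl
          · linear_combination -mat γ 0 0 * ht - hd
          · linear_combination -mat γ 0 0 * ht - hd)
      push_cast at h0 ⊢
      rwa [ZMod.natCast_self, zero_mul] at h0

end Parabolic

/-! ### The maps as homomorphisms -/

namespace Corr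

variable {M ℓ : ℕ} [Fact ℓ.Prime] [NeZero M] [NeZero (M * ℓ)] {A : Type*} [CommRing A]
  {χ : ZMod M →* A} {χ' : ZMod (M * ℓ) →* A} {N : Type*} [AddCommGroup N] [Module A N]
  (B : Bez M ℓ)
  (hχ : ∀ d : ZMod (M * ℓ), IsUnit d → χ' d = χ (ZMod.castHom (dvd_level M ℓ) (ZMod M) d))
  (hN : ∀ d : ZMod M, IsUnit d → ∀ v : N, χ d • v = v)

theorem toHom_mapR (x : H1 (psi χ) N) :
    toHom (psi_smul_eq hN (dvd_level M ℓ) hχ) (mapR χ N hχ x) =
      resHom (toHom (psi_smul_self hN) x) := by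
  induction x using Submodule.Quotient.induction_on with
  | H c =>
    refine AddMonoidHom.ext fun g => ?_
    obtain ⟨γ, rfl⟩ := Additive.ofMul.surjective g
    rw [mapR, op_cls, toHom_cls, opZ1_apply, Fintype.sum_unique, resHom_apply, toHom_cls]
    simp [w, dres]

theorem toHom_mapW (x : H1 (psi χ') N) :
    toHom (psi_smul_eq hN (dvd_level M ℓ) hχ) (mapW χ N B hχ x) =
      opHom B (toHom (psi_smul_eq hN (dvd_level M ℓ) hχ) x) := by
  induction x using Submodule.Quotient.induction_on with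
  | H c =>
    refine AddMonoidHom.ext fun g => ?_
    obtain ⟨γ, rfl⟩ := Additive.ofMul.surjective g
    rw [mapW, op_cls, toHom_cls, opZ1_apply, Fintype.sum_unique, opHom_apply, toHom_cls]
    have hw : ((B.W 0 0 : ℤ) : ZMod M) = 1 := by
      rw [show B.W 0 0 = 1 + (M : ℤ) * B.b by
        simp [Bez.W]; linear_combination B.eq]
      push_cast
      rw [ZMod.natCast_self, zero_mul, add_zero]
    simp [w, datk, hw]

theorem toHom_mapTau (x : H1 (psi χ') N) :
    toHom (psi_smul_self hN) (mapTau χ N hχ x) =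
      tauHom (dvd_level M ℓ) (toHom (psi_smul_eq hN (dvd_level M ℓ) hχ) x) := by
  classical
  induction x using Submodule.Quotient.induction_on with
  | H c =>
    refine AddMonoidHom.ext fun g => ?_
    obtain ⟨γ, rfl⟩ := Additive.ofMul.surjective g
    rw [mapTau, op_cls, toHom_cls, opZ1_apply, tauHom_fib, ← Finset.sum_coe_sort (fib M ℓ),
      ← Equiv.sum_comp ((dtau M ℓ).perm γ) (fun z : fib M ℓ =>
        cosetCoc (toHom (psi_smul_eq hN (dvd_level M ℓ) hχ) (cls c)) (γ : SL2Z) z.1)]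
    refine Finset.sum_congr rfl fun z _ => ?_
    have hu : IsUnit ((mat (fibRep z) 0 0 : ℤ) : ZMod M) :=
      IsUnit.of_mul_eq_one _ ((isPsi_self χ).upper (fibRep z)).2
    rw [w, show (dtau M ℓ).α z = mat (fibRep z) from rfl, hN _ hu, cosetCoc, toHom_cls]
    refine congrArg c.1 (Subtype.ext ?_)
    show z.1.out⁻¹ * (γ : SL2Z) * (((γ⁻¹ : Gamma0 M) : SL2Z) • z.1).out =
      ((γ : SL2Z) • (((γ⁻¹ : Gamma0 M) : SL2Z) • z.1)).out⁻¹ * (γ : SL2Z) *
        (((γ⁻¹ : Gamma0 M) : SL2Z) • z.1).out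
    rw [Subgroup.coe_inv, smul_inv_smul]

theorem tauHom_comp {N' : Type*} [AddCommGroup N'] (f : N →+ N')
    (x : Additive (Gamma0 (M * ℓ)) →+ N) :
    tauHom (dvd_level M ℓ) (f.comp x) = f.comp (tauHom (dvd_level M ℓ) x) := by
  refine AddMonoidHom.ext fun g => ?_
  obtain ⟨γ, rfl⟩ := Additive.ofMul.surjective g
  rw [AddMonoidHom.comp_apply, tauHom_fib, tauHom_fib, map_sum]
  rfl

theorem tauHom_sum {ι : Type*} (s : Finset ι) (x : ι → (Additive (Gamma0 (M * ℓ)) →+ N)) :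
    tauHom (dvd_level M ℓ) (∑ i ∈ s, x i) = ∑ i ∈ s, tauHom (dvd_level M ℓ) (x i) := by
  refine AddMonoidHom.ext fun g => ?_
  obtain ⟨γ, rfl⟩ := Additive.ofMul.surjective g
  simp only [AddMonoidHom.finsetSum_apply, tauHom_fib, cosetCoc]
  exact Finset.sum_comm

theorem shiftH1_mapR {r : ℕ} [Fact r.Prime] (hr : r ≠ ℓ) (x : H1 (psi χ) N) :
    mapR χ N hχ (shiftH1 r χ N x) = shiftH1 r χ' N (mapR χ N hχ x) := by
  rw [shiftH1_apply, shiftH1_apply, map_sub, map_nsmul, R_hecke χ hχ hr]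

theorem shiftH1_mapW {r : ℕ} [Fact r.Prime] (hr : r ≠ ℓ) (x : H1 (psi χ') N) :
    mapW χ N B hχ (shiftH1 r χ' N x) = shiftH1 r χ' N (mapW χ N B hχ x) := by
  rw [shiftH1_apply, shiftH1_apply, map_sub, map_nsmul, W_hecke χ B hχ hr]

/-! ### Ihara's lemma and its dual -/

variable {p : ℕ} [Fact p.Prime] (hp2 : p ≠ 2) (hpN : ∀ v : N, p • v = 0) (hM : 5 ≤ M)
  (hsq : Squarefree M) (ht : 5 ≤ p ∨ ∀ a : ZMod M, a ^ 2 - a + 1 ≠ 0) {r : ℕ} [Fact r.Prime]
  (hr : ¬ r ∣ M * ℓ) (h1 : (r : ZMod M) = 1)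

include hpN in
theorem eq_zero_of_nsmul {m : ℕ} (hm : ¬ p ∣ m) {v : N} (hv : m • v = 0) : v = 0 := by
  letI : Module (ZMod p) N := AddCommGroup.zmodModule (n := p) (G := N) hpN
  rw [← Nat.cast_smul_eq_nsmul (ZMod p)] at hv
  have hm0 : (m : ZMod p) ≠ 0 := fun h => hm ((ZMod.natCast_eq_zero_iff m p).mp h)
  rw [← one_smul (ZMod p) v, ← inv_mul_cancel₀ hm0, mul_smul, hv, smul_zero]

include hN hp2 hpN hM hsq ht hr h1 in
theorem shift_mem_Hpar (x : H1 (psi χ) N) :
    toHom (psi_smul_self hN) (shiftH1 r χ N x) ∈ Hpar (Gamma0 M) N := by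
  have hp : p.Prime := Fact.out
  rw [toHom_shiftH1 hN (fun h => hr (h.mul_right ℓ))]
  refine shift_parabolic hM hsq (fun h => hr (h.mul_right ℓ)) h1 (fun v hv => ?_) ?_ _
  · exact eq_zero_of_nsmul hpN (m := 2)
      (fun h => hp2 ((Nat.prime_dvd_prime_iff_eq hp Nat.prime_two).mp h)) ((two_nsmul v).trans hv)
  · refine ht.imp (fun h5 v hv => eq_zero_of_nsmul hpN (m := 3) (fun h => ?_) ?_) id
    · have := Nat.le_of_dvd (by norm_num) h
      omega
    · rw [succ_nsmul, two_nsmul]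
      exact hv

include B hN hp2 hpN hM hsq ht hr h1 in
/-- **Injectivity of the sum of the degeneracy maps.** -/
theorem kernel_shift {x y : H1 (psi χ) N} (h : mapR χ N hχ x + mapW χ N B hχ (mapR χ N hχ y) = 0) :
    shiftH1 r χ N (shiftH1 r χ N x) = 0 ∧ shiftH1 r χ N (shiftH1 r χ N y) = 0 := by
  letI : Module (ZMod p) N := AddCommGroup.zmodModule (n := p) (G := N) hpN
  have hrl : r ≠ ℓ := fun e => hr (e ▸ dvd_mul_left ℓ M)
  have h' : mapR χ N hχ (shiftH1 r χ N x) + mapW χ N B hχ (mapR χ N hχ (shiftH1 r χ N y)) = 0 := by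
    rw [shiftH1_mapR hχ hrl, shiftH1_mapR hχ hrl, shiftH1_mapW B hχ hrl, ← map_add, h, map_zero]
  have h'' := congrArg (toHom (psi_smul_eq hN (dvd_level M ℓ) hχ)) h'
  rw [map_add, map_zero, toHom_mapR hχ hN, toHom_mapW B hχ hN, toHom_mapR hχ hN] at h''
  set φ : Hpar (Gamma0 M) N := ⟨_, shift_mem_Hpar hN hp2 hpN hM hsq ht hr h1 x⟩
  set ψ : Hpar (Gamma0 M) N := ⟨_, shift_mem_Hpar hN hp2 hpN hM hsq ht hr h1 y⟩
  have key : ∀ γ : Gamma0 M, (M : ℤ) ∣ mat γ 1 1 - 1 →
      φ.1 (Additive.ofMul γ) = 0 ∧ ψ.1 (Additive.ofMul γ) = 0 := fun γ hγ => by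
    refine ⟨?_, ?_⟩ <;> refine (Module.forall_dual_apply_eq_zero_iff (ZMod p) _).mp fun f => ?_
    all_goals
      have hk : res (dvd_level M ℓ) (mapHpar f.toAddMonoidHom φ) +
          B.op (res (dvd_level M ℓ) (mapHpar f.toAddMonoidHom ψ)) = 0 := by
        refine Subtype.ext (AddMonoidHom.ext fun g => ?_)
        obtain ⟨δ, rfl⟩ := Additive.ofMul.surjective g
        have e := congrArg f (DFunLike.congr_fun h'' (Additive.ofMul δ))
        rw [AddMonoidHom.add_apply, map_add, AddMonoidHom.zero_apply, map_zero] at e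
        exact e
    · exact (B.eq_zero_of_kernel hp2 hk hγ).1
    · exact (B.eq_zero_of_kernel hp2 hk hγ).2
  have hrM : ¬ r ∣ M := fun h => hr (h.mul_right ℓ)
  refine ⟨?_, ?_⟩ <;> refine toHom_injective (psi_smul_self hN) ?_ <;>
    rw [toHom_shiftH1 hN hrM, map_zero, shiftHom, sub_eq_zero]
  · exact hecke_of_kills_Gamma1 hrM fun γ hγ => (key γ hγ).1
  · exact hecke_of_kills_Gamma1 hrM fun γ hγ => (key γ hγ).2

include hN hp2 hpN hM hsq ht hr h1 in
/-- **Surjectivity of the pair of transfers.** -/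
theorem surjective_shift [Finite N] (x y : H1 (psi χ) N) : ∃ z : H1 (psi χ') N,
    mapTau χ N hχ z = shiftH1 r χ N (shiftH1 r χ N x) ∧
      mapTau χ N hχ (mapW χ N B hχ z) = shiftH1 r χ N (shiftH1 r χ N y) := by
  classical
  letI : Module (ZMod p) N := AddCommGroup.zmodModule (n := p) (G := N) hpN
  haveI : @Module.Finite (ZMod p) N _ _ _ := Module.Finite.of_finite
  have hrM : ¬ r ∣ M := fun h => hr (h.mul_right ℓ)
  set b := Module.finBasis (ZMod p) N
  set φ : Hpar (Gamma0 M) N := ⟨_, shift_mem_Hpar hN hp2 hpN hM hsq ht hr h1 x⟩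
  set ψ : Hpar (Gamma0 M) N := ⟨_, shift_mem_Hpar hN hp2 hpN hM hsq ht hr h1 y⟩
  choose w hw using fun i => shiftOp_mem_range (p := p) B hr hp2
    (mapHpar (b.coord i).toAddMonoidHom φ, mapHpar (b.coord i).toAddMonoidHom ψ)
  let sb : ∀ i, ZMod p →+ N := fun i => (LinearMap.toSpanSingleton (ZMod p) N (b i)).toAddMonoidHom
  obtain ⟨z, hz⟩ := toHom_surjective (psi_smul_eq hN (dvd_level M ℓ) hχ)
    (∑ i, (sb i).comp (w i).1)
  have hsum : ∀ v : N, ∑ i, sb i (b.coord i v) = v := fun v => b.sum_repr v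
  have key : ∀ (u : Hpar (Gamma0 M) N) (g : ∀ i, Hpar (Gamma0 (M * ℓ)) (ZMod p)),
      (∀ i, tau (dvd_level M ℓ) (g i) = shiftOp r (mapHpar (b.coord i).toAddMonoidHom u)) →
      tauHom (dvd_level M ℓ) (∑ i, (sb i).comp (g i).1) = shiftHom r u.1 := by
    intro u g hg
    rw [tauHom_sum]
    refine AddMonoidHom.ext fun a => ?_
    rw [AddMonoidHom.finsetSum_apply]
    conv_rhs => rw [← hsum (shiftHom r u.1 a)]
    refine Finset.sum_congr rfl fun i _ => ?_
    rw [tauHom_comp, AddMonoidHom.comp_apply]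
    refine congrArg (sb i) ((DFunLike.congr_fun (congrArg Subtype.val (hg i)) a).trans ?_)
    show (heckeFam M r).hecke ((b.coord i).toAddMonoidHom.comp u.1) a -
      (r + 1) • ((b.coord i).toAddMonoidHom.comp u.1 : Additive (Gamma0 M) →+ ZMod p) a = _
    rw [HeckeFamily.hecke_comp]
    simp [shiftHom]
  refine ⟨z, ?_, ?_⟩ <;> refine toHom_injective (psi_smul_self hN) ?_
  · rw [toHom_mapTau hχ hN, hz, toHom_shiftH1 hN hrM]
    exact key φ w fun i => congrArg Prod.fst (hw i)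
  · rw [toHom_mapTau hχ hN, toHom_mapW B hχ hN, hz, toHom_shiftH1 hN hrM,
      show opHom B (∑ i, (sb i).comp (w i).1) = ∑ i, (sb i).comp (B.op (w i)).1 from
        AddMonoidHom.ext fun a => by simp [opHom, AddMonoidHom.finsetSum_apply]; rfl]
    exact key ψ (fun i => B.op (w i)) fun i => congrArg Prod.snd (hw i)

end Corr

end FLTAgent.ModLift
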