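import Fermat.Agent.ModLift.Degen.Interface
import Fermat.Agent.ModLift.Degen.Level

/-!
# The level with one more prime

Characters, half powers and residual systems of the two levels agree, so the operators between
them exist.
-/

set_option autoImplicit false
set_option linter.unusedSectionVars false
set_option linter.style.haveILetI false

noncomputable section

set_option synthInstance.maxHeartbeats 400000
set_option maxHeartbeats 1000000

open IsLocalRing FLTAgent.Lowering.Cocycle

namespace FLTAgent.ModLift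

open FLTAgent.Lowering

local notation "LL" => AlgebraicClosure ℚ
local notation "GG" => (AlgebraicClosure ℚ ≃ₐ[ℚ] AlgebraicClosure ℚ)

variable {p : ℕ} [Fact p.Prime] {O : Type} [CommRing O] [IsDomain O] [IsDiscreteValuationRing O]
  [Algebra ℤ_[p] O] [Module.Finite ℤ_[p] O] {S S' : Setup p O} {ℓ : ℕ}

namespace Raise

variable (h : Raise S S' ℓ) (X : Aux S)

theorem level_up : (h.up X).level = X.level * ℓ := by
  show S'.M0 * ∏ q ∈ X.Q, q = S.M0 * (∏ q ∈ X.Q, q) * ℓ
  rw [h.M0_eq]
  ring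

theorem level_dvd : X.level ∣ (h.up X).level := ⟨ℓ, h.level_up X⟩

include h in
theorem mem_bad : ℓ ∈ S.bad :=
  h.bad_eq ▸ S'.level_mem ℓ h.prime (h.M0_eq ▸ dvd_mul_left ℓ S.M0)

include h in
theorem not_dvd_level : ¬ ℓ ∣ X.level := fun hd => by
  rcases h.prime.dvd_mul.mp hd with hd | hd
  · exact h.not_dvd hd
  · obtain ⟨q, hq, hlq⟩ := (Nat.Prime.prime h.prime).exists_mem_finset_dvd hd
    exact X.notMem q hq (((Nat.prime_dvd_prime_iff_eq h.prime (X.prime q hq)).mp hlq) ▸ h.mem_bad)

/-- The reduction of units from the upper level. -/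
def downUnit : (ZMod (h.up X).level)ˣ →* (ZMod X.level)ˣ :=
  Units.map (ZMod.castHom (h.level_dvd X) (ZMod X.level)).toMonoidHom

include h in
theorem eps_eq {N N' : ℕ} (h0 : S.M0 ∣ N) (h0' : S'.M0 ∣ N') (hd : N ∣ N') (e : Bool)
    (u : (ZMod N')ˣ) :
    S'.eps h0' e u = S.eps h0 e (Units.map (ZMod.castHom hd (ZMod N)).toMonoidHom u) := by
  cases e
  · simp [Setup.eps]
  · simp only [Setup.eps, if_true, MonoidHom.finsetProd_apply]
    refine Fintype.prod_equiv (Equiv.subtypeEquivRight fun t => by rw [h.T_eq]) _ _ fun t => ?_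
    show S'.χ t.1 t.2 _ = S.χ t.1 _ _
    rw [h.chi_eq t.1 _ t.2]
    refine congrArg (S.χ t.1 _) (Units.ext ?_)
    exact (RingHom.congr_fun
      (ZMod.castHom_comp ((S.T_prime t.1 (h.T_eq ▸ t.2)).2.1.trans h0) hd) (u : ZMod N')).symm

theorem dia_up (u : (ZMod (h.up X).level)ˣ) : (h.up X).dia u = X.dia (h.downUnit X u) := by
  refine congrArg (QuotientGroup.mk' X.coSylow) (funext fun q => Units.ext ?_)
  have hd : (q : ℕ) ∣ X.level := dvd_mul_of_dvd_right (Finset.dvd_prod_of_mem _ q.2) _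
  exact (RingHom.congr_fun (ZMod.castHom_comp hd (h.level_dvd X)) (u : ZMod (h.up X).level)).symm

theorem chiU_up (e : Bool) (u : (ZMod (h.up X).level)ˣ) :
    (h.up X).chiU e u = X.chiU e (h.downUnit X u) := by
  refine Units.ext ?_
  show algebraMap O X.Coef ((S'.eps _ e u : Oˣ) : O) * MonoidAlgebra.of O X.Dia ((h.up X).dia u) =
    algebraMap O X.Coef ((S.eps _ e _ : Oˣ) : O) * MonoidAlgebra.of O X.Dia (X.dia (h.downUnit X u))
  rw [h.dia_up X, h.eps_eq X.dvd_M0_level _ (h.level_dvd X)]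
  rfl

/-- The character of the upper level, with the coefficients of the lower one. -/
def chiUp (e : Bool) : ZMod (h.up X).level →* X.Coef := (h.up X).chi e

theorem chiUp_eq (e : Bool) (hd : X.level ∣ (h.up X).level) (d : ZMod (h.up X).level)
    (hu : IsUnit d) : h.chiUp X e d = X.chi e (ZMod.castHom hd (ZMod X.level) d) := by
  obtain ⟨u, rfl⟩ := hu
  show (h.up X).chi e (u : ZMod (h.up X).level) = X.chi e ((h.downUnit X u : (ZMod X.level)ˣ) : ZMod X.level)
  rw [show X.chi e ((h.downUnit X u : (ZMod X.level)ˣ) : ZMod X.level) =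
    (X.chiU e (h.downUnit X u) : X.Coef) from MulChar.ofUnitHom_coe (X.chiU e) _]
  exact (MulChar.ofUnitHom_coe ((h.up X).chiU e) u).trans (congrArg Units.val (h.chiU_up X e u))

theorem half_up (e : Bool) (u : (ZMod (h.up X).level)ˣ) :
    (h.up X).half e u = X.half e (h.downUnit X u) := by
  rw [Aux.half_apply, Aux.half_apply, h.chiU_up X e u]
  rfl

theorem tr0_up (l : GoodPrime S.bad) : S'.tr0 (goodMap h.bad_eq l) = S.tr0 l := by
  obtain ⟨V, hV⟩ := Frobenius.exists_liesOverPrime l.1 l.2.1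
  obtain ⟨σ, hσ⟩ := Frobenius.exists_isFrobeniusAt V l.1 l.2.1 hV
  rw [S.tr0_spec l V hV σ hσ, S'.tr0_spec (goodMap h.bad_eq l) V hV σ hσ, h.rb_eq]

theorem sysEq : SysEq h.bad_eq X.sys (h.up X).sys := by
  refine MvPolynomial.ringHom_ext (fun r => ?_) fun l => ?_
  · rw [RingHom.comp_apply, polyMap_C, Aux.sys, Aux.sys, Aux.sysOn_C, Aux.sysOn_C]
  · rw [RingHom.comp_apply, polyMap_X, Aux.sys, Aux.sys]
    by_cases hl : l.1 ∈ X.Q
    · rw [X.sysOn_mem hl, (h.up X).sysOn_mem (s := (h.up X).Q) (l := goodMap h.bad_eq l) hl]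
      rfl
    · rw [X.sysOn_not_mem hl, (h.up X).sysOn_not_mem (s := (h.up X).Q) (l := goodMap h.bad_eq l) hl, h.tr0_up l]

/-- The normalisation of the operators at `ℓ`. -/
def eta (e : Bool) : X.Coef :=
  (X.half e (ZMod.unitOfCoprime ℓ
    (h.prime.coprime_iff_not_dvd.mpr (h.not_dvd_level X))) : X.Coef)

theorem eta_sq (e : Bool) : h.eta X e * h.eta X e * X.chi e (ℓ : ZMod X.level) = 1 := by
  set u := ZMod.unitOfCoprime ℓ (h.prime.coprime_iff_not_dvd.mpr (h.not_dvd_level X))
  rw [show X.chi e (ℓ : ZMod X.level) = (X.chiU e u : X.Coef) from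
    MulChar.ofUnitHom_coe (X.chiU e) u]
  exact (congrArg Units.val (X.half_sq_mul e u) :)

include h in
theorem exists_ops [Fact ℓ.Prime] (e : Bool) :
    Nonempty (LevelOps ℓ (X.chi e) (h.chiUp X e) h.bad_eq (h.eta X e) p) := by
  refine exists_levelOps ℓ (h.level_up X) (h.not_dvd_level X) _ _ (h.chiUp_eq X e) h.bad_eq
    h.mem_bad _ (h.eta_sq X e) S.p_ne (S.five_le.trans (Nat.le_of_dvd X.level_pos X.dvd_M0_level))
    (Aux.level_squarefree X) (S.tors.imp id fun hno a ha => ?_)
  refine hno (ZMod.castHom X.dvd_M0_level (ZMod S.M0) a) ?_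
  rw [← map_pow, ← map_sub, ← map_one (ZMod.castHom X.dvd_M0_level (ZMod S.M0)), ← map_add, ha,
    map_zero]

/-- The chosen operators. -/
def ops [Fact ℓ.Prime] (e : Bool) :
    LevelOps ℓ (X.chi e) (h.chiUp X e) h.bad_eq (h.eta X e) p :=
  (h.exists_ops X e).some

end Raise

namespace Aux

variable (X : Aux S)

/-- The residual coefficients. -/
abbrev ResQuot : Type := X.Coef ⧸ maximalIdeal X.Coef

theorem smul_resQuot {u : X.Coef} (hu : residue O (X.aug u) = 1) (v : X.ResQuot) : u • v = v := by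
  obtain ⟨a, rfl⟩ := Submodule.Quotient.mk_surjective _ v
  rw [← Submodule.Quotient.mk_smul, Submodule.Quotient.eq, smul_eq_mul, ← sub_one_mul]
  refine Ideal.mul_mem_right _ _ ?_
  rw [mem_maximalIdeal, mem_nonunits_iff, X.isUnit_iff_aug, ← residue_ne_zero_iff_isUnit,
    map_sub, map_sub, map_one, map_one, hu, sub_self]
  exact fun h => h rfl

theorem isResidual_resQuot {η : X.Coef} (hη : residue O (X.aug η) = 1) (e : Bool) :
    IsResidual p (X.chi e) η X.ResQuot where
  finite := by
    have := X.finite_quotient_pow 1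
    rwa [pow_one] at this
  kill v := by
    obtain ⟨a, rfl⟩ := Submodule.Quotient.mk_surjective _ v
    rw [← Submodule.Quotient.mk_smul, Submodule.Quotient.mk_eq_zero, nsmul_eq_mul]
    haveI := X.finite_coef
    exact Ideal.mul_mem_right _ _
      ((mem_maximalIdeal _).mpr (not_isUnit_natCast p X.Coef))
  chi d hd v := X.smul_resQuot (X.residue_chi e hd) v
  eta v := X.smul_resQuot hη v

end Aux

theorem Raise.isResidual (h : Raise S S' ℓ) (X : Aux S) (e : Bool) :
    IsResidual p (X.chi e) (h.eta X e) X.ResQuot :=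
  X.isResidual_resQuot (X.residue_aug_half e _) e

end FLTAgent.ModLift
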